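import Fermat.Agent.Ideles.Local
import Fermat.Agent.ExistenceTheorem.KummerLocal
import Mathlib.FieldTheory.Galois.IsGaloisGroup

/-!
# The completion of a Galois extension

A map of number fields respecting two primes extends to the completions. So the completion above is
a field over the one below with an action of the decomposition group, and it is Galois with that
group: a fixed element is approximated by traces from the global field.
-/

set_option autoImplicit false
set_option linter.unusedSectionVars false
set_option linter.style.haveILetI false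

noncomputable section

open NumberField IsDedekindDomain Finset WithZero Filter Topology
open FA.ArtinRec FA.Ideles
open FA.QuadFormsNF (valued_algebraMap charZero_completion exists_exp_subset exists_element_near exists_weak_approx)
open scoped Pointwise Classical

namespace FA.LocalCFT

universe u

section Ball

variable {F : Type*} [Field F] [NumberField F] (P : HeightOneSpectrum (𝓞 F))

theorem ball_mem_nhds (t : P.adicCompletion F) (k : ℕ) :
    {y : P.adicCompletion F | Valued.v (y - t) ≤ exp (-(k : ℤ))} ∈ 𝓝 t := by
  have hc : Valued.v (algebraMap F (P.adicCompletion F) ((unif P : F) ^ k)) = exp (-(k : ℤ)) := by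
    rw [valued_algebraMap, map_pow, valuation_eq_exp, ord_unif, ← exp_nsmul]
    simp
  refine mem_of_superset (((Valued.isOpen_ball (P.adicCompletion F)
    ((Valued.v (R := P.adicCompletion F)).restrict
      (algebraMap F (P.adicCompletion F) ((unif P : F) ^ k)))).preimage
        (continuous_id.sub continuous_const)).mem_nhds (show (Valued.v (R := P.adicCompletion F)).restrict
          (t - t) < _ by rw [sub_self, Valuation.restrict_lt_iff, map_zero, hc]; exact exp_pos)) ?_
  intro y hy
  rw [Set.mem_preimage, Set.mem_ofPred_eq, Valuation.restrict_lt_iff, hc] at hy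
  exact hy.le

/-- Congruent to every level is equal. -/
theorem eq_of_forall_near {z t : P.adicCompletion F}
    (h : ∀ k : ℕ, Valued.v (z - t) ≤ exp (-(k : ℤ))) : z = t := by
  by_contra hne
  have h0 : Valued.v (z - t) ≠ 0 := (Valuation.ne_zero_iff _).2 (sub_ne_zero.2 hne)
  have h' := h ((-log (Valued.v (z - t))).toNat + 1)
  rw [← exp_log h0, exp_le_exp, exp_log h0] at h'
  omega

end Ball

section Ext

variable {F F' : Type*} [Field F] [NumberField F] [Field F'] [NumberField F']
  (P : HeightOneSpectrum (𝓞 F)) (P' : HeightOneSpectrum (𝓞 F')) (f : F →+* F') {e : ℕ}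
  (he : 0 < e) (hf : ∀ x, P'.valuation F' (f x) = P.valuation F x ^ e)

include he hf

theorem continuous_withValMap :
    Continuous (WithVal.map (P.valuation F) (P'.valuation F') f) := by
  refine continuous_of_continuousAt_zero _ ?_
  intro U hU
  rw [map_zero] at hU
  obtain ⟨γ, hγ⟩ := Valued.mem_nhds_zero.1 hU
  set r := MonoidWithZeroHom.ValueGroup₀.embedding γ.1
  have hr : r ≠ 0 := (map_ne_zero _).2 γ.ne_zero
  obtain ⟨k, hk⟩ : ∃ k : ℕ, -(k : ℤ) < log r := ⟨(-log r + 1).toNat, by omega⟩
  have hc : P.valuation F ((unif P : F) ^ k) = exp (-(k : ℤ)) := by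
    rw [map_pow, valuation_eq_exp, ord_unif, ← exp_nsmul]
    simp
  refine mem_map.2 (mem_of_superset ((Valued.isOpen_ball (WithVal (P.valuation F))
    ((Valued.v (R := WithVal (P.valuation F))).restrict
      (WithVal.toVal _ ((unif P : F) ^ k)))).mem_nhds
        (show (Valued.v (R := WithVal (P.valuation F))).restrict 0 <
          (Valued.v (R := WithVal (P.valuation F))).restrict
            (WithVal.toVal _ ((unif P : F) ^ k)) by
        rw [Valuation.restrict_lt_iff, map_zero, WithVal.valued_toVal, hc]; exact exp_pos)) ?_)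
  intro x hx
  rw [Set.mem_ofPred_eq, Valuation.restrict_lt_iff,
    WithVal.valued_toVal (P.valuation F) ((unif P : F) ^ k), hc] at hx
  refine hγ ?_
  rw [Set.mem_ofPred_eq, Valuation.restrict_lt_iff_lt_embedding]
  rw [WithVal.map_apply, WithVal.valued_toVal, hf, WithVal.apply_ofVal]
  refine lt_of_lt_of_le (pow_lt_pow_left₀ hx zero_le he.ne') ?_
  rw [← exp_nsmul]
  refine le_of_le_of_eq (exp_le_exp.2 ?_) (exp_log hr)
  simp only [nsmul_eq_mul]
  nlinarith [show (1 : ℤ) ≤ e from by exact_mod_cast he, Int.natCast_nonneg k]

/-- **The map of the completions.** -/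
def extHom : P.adicCompletion F →+* P'.adicCompletion F' :=
  (HeightOneSpectrum.adicCompletion.equiv F' P').symm.toRingHom.comp
    ((UniformSpace.Completion.mapRingHom (WithVal.map (P.valuation F) (P'.valuation F') f)
      (continuous_withValMap P P' f he hf)).comp
        (HeightOneSpectrum.adicCompletion.equiv F P).toRingHom)

theorem extHom_algebraMap (x : F) :
    extHom P P' f he hf (algebraMap F (P.adicCompletion F) x) =
      algebraMap F' (P'.adicCompletion F') (f x) := by
  apply HeightOneSpectrum.adicCompletion.ext
  exact UniformSpace.Completion.mapRingHom_coe (continuous_withValMap P P' f he hf) _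

theorem continuous_extHom : Continuous (extHom P P' f he hf) :=
  (HeightOneSpectrum.adicCompletion.continuous_ofCompletion F' P').comp
    (UniformSpace.Completion.continuous_map.comp
      (HeightOneSpectrum.adicCompletion.continuous_toCompletion F P))

/-- **The valuation is raised to the exponent.** -/
theorem valued_extHom (z : P.adicCompletion F) :
    Valued.v (extHom P P' f he hf z) = Valued.v z ^ e := by
  rcases eq_or_ne z 0 with rfl | hz
  · simp [zero_pow he.ne']
  have hone : {y : P'.adicCompletion F' | Valued.v (y - 1) ≤ exp (-((1 : ℕ) : ℤ))} ∈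
      𝓝 (extHom P P' f he hf (1 : P.adicCompletion F)) := by
    rw [map_one]
    exact ball_mem_nhds P' 1 1
  obtain ⟨k, hk⟩ := exists_exp_subset P ((continuous_extHom P P' f he hf).continuousAt hone)
  obtain ⟨a, ha⟩ := exists_near P (Units.mk0 z hz) k
  have hP' : Valued.v (extHom P P' f he hf
      ((localEmb P a / Units.mk0 z hz : (P.adicCompletion F)ˣ) : P.adicCompletion F)) = 1 := by
    have h := hk _ (((mem_nearLocal P).1 ha).trans (exp_le_exp.2 (by omega)))
    rw [Set.mem_preimage, Set.mem_ofPred_eq] at h
    rw [← sub_add_cancel (extHom P P' f he hf _) 1, Valuation.map_add_eq_of_lt_right _ (by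
      rw [map_one]; exact h.trans_lt (by rw [← exp_zero, exp_lt_exp]; omega)), map_one]
  have hP := valued_eq_one_of_nearLocal P ha
  rw [Units.val_div_eq_div_val, localEmb_val, Units.val_mk0, map_div₀,
    div_eq_one_iff_eq ((Valuation.ne_zero_iff _).2 hz)] at hP
  rw [Units.val_div_eq_div_val, localEmb_val, Units.val_mk0, map_div₀, map_div₀,
    div_eq_one_iff_eq ((Valuation.ne_zero_iff _).2 ((map_ne_zero _).2 hz)), extHom_algebraMap,
    valued_algebraMap, hf] at hP'
  rw [← hP', ← hP, valued_algebraMap]

theorem isClosed_range_extHom : IsClosed (Set.range (extHom P P' f he hf)) := by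
  have hind : IsInducing (extHom P P' f he hf) := by
    refine IsTopologicalAddGroup.isInducing_iff_nhds_zero.2 (le_antisymm ?_ ?_)
    · rw [← map_le_iff_le_comap]
      have h := (continuous_extHom P P' f he hf).tendsto 0
      rwa [map_zero] at h
    · intro U hU
      obtain ⟨k, hk⟩ := exists_exp_subset P hU
      refine mem_comap.2 ⟨_, ball_mem_nhds P' 0 (e * k), fun y hy => hk y ?_⟩
      rw [Set.mem_preimage, Set.mem_ofPred_eq, sub_zero, valued_extHom] at hy
      rw [sub_zero]
      refine (pow_le_pow_iff_left₀ zero_le zero_le he.ne').1 (hy.trans_eq ?_)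
      rw [← exp_nsmul, nsmul_eq_mul]
      push_cast
      ring_nf
  exact (AddMonoidHom.isUniformInducing_of_isInducing hind).isComplete_range.isClosed

omit he hf in
theorem ext_of_algebraMap {g h : P.adicCompletion F →+* P'.adicCompletion F'}
    (hg : Continuous g) (hh : Continuous h)
    (e : ∀ x, g (algebraMap F (P.adicCompletion F) x) = h (algebraMap F (P.adicCompletion F) x)) :
    g = h :=
  DFunLike.coe_injective ((HeightOneSpectrum.denseRange_algebraMap F P).equalizer hg hh (funext e))

end Ext

variable {K : Type u} [Field K] [NumberField K] {L : Type*} [Field L] [NumberField L] [Algebra K L]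
  [IsGalois K L] (Q : HeightOneSpectrum (𝓞 L))

theorem valuation_galPrime (g : L ≃ₐ[K] L) (z : L) :
    (galPrime g Q).valuation L (g z) = Q.valuation L z := by
  rcases eq_or_ne z 0 with rfl | hz
  · simp
  · have h := ord_galU g Q (Units.mk0 z hz)
    rw [show g z = (galU g (Units.mk0 z hz) : L) from rfl, valuation_eq_exp, h, ← valuation_eq_exp]
    rfl

theorem valuation_gal_apply (g : L ≃ₐ[K] L) (z : L) :
    Q.valuation L (g z) = (galPrime g⁻¹ Q).valuation L z := by
  conv_lhs => rw [← galPrime_one (K := K) Q, ← mul_inv_cancel g, galPrime_mul]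
  exact valuation_galPrime _ g z

/-- The map of the completion below. -/
def belowHom : (belowP K Q).adicCompletion K →+* Q.adicCompletion L :=
  extHom (belowP K Q) Q (algebraMap K L) (eIdx_pos Q) (valuation_baseU Q)

/-- The completion above is an algebra over the completion below. -/
instance belowAlgebra : Algebra ((belowP K Q).adicCompletion K) (Q.adicCompletion L) :=
  (belowHom Q).toAlgebra

theorem belowHom_def :
    algebraMap ((belowP K Q).adicCompletion K) (Q.adicCompletion L) = belowHom Q := rfl

theorem belowHom_algebraMap (x : K) :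
    belowHom Q (algebraMap K ((belowP K Q).adicCompletion K) x) =
      algebraMap L (Q.adicCompletion L) (algebraMap K L x) :=
  extHom_algebraMap _ _ _ _ _ x

theorem continuous_belowHom : Continuous (belowHom (K := K) Q) :=
  continuous_extHom _ _ _ _ _

theorem valued_belowHom (z : (belowP K Q).adicCompletion K) :
    Valued.v (belowHom Q z) = Valued.v z ^ eIdx K Q :=
  valued_extHom _ _ _ _ _ z

theorem galPrime_of_mem_stab (g : MulAction.stabilizer (L ≃ₐ[K] L) Q.asIdeal) :
    galPrime (g : L ≃ₐ[K] L) Q = Q :=
  HeightOneSpectrum.ext g.2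

/-- An automorphism fixing the prime, on the completion. -/
def decHom (g : MulAction.stabilizer (L ≃ₐ[K] L) Q.asIdeal) :
    Q.adicCompletion L →+* Q.adicCompletion L :=
  extHom Q Q ((g : L ≃ₐ[K] L) : L →+* L) one_pos fun x => by
    rw [pow_one]
    exact valuation_apply_of_galPrime_eq Q (galPrime_of_mem_stab Q g) x

theorem decHom_algebraMap (g : MulAction.stabilizer (L ≃ₐ[K] L) Q.asIdeal) (x : L) :
    decHom Q g (algebraMap L (Q.adicCompletion L) x) =
      algebraMap L (Q.adicCompletion L) ((g : L ≃ₐ[K] L) x) :=
  extHom_algebraMap _ _ _ _ _ x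

theorem continuous_decHom (g : MulAction.stabilizer (L ≃ₐ[K] L) Q.asIdeal) :
    Continuous (decHom Q g) :=
  continuous_extHom _ _ _ _ _

theorem valued_decHom (g : MulAction.stabilizer (L ≃ₐ[K] L) Q.asIdeal) (z : Q.adicCompletion L) :
    Valued.v (decHom Q g z) = Valued.v z :=
  (valued_extHom _ _ _ _ _ z).trans (pow_one _)

/-- The decomposition group acts on the completion. -/
instance decAction :
    MulSemiringAction (MulAction.stabilizer (L ≃ₐ[K] L) Q.asIdeal) (Q.adicCompletion L) where
  smul g z := decHom Q g z
  one_smul z := RingHom.congr_fun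
    (ext_of_algebraMap Q Q (continuous_decHom Q 1) (h := RingHom.id _) continuous_id fun x => by
      rw [decHom_algebraMap]; rfl) z
  mul_smul g h z := RingHom.congr_fun
    (ext_of_algebraMap Q Q (continuous_decHom Q (g * h)) (h := (decHom Q g).comp (decHom Q h))
      ((continuous_decHom Q g).comp (continuous_decHom Q h)) fun x => by
        rw [RingHom.comp_apply, decHom_algebraMap, decHom_algebraMap, decHom_algebraMap]; rfl) z
  smul_zero g := map_zero (decHom Q g)
  smul_add g := map_add (decHom Q g)
  smul_one g := map_one (decHom Q g)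
  smul_mul g := map_mul (decHom Q g)

theorem dec_smul_def (g : MulAction.stabilizer (L ≃ₐ[K] L) Q.asIdeal) (z : Q.adicCompletion L) :
    g • z = decHom Q g z := rfl

theorem decHom_belowHom (g : MulAction.stabilizer (L ≃ₐ[K] L) Q.asIdeal)
    (t : (belowP K Q).adicCompletion K) : decHom Q g (belowHom Q t) = belowHom Q t :=
  RingHom.congr_fun (ext_of_algebraMap (belowP K Q) Q (g := (decHom Q g).comp (belowHom Q))
    (h := belowHom Q) ((continuous_decHom Q g).comp (continuous_extHom _ _ _ _ _))
    (continuous_extHom _ _ _ _ _) fun x => by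
      rw [RingHom.comp_apply, belowHom_algebraMap, decHom_algebraMap, AlgEquiv.commutes]) t

/-- Approximation at the prime with a given element at the others above the same prime. -/
theorem exists_near_above (z : Q.adicCompletion L) (c : L) (k : ℕ) :
    ∃ y : L, Valued.v (algebraMap L (Q.adicCompletion L) y - z) ≤ exp (-(k : ℤ)) ∧
      ∀ P : HeightOneSpectrum (𝓞 L), P ≠ Q → belowP K P = belowP K Q →
        P.valuation L (y - c) ≤ exp (-(k : ℤ)) := by
  obtain ⟨b, hb⟩ := exists_element_near Q z k
  obtain ⟨y, hy, -⟩ := exists_weak_approx (primesAbove L {belowP K Q})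
    (fun P => {t | Valued.v (t - algebraMap L (P.adicCompletion L) (if P = Q then (b : L) else c)) ≤
      exp (-(k : ℤ))}) (fun P _ => ⟨_, ball_mem_nhds P _ k⟩) (fun _ => Set.univ)
    (fun _ => ⟨0, Filter.univ_mem⟩)
  refine ⟨y, ?_, fun P hP hPQ => ?_⟩
  · have h := hy Q (mem_primesAbove.2 (Finset.mem_singleton_self _))
    rw [Set.mem_ofPred_eq, if_pos rfl] at h
    rw [← sub_add_sub_cancel]
    exact Valuation.map_add_le _ h hb
  · have h := hy P (mem_primesAbove.2 (Finset.mem_singleton.2 hPQ))
    rwa [Set.mem_ofPred_eq, if_neg hP, ← map_sub, valued_algebraMap] at h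

theorem galPrime_inv_ne {g : L ≃ₐ[K] L} (hg : g ∉ MulAction.stabilizer (L ≃ₐ[K] L) Q.asIdeal) :
    galPrime g⁻¹ Q ≠ Q := fun h => hg (by
  rw [← inv_mem_iff (x := g), MulAction.mem_stabilizer_iff]
  exact congrArg HeightOneSpectrum.asIdeal h)

/-- **The fixed field is the completion below.** -/
theorem mem_range_of_fixed {z : Q.adicCompletion L}
    (hz : ∀ g : MulAction.stabilizer (L ≃ₐ[K] L) Q.asIdeal, g • z = z) :
    z ∈ Set.range (belowHom (K := K) Q) := by
  set D := MulAction.stabilizer (L ≃ₐ[K] L) Q.asIdeal
  haveI := charZero_completion Q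
  haveI := charZero_completion (belowP K Q)
  have key : (Nat.card D : Q.adicCompletion L) * z ∈ closure (Set.range (belowHom (K := K) Q)) := by
    refine mem_closure_iff_nhds.2 fun U hU => ?_
    obtain ⟨k, hk⟩ := exists_exp_subset Q hU
    obtain ⟨y, hy, hy'⟩ := exists_near_above (K := K) Q z 0 k
    refine ⟨_, hk _ ?_, algebraMap K ((belowP K Q).adicCompletion K) (Algebra.trace K L y), rfl⟩
    rw [belowHom_algebraMap, trace_eq_sum_automorphisms, map_sum,
      ← Finset.sum_filter_add_sum_filter_not (Finset.univ (α := L ≃ₐ[K] L)) (· ∈ D),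
      add_sub_right_comm]
    refine Valuation.map_add_le _ ?_ (Valuation.map_sum_le _ fun g hg => ?_)
    · rw [Finset.sum_subtype (F := inferInstance) (p := fun g => g ∈ D) _ (fun g => by simp) fun g =>
        algebraMap L (Q.adicCompletion L) (g y), ← nsmul_eq_mul,
        show Nat.card D • z = ∑ g : D, g • z by
          rw [Finset.sum_congr rfl fun g _ => hz g, Finset.sum_const, Finset.card_univ,
            Nat.card_eq_fintype_card], ← Finset.sum_sub_distrib]
      refine Valuation.map_sum_le _ fun g _ => ?_
      rw [dec_smul_def, ← decHom_algebraMap, ← map_sub, valued_decHom]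
      exact hy
    · rw [valued_algebraMap, valuation_gal_apply]
      have h := hy' _ (galPrime_inv_ne Q (Finset.mem_filter.1 hg).2) (belowP_galPrime g⁻¹ Q)
      rwa [sub_zero] at h
  have hcl : IsClosed (Set.range (belowHom (K := K) Q)) := isClosed_range_extHom _ _ _ _ _
  rw [hcl.closure_eq] at key
  obtain ⟨t, ht⟩ := key
  refine ⟨t / (Nat.card D : (belowP K Q).adicCompletion K), ?_⟩
  rw [map_div₀, ht, map_natCast, mul_div_cancel_left₀ _ (Nat.cast_ne_zero.2 Nat.card_pos.ne')]

/-- **The completion is Galois with the decomposition group.** -/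
instance decGaloisGroup : IsGaloisGroup (MulAction.stabilizer (L ≃ₐ[K] L) Q.asIdeal)
    ((belowP K Q).adicCompletion K) (Q.adicCompletion L) where
  faithful := ⟨fun {g h} e => Subtype.ext (AlgEquiv.ext fun x => by
    have h' := e (algebraMap L (Q.adicCompletion L) x)
    rw [dec_smul_def, dec_smul_def, decHom_algebraMap, decHom_algebraMap] at h'
    exact (algebraMap L (Q.adicCompletion L)).injective h')⟩
  commutes := ⟨fun g t z => by
    rw [Algebra.smul_def, Algebra.smul_def, smul_mul', dec_smul_def, belowHom_def, decHom_belowHom]⟩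
  isInvariant := ⟨fun z hz => mem_range_of_fixed Q hz⟩

instance finiteDimensional_above :
    FiniteDimensional ((belowP K Q).adicCompletion K) (Q.adicCompletion L) :=
  IsGaloisGroup.finiteDimensional (MulAction.stabilizer (L ≃ₐ[K] L) Q.asIdeal) _ _

instance isGalois_above : IsGalois ((belowP K Q).adicCompletion K) (Q.adicCompletion L) :=
  IsGaloisGroup.isGalois (MulAction.stabilizer (L ≃ₐ[K] L) Q.asIdeal) _ _

theorem finrank_above :
    Module.finrank ((belowP K Q).adicCompletion K) (Q.adicCompletion L) =
      Nat.card (MulAction.stabilizer (L ≃ₐ[K] L) Q.asIdeal) :=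
  (IsGaloisGroup.card_eq_finrank _ _ _).symm

/-- The norm is the product over the decomposition group. -/
theorem belowHom_norm (z : Q.adicCompletion L) :
    belowHom Q (Algebra.norm ((belowP K Q).adicCompletion K) z) =
      ∏ g : MulAction.stabilizer (L ≃ₐ[K] L) Q.asIdeal, decHom Q g z := by
  rw [← belowHom_def, Algebra.norm_eq_prod_automorphisms, ← Equiv.prod_comp
    (IsGaloisGroup.mulEquivAlgEquiv (MulAction.stabilizer (L ≃ₐ[K] L) Q.asIdeal)
      ((belowP K Q).adicCompletion K) (Q.adicCompletion L)).toEquiv]
  rfl

end FA.LocalCFT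

end
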