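import Fermat.Agent.ClassFieldTheory.NormLimitation
import Fermat.Agent.NormResidue.Kernel
import Fermat.Agent.LocalCFT.Completion

/-!
# The norm residue symbol and norms from an arbitrary extension

For a finite extension `M/K`, an abelian `L/K` and an abelian `N/M` containing `L`, the symbol of
`N/M` at a prime restricts to the symbol of `L/K` at the prime below of the norm of any element
close to the given one at the prime and close to `1` at the other primes above the same one.
-/

set_option autoImplicit false
set_option linter.unusedSectionVars false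
set_option linter.style.haveILetI false

noncomputable section

open NumberField IsDedekindDomain Finset WithZero IsMulCommutative
open FA.ArtinRec FA.NormResidue
open FA.RayFields (exists_relNorm_pow restrict_frob_eq_pow)
open FA.Hecke (coprimeIdeals)
open FA.Ext (primeIdeal)
open FA.HasseCyclic (nearOne mem_nearOne nearOne_anti ord_eq_zero_of_nearOne)
open scoped Pointwise nonZeroDivisors Classical

namespace FA.LocalCFT

universe u

variable {K : Type u} [Field K] [NumberField K] {M : Type*} [Field M] [NumberField M] [Algebra K M]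

/-! ### The norm of ideals -/

variable (K M) in
/-- The norm of the nonzero ideals of any extension. -/
def idealNorm : (Ideal (𝓞 M))⁰ →* (Ideal (𝓞 K))⁰ where
  toFun I := ⟨Ideal.relNorm (𝓞 K) I.1, mem_nonZeroDivisors_iff_ne_zero.mpr fun h =>
    nonZeroDivisors.coe_ne_zero I (Ideal.relNorm_eq_bot_iff.1 h)⟩
  map_one' := Subtype.ext (map_one (Ideal.relNorm (𝓞 K)))
  map_mul' I J := Subtype.ext (map_mul (Ideal.relNorm (𝓞 K)) I.1 J.1)

variable (K) in
/-- The exponent of the norm of a prime. -/
def normExp (P : HeightOneSpectrum (𝓞 M)) : ℕ := (exists_relNorm_pow (K := K) P).choose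

theorem relNorm_normExp (P : HeightOneSpectrum (𝓞 M)) :
    Ideal.relNorm (𝓞 K) P.asIdeal = (belowP K P).asIdeal ^ normExp K P :=
  (exists_relNorm_pow (K := K) P).choose_spec.2

variable {A : Type*} [CommGroup A]

theorem factorHom_idealNorm (g : HeightOneSpectrum (𝓞 K) → A) (I : (Ideal (𝓞 M))⁰) :
    factorHom g (idealNorm K M I) =
      factorHom (fun P => g (belowP K P) ^ normExp K P) I := by
  have h : ((factorHom g).comp (idealNorm K M)).comp (coprimeIdeals (⊤ : Ideal (𝓞 M))).subtype =
      (factorHom (fun P : HeightOneSpectrum (𝓞 M) => g (belowP K P) ^ normExp K P)).comp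
        (coprimeIdeals (⊤ : Ideal (𝓞 M))).subtype :=
    hom_ext_primes fun P hP => by
      have e : idealNorm K M (primeIdeal P) = primeIdeal (belowP K P) ^ normExp K P :=
        Subtype.ext (by
          rw [SubmonoidClass.coe_pow]
          exact relNorm_normExp P)
      simp only [MonoidHom.comp_apply, Subgroup.coe_subtype, Submonoid.coe_subtype]
      rw [e, map_pow, factorHom_prime, factorHom_prime]
  have hI : I ∈ coprimeIdeals (⊤ : Ideal (𝓞 M)) := sup_top_eq _
  have h' := DFunLike.congr_fun h ⟨I, hI⟩
  simp only [MonoidHom.comp_apply, Submonoid.coe_subtype] at h'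
  exact h'

/-- **The orders of a norm, as a product.** -/
theorem ordProd_norm (g : HeightOneSpectrum (𝓞 K) → A) (b : Mˣ) :
    ordProd g (normU' b) = ordProd (fun P => g (belowP K P) ^ normExp K P) b := by
  have key : ∀ (r : 𝓞 M) (hr : r ≠ 0), ordProd g (normU' (intU r hr)) =
      ordProd (fun P => g (belowP K P) ^ normExp K P) (intU r hr) := fun r hr => by
    set I : (Ideal (𝓞 M))⁰ :=
      ⟨Ideal.span {r}, mem_nonZeroDivisors_iff_ne_zero.mpr (by simpa using hr)⟩
    have hI : (idealNorm K M I).1 = Ideal.span {RingOfIntegers.norm K r} := by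
      show Ideal.relNorm (𝓞 K) (Ideal.span {r}) = _
      rw [Ideal.relNorm_singleton]
      congr 2
      exact IsFractionRing.injective (𝓞 K) K (Algebra.algebraMap_intNorm (L := M) r)
    have hn : RingOfIntegers.norm K r ≠ 0 := fun h =>
      nonZeroDivisors.coe_ne_zero (idealNorm K M I) (by rw [hI, h]; simp)
    rw [show normU' (intU r hr) = intU (RingOfIntegers.norm K r) hn from Units.ext rfl,
      ← factorHom_span g hn _ hI, ← factorHom_span _ hr I rfl, factorHom_idealNorm]
  obtain ⟨x, y, hx, hy, rfl⟩ := exists_intU_div b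
  rw [map_div, map_div, map_div, key, key]

/-! ### Continuity of the norm -/

/-- **Norms from any extension are continuous.** -/
theorem exists_norm_level_any (v : HeightOneSpectrum (𝓞 K)) (k : ℕ) :
    ∃ j : ℕ, ∀ z : Mˣ, (∀ P, belowP K P = v → z ∈ nearOne P j) → normU' z ∈ nearOne v k := by
  set Ω := AlgebraicClosure M
  set C := IntermediateField.normalClosure K M Ω
  haveI : NumberField C := NumberField.of_module_finite K C
  haveI : IsGalois K C := ⟨⟩
  haveI : IsGalois M C := IsGalois.tower_top_of_isGalois K M C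
  obtain ⟨Q, hQ⟩ := exists_belowP K C v
  refine ⟨eIdx K Q * (k + 1), fun z hz => ?_⟩
  have hσ : ∀ σ : M →ₐ[K] Ω, ∀ x, σ x ∈ C := fun σ x =>
    σ.fieldRange_le_normalClosure (AlgHom.mem_fieldRange.2 ⟨x, rfl⟩)
  let σC : (M →ₐ[K] Ω) → (M →ₐ[K] C) := fun σ =>
    { toFun := fun x => ⟨σ x, hσ σ x⟩
      map_one' := Subtype.ext (map_one σ)
      map_mul' := fun x y => Subtype.ext (map_mul σ x y)
      map_zero' := Subtype.ext (map_zero σ)
      map_add' := fun x y => Subtype.ext (map_add σ x y)
      commutes' := fun r => Subtype.ext (σ.commutes r) }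
  have hprod : baseU (normU' (K := K) z) = ∏ σ : M →ₐ[K] Ω, Units.map (σC σ : M →* C) z := by
    refine Units.ext (Subtype.ext ?_)
    show algebraMap K Ω (Algebra.norm K (z : M)) = C.val _
    rw [Units.coe_prod, map_prod]
    exact Algebra.norm_eq_prod_embeddings K Ω (z : M)
  have hmem : baseU (normU' (K := K) z) ∈ nearOne Q (eIdx K Q * (k + 1)) := by
    rw [hprod]
    refine prod_mem fun σ _ => mem_nearOne.2 ?_
    set g : C ≃ₐ[K] C := AlgEquiv.ofBijective ((σC σ).liftNormal C)
      (Algebra.IsAlgebraic.algHom_bijective _)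
    have hg : (σC σ) (z : M) = g (algebraMap M C (z : M)) :=
      ((σC σ).liftNormal_commutes C (z : M)).symm
    rw [Units.coe_map, MonoidHom.coe_coe, hg, ← map_one g, ← map_sub, valuation_gal_apply,
      ← map_one (algebraMap M C), ← map_sub, valuation_baseU]
    have h := mem_nearOne.1 (hz (belowP M (galPrime g⁻¹ Q)) ((HeightOneSpectrum.ext
      (Ideal.under_under _)).trans ((belowP_galPrime _ _).trans hQ)))
    exact (pow_le_pow_left₀ zero_le h _).trans (pow_le_of_le_one zero_le
      (by rw [← exp_zero, exp_le_exp]; omega) (eIdx_pos _).ne')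
  rw [mem_nearOne] at hmem ⊢
  by_cases h0 : ((normU' z : Kˣ) : K) - 1 = 0
  · rw [h0, map_zero]
    exact zero_le
  rw [baseU_val, ← map_one (algebraMap K C), ← map_sub, valuation_baseU, hQ] at hmem
  refine (pow_le_pow_iff_left₀ zero_le zero_le (eIdx_pos (K := K) Q).ne').1 (hmem.trans ?_)
  rw [← exp_nsmul, exp_le_exp, nsmul_eq_mul]
  push_cast
  nlinarith [eIdx_pos (K := K) Q]

/-- A level good at every prime of a finite set. -/
theorem exists_norm_level_any_finset (R : Finset (HeightOneSpectrum (𝓞 K))) (k : ℕ) : ∃ j : ℕ,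
    ∀ v ∈ R, ∀ z : Mˣ, (∀ P, belowP K P = v → z ∈ nearOne P j) → normU' z ∈ nearOne v k := by
  choose j hj using fun v => exists_norm_level_any (M := M) (K := K) v k
  exact ⟨R.sup j, fun v hv z hz => hj v z fun Q hQ =>
    nearOne_anti Q (Finset.le_sup (f := j) hv) (hz Q hQ)⟩

/-! ### Functoriality -/

variable {L : Type*} [Field L] [NumberField L] [Algebra K L] [IsGalois K L]
  [IsMulCommutative (L ≃ₐ[K] L)] {N : Type*} [Field N] [NumberField N] [Algebra M N]
  [IsGalois M N] [IsMulCommutative (N ≃ₐ[M] N)] [Algebra K N] [IsScalarTower K M N] [Algebra L N]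
  [IsScalarTower K L N]

variable (K L M N) in
/-- Restriction to the abelian extension below. -/
def restrictBelow : (N ≃ₐ[M] N) →* (L ≃ₐ[K] L) :=
  MonoidHom.mk' (fun g => AlgEquiv.restrictNormalHom L (g.restrictScalars K)) fun g h =>
    (congrArg (AlgEquiv.restrictNormalHom L) (AlgEquiv.ext fun _ => rfl :
      (g * h).restrictScalars K = g.restrictScalars K * h.restrictScalars K)).trans
      (map_mul (AlgEquiv.restrictNormalHom L) _ _)

omit [IsMulCommutative (N ≃ₐ[M] N)] in
theorem restrictBelow_apply (g : N ≃ₐ[M] N) (x : L) :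
    algebraMap L N (restrictBelow K M L N g x) = g (algebraMap L N x) :=
  (g.restrictScalars K).restrictNormal_commutes L x

/-- **Frobenius elements above restrict to powers.** -/
theorem restrictBelow_artinAt {P : HeightOneSpectrum (𝓞 M)} (hP : ¬ IsRam L (belowP K P)) :
    restrictBelow K M L N (artinAt N P) = artinAt L (belowP K P) ^ normExp K P := by
  obtain ⟨Q, rfl, hτ⟩ := artinAt_spec (L := N) P
  exact restrict_frob_eq_pow hτ (relNorm_normExp _) hP

/-- **Functoriality of the symbols.** -/
theorem exists_norm_symbol_level (w : HeightOneSpectrum (𝓞 M)) :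
    ∃ j : ℕ, ∀ a c : Mˣ, c / a ∈ nearOne w j →
      (∀ P, belowP K P = belowP K w → P ≠ w → c ∈ nearOne P j) →
        restrictBelow K M L N (normSymbol N w a) = normSymbol L (belowP K w) (normU' c) := by
  set v := belowP K w with hv
  set RK : Finset (HeightOneSpectrum (𝓞 K)) := insert v (finite_isRam K L).toFinset
  obtain ⟨j₁, hj₁⟩ := exists_norm_level_any_finset (M := M) RK (nrLevel K L)
  set j := max j₁ (nrLevel M N)
  refine ⟨j, fun a c hca hc => ?_⟩
  set R : Finset (HeightOneSpectrum (𝓞 M)) :=
    (finite_isRam M N).toFinset ∪ RK.biUnion fun u => (finite_belowP (L := M) u).toFinset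
  have hR : ∀ P, IsRam N P ∨ IsRam L (belowP K P) ∨ belowP K P = v → P ∈ R := fun P hP => by
    rcases hP with h | h | h
    · exact Finset.mem_union_left _ ((finite_isRam M N).mem_toFinset.2 h)
    · exact Finset.mem_union_right _ (Finset.mem_biUnion.2 ⟨_, Finset.mem_insert_of_mem
        ((finite_isRam K L).mem_toFinset.2 h), (finite_belowP _).mem_toFinset.2 rfl⟩)
    · exact Finset.mem_union_right _ (Finset.mem_biUnion.2 ⟨_, Finset.mem_insert_self _ _,
        (finite_belowP _).mem_toFinset.2 h⟩)
  obtain ⟨b, hb, hbs⟩ := exists_approx R (fun P => if belowP K P = v then c else 1) (j + 1)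
    fun _ => true
  have hbP : ∀ P ∈ R, b / (if belowP K P = v then c else 1) ∈ nearOne P j := fun P hP => by
    rw [mem_nearOne, Units.val_div_eq_div_val]
    exact hb P hP
  have hbc : ∀ P, belowP K P = v → b / c ∈ nearOne P j := fun P hP => by
    have h := hbP P (hR P (Or.inr (Or.inr hP)))
    rwa [if_pos hP] at h
  have hbw : b / a ∈ nearOne w j := by
    rw [← div_mul_div_cancel b c a]
    exact mul_mem (hbc w rfl) hca
  have hb1 : ∀ P ∈ R, P ≠ w → b ∈ nearOne P j := fun P hP hne => by
    by_cases h : belowP K P = v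
    · rw [← div_mul_cancel b c]
      exact mul_mem (hbc P h) (hc P h hne)
    · have h' := hbP P hP
      rwa [if_neg h, div_one] at h'
  have hord : ord w b = ord w a := by
    have h := ord_eq_zero_of_nearOne hbw
    rwa [ord_div, sub_eq_zero] at h
  set i := ord w a
  have hNc : normSymbol L v (normU' c) = normSymbol L v (normU' (K := K) b) := by
    rw [eq_comm, ← div_eq_one, ← map_div]
    refine MonoidHom.mem_ker.1 (nearOne_le_ker_normSymbol v ?_)
    rw [← map_div]
    exact hj₁ v (Finset.mem_insert_self _ _) _ fun P hP =>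
      nearOne_anti P (le_max_left _ _) (hbc P hP)
  have hNb : ∀ u, IsRam L u → u ≠ v → normU' (K := K) b ∈ nearOne u (nrLevel K L) :=
    fun u hu hne => hj₁ u (Finset.mem_insert_of_mem ((finite_isRam K L).mem_toFinset.2 hu)) _
      fun P hP => nearOne_anti P (le_max_left _ _)
        (hb1 P (hR P (Or.inr (Or.inl (hP ▸ hu)))) fun e => hne (hP.symm.trans (e ▸ rfl)))
  have hpos : ∀ φ : K →+* ℝ, 0 < φ ((normU' (K := K) b : Kˣ) : K) := fun φ =>
    norm_pos_of_totallyPositive b.ne_zero (fun ψ => (hbs ψ).2 rfl) φ
  have hNapp : IsApprox N (nrLevel M N) w a b :=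
    ⟨fun _ => nearOne_anti w (le_max_right _ _) hbw, fun P hP hne =>
      nearOne_anti P (le_max_right _ _) (hb1 P (hR P (Or.inl hP)) hne), fun ψ => (hbs ψ).2 rfl⟩
  set T := fun P => restrictBelow K M L N (goodFrob N P)
  set U := fun P : HeightOneSpectrum (𝓞 M) => goodFrob L (belowP K P) ^ normExp K P
  have hT : ordProd T b = restrictBelow K M L N (unramFrob N b) := by
    rw [unramFrob, ordProd_apply, ordProd_apply, MonoidHom.map_finprod _
      (f := fun P => goodFrob N P ^ ord P b) (mulSupport_ord_finite (goodFrob N) b)]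
    exact finprod_congr fun P => (map_zpow _ _ _).symm
  have hU : ordProd U b = unramFrob L (normU' (K := K) b) := (ordProd_norm (goodFrob L) b).symm
  have key : restrictBelow K M L N (unramFrob N b) * U w ^ i =
      unramFrob L (normU' (K := K) b) * T w ^ i := by
    rw [← hT, ← hU, ordProd_apply, ordProd_apply, mul_comm (∏ᶠ P, U P ^ ord P b),
      ← div_eq_div_iff_mul_eq_mul,
      ← finprod_div_distrib (mulSupport_ord_finite T b) (mulSupport_ord_finite U b),
      finprod_eq_single _ w fun P hP => ?_, hord]
    by_cases hPR : P ∈ R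
    · rw [ord_eq_zero_of_nearOne (hb1 P hPR hP), zpow_zero, zpow_zero, div_one]
    · have hN : ¬ IsRam N P := fun h => hPR (hR P (Or.inl h))
      have hL : ¬ IsRam L (belowP K P) := fun h => hPR (hR P (Or.inr (Or.inl h)))
      simp only [T, U, goodFrob, if_neg hN, if_neg hL, restrictBelow_artinAt hL, div_self']
  rw [hNc]
  by_cases hL : IsRam L v
  · rw [normSymbol_eq hL (b := normU' (K := K) b) ⟨fun _ => by rw [div_self']; exact one_mem _,
      hNb, hpos⟩]
    have hUw : U w = 1 := by simp only [U, goodFrob, if_pos (show IsRam L (belowP K w) from hL), one_pow]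
    rw [hUw, one_zpow, mul_one] at key
    by_cases hN : IsRam N w
    · have hTw : T w = 1 := by simp only [T, goodFrob, if_pos hN, map_one]
      rw [hTw, one_zpow, mul_one] at key
      rw [normSymbol_eq hN hNapp, map_inv, key]
    · rw [unramFrob_eq_one (fun P hP => hNapp.2.1 P hP fun e => hN (e ▸ hP))
        (fun _ _ _ => hNapp.2.2 _), map_one] at key
      rw [normSymbol_of_not_isRam hN, map_zpow, eq_inv_iff_mul_eq_one, mul_comm, key]
      simp only [T, goodFrob, if_neg hN]
      rfl
  · have hord' : artinAt L v ^ ord v (normU' (K := K) b) = U w ^ i := by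
      have h := ordProd_norm (fun u => if u = v then artinAt L v else 1) b
      rw [ordProd_apply, ordProd_apply, finprod_eq_single _ v (fun u hu => by
        rw [if_neg hu, one_zpow]), if_pos rfl, finprod_eq_single _ w fun P hP => ?_, hord] at h
      · simp only [U, goodFrob, if_neg (show ¬ IsRam L (belowP K w) from hL)]
        rw [h, if_pos rfl]
      · by_cases hPv : belowP K P = v
        · rw [ord_eq_zero_of_nearOne (hb1 P (hR P (Or.inr (Or.inr hPv))) hP), zpow_zero]
        · rw [if_neg hPv, one_pow, one_zpow]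
    rw [normSymbol_of_not_isRam hL, hord']
    rw [unramFrob_eq_one (fun u hu => hNb u hu fun e => hL (e ▸ hu)) (fun _ _ _ => hpos _),
      one_mul] at key
    by_cases hN : IsRam N w
    · have hTw : T w = 1 := by simp only [T, goodFrob, if_pos hN, map_one]
      rw [hTw, one_zpow] at key
      rw [normSymbol_eq hN hNapp, map_inv, inv_eq_iff_mul_eq_one, key]
    · rw [unramFrob_eq_one (fun P hP => hNapp.2.1 P hP fun e => hN (e ▸ hP))
        (fun _ _ _ => hNapp.2.2 _), map_one, one_mul] at key
      rw [normSymbol_of_not_isRam hN, map_zpow, key]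
      simp only [T, goodFrob, if_neg hN]
      rfl

/-- **A single prime above: the symbol of the norm.** -/
theorem restrictBelow_normSymbol (w : HeightOneSpectrum (𝓞 M))
    (hw : ∀ P, belowP K P = belowP K w → P = w) (a : Mˣ) :
    restrictBelow K M L N (normSymbol N w a) = normSymbol L (belowP K w) (normU' a) := by
  obtain ⟨j, hj⟩ := exists_norm_symbol_level (K := K) (L := L) (N := N) w
  exact hj a a (by rw [div_self']; exact one_mem _) fun P hP hne => absurd (hw P hP) hne

end FA.LocalCFT

end
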