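import Fermat.Agent.LocalCFT.Powers
import Fermat.Agent.Ideles.Existence

/-!
# The local existence theorem

For an open subgroup of finite index of the multiplicative group of a completion take the ideles
with component in it at the prime, units elsewhere and congruent to `1` at the primes of Chevalley's
theorem: the extension this cuts out has the subgroup as the kernel of its local map.
-/

set_option autoImplicit false
set_option linter.unusedSectionVars false
set_option linter.style.haveILetI false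

noncomputable section

open NumberField NumberField.InfinitePlace NumberField.InfinitePlace.Completion IsDedekindDomain
open Finset WithZero IsMulCommutative
open FA.ArtinRec FA.NormResidue FA.Ideles
open FA.HasseCyclic (nearOne)
open FA.QuadFormsNF (valued_algebraMap)
open scoped Pointwise Classical

namespace FA.LocalCFT

universe u

variable {K : Type u} [Field K] [NumberField K]

/-- The units away from one prime. -/
def awayUnits (v : HeightOneSpectrum (𝓞 K)) : Subgroup Kˣ where
  carrier := {x | ∀ w, w ≠ v → ord w x = 0}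
  one_mem' := fun w _ => ord_one w
  mul_mem' {x y} hx hy w hw := by rw [ord_mul, hx w hw, hy w hw, add_zero]
  inv_mem' {x} hx w hw := by rw [ord_inv, hx w hw, neg_zero]

/-- They are finitely generated. -/
theorem fg_awayUnits (v : HeightOneSpectrum (𝓞 K)) : (awayUnits v).FG := by
  let O : AddSubgroup ℤ :=
    { carrier := {i | ∃ x ∈ awayUnits v, ord v x = i}
      zero_mem' := ⟨1, one_mem _, ord_one v⟩
      add_mem' := fun {i j} ⟨x, hx, hxi⟩ ⟨y, hy, hyj⟩ =>
        ⟨x * y, mul_mem hx hy, by rw [ord_mul, hxi, hyj]⟩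
      neg_mem' := fun {i} ⟨x, hx, hxi⟩ => ⟨x⁻¹, inv_mem hx, by rw [ord_inv, hxi]⟩ }
  obtain ⟨d, hd⟩ := Int.subgroup_cyclic O
  obtain ⟨η, hη, hηd⟩ : ∃ η ∈ awayUnits v, ord v η = d := by
    show d ∈ O
    rw [hd]
    exact AddSubgroup.subset_closure rfl
  let ι : (𝓞 K)ˣ →* Kˣ := Units.map (algebraMap (𝓞 K) K : 𝓞 K →* K)
  haveI : Group.FG (𝓞 K)ˣ := Group.fg_iff_monoid_fg.2 inferInstance
  have hU : ι.range.FG := by
    rw [← Group.fg_iff_subgroup_fg]
    exact Group.fg_range ι
  have e : awayUnits v = ι.range ⊔ Subgroup.zpowers η := by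
    refine le_antisymm (fun x hx => ?_) (sup_le ?_ (Subgroup.zpowers_le.2 hη))
    · obtain ⟨i, hi⟩ : ∃ i : ℤ, i * d = ord v x := by
        have h : ord v x ∈ AddSubgroup.closure ({d} : Set ℤ) := hd ▸ ⟨x, hx, rfl⟩
        obtain ⟨i, hi⟩ := AddSubgroup.mem_closure_singleton.1 h
        exact ⟨i, by rwa [smul_eq_mul] at hi⟩
      have hy : ∀ w, ord w (x / η ^ i) = 0 := fun w => by
        rw [ord_div, ord_zpow]
        by_cases hw : w = v
        · rw [hw, hηd, hi, sub_self]
        · rw [hx w hw, hη w hw, mul_zero, sub_zero]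
      obtain ⟨a, ha, hxa⟩ := exists_intU_of_ord_nonneg fun w => (hy w).ge
      obtain ⟨b, hb, hxb⟩ := exists_intU_of_ord_nonneg (x := (x / η ^ i)⁻¹) fun w => by
        rw [ord_inv, hy w, neg_zero]
      have hab : a * b = 1 := RingOfIntegers.coe_injective (by
        have h := congrArg Units.val (mul_inv_cancel (x / η ^ i))
        rw [hxb, hxa, Units.val_mul, intU_val, intU_val, Units.val_one] at h
        rw [map_mul, map_one]
        exact h)
      refine Subgroup.mem_sup.2 ⟨_, ⟨Units.mkOfMulEqOne a b hab, rfl⟩, _,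
        Subgroup.zpow_mem_zpowers η i, ?_⟩
      rw [show ι (Units.mkOfMulEqOne a b hab) = x / η ^ i from
        Units.ext (by rw [hxa]; rfl), div_mul_cancel]
    · rintro _ ⟨u, rfl⟩ w -
      exact (ord_intU_eq_zero_iff w u.ne_zero).2 fun h =>
        w.isPrime.ne_top (Ideal.eq_top_of_isUnit_mem _ h u.isUnit)
  rw [e]
  exact hU.sup ⟨{η}, by rw [Finset.coe_singleton, Subgroup.zpowers_eq_closure]⟩

/-- **An open subgroup of a completion contains a congruence subgroup.** -/
theorem exists_nearLocal_le {v : HeightOneSpectrum (𝓞 K)} {H : Subgroup (v.adicCompletion K)ˣ}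
    (hH : IsOpen (H : Set (v.adicCompletion K)ˣ)) : ∃ k, nearLocal v k ≤ H := by
  obtain ⟨V, hV, hVH⟩ := Units.isEmbedding_val₀.isInducing.isOpen_iff.1 hH
  obtain ⟨k, hk⟩ := FA.QuadFormsNF.exists_exp_subset v (z := (1 : v.adicCompletion K))
    (hV.mem_nhds (by
      have h := one_mem H
      rw [← SetLike.mem_coe, ← hVH] at h
      exact h))
  refine ⟨k, fun z hz => ?_⟩
  rw [← SetLike.mem_coe, ← hVH]
  exact hk _ (((mem_nearLocal v).1 hz).trans (exp_le_exp.2 (by omega)))

/-- **The kernel of a local map is open.** -/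
theorem isOpen_ker_localArtin {L : Type*} [Field L] [NumberField L] [Algebra K L] [IsGalois K L]
    [IsMulCommutative (L ≃ₐ[K] L)] (v : HeightOneSpectrum (𝓞 K)) :
    IsOpen ((localArtin L v).ker : Set (v.adicCompletion K)ˣ) :=
  Subgroup.isOpen_mono nearLocal_le_ker
    (show IsOpen (Units.val ⁻¹' {z : v.adicCompletion K |
      Valued.v (z - 1) ≤ exp (-((nrLevel K L + 1 : ℕ) : ℤ))}) from
      (isOpen_near v _).preimage Units.continuous_val)

/-- Ideles with component in a subgroup at one prime, units elsewhere, congruent to `1` at `T`. -/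
def localLevel (v : HeightOneSpectrum (𝓞 K)) (H : Subgroup (v.adicCompletion K)ˣ)
    (T : Finset (HeightOneSpectrum (𝓞 K))) : Subgroup (Idele K) where
  carrier := {x | finComp v x ∈ H ∧ ∀ w, w ≠ v →
    Valued.v ((finComp w x : (w.adicCompletion K)ˣ) : w.adicCompletion K) = 1 ∧
      (w ∈ T → finComp w x ∈ nearLocal w 0)}
  one_mem' := ⟨by rw [map_one]; exact one_mem H, fun w _ =>
    ⟨by rw [map_one, Units.val_one, map_one], fun _ => by rw [map_one]; exact one_mem _⟩⟩
  mul_mem' {x y} hx hy := ⟨by rw [map_mul]; exact mul_mem hx.1 hy.1, fun w hw =>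
    ⟨by rw [map_mul, Units.val_mul, map_mul, (hx.2 w hw).1, (hy.2 w hw).1, one_mul],
      fun h => by rw [map_mul]; exact mul_mem ((hx.2 w hw).2 h) ((hy.2 w hw).2 h)⟩⟩
  inv_mem' {x} hx := ⟨by rw [map_inv]; exact inv_mem hx.1, fun w hw =>
    ⟨by rw [map_inv, Units.val_inv_eq_inv_val, map_inv₀, (hx.2 w hw).1, inv_one],
      fun h => by rw [map_inv]; exact inv_mem ((hx.2 w hw).2 h)⟩⟩

/-- Some extension has its kernel inside a given subgroup. -/
theorem exists_ker_localArtin_le (v : HeightOneSpectrum (𝓞 K))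
    {H : Subgroup (v.adicCompletion K)ˣ} (hH : IsOpen (H : Set (v.adicCompletion K)ˣ))
    (hidx : H.index ≠ 0) :
    ∃ (L : Type u) (_ : Field L) (_ : NumberField L) (_ : Algebra K L) (_ : IsGalois K L)
      (_ : IsMulCommutative (L ≃ₐ[K] L)), (localArtin L v).ker ≤ H := by
  obtain ⟨k₀, hk₀⟩ := exists_nearLocal_le hH
  obtain ⟨T, hTv, hT⟩ := exists_congruence_pow (B := {v}) (Set.finite_singleton v)
    (fg_awayUnits v) (Nat.pos_of_ne_zero hidx)
  set S : Set (HeightOneSpectrum (𝓞 K)) := insert v (T : Set (HeightOneSpectrum (𝓞 K)))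
  have hle : levelSub S k₀ ≤ localLevel v H T := fun x hx =>
    ⟨hk₀ (hx.2.1 v (Set.mem_insert v _)), fun w _ => ⟨by
      by_cases h : w ∈ S
      · exact valued_eq_one_of_nearLocal w (hx.2.1 w h)
      · exact hx.1 w h,
      fun h => nearLocal_anti w (Nat.zero_le _) (hx.2.1 w (Set.mem_insert_of_mem v (Finset.mem_coe.2 h)))⟩⟩
  obtain ⟨L, i1, i2, i3, i4, i5, hL⟩ := exists_ker_artinIdele_eq_of_level
    (T.finite_toSet.insert v) k₀ (H := (principal (K := K)).range ⊔ localLevel v H T) le_sup_left
    (hle.trans le_sup_right)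
  refine ⟨L, i1, i2, i3, i4, i5, fun z hz => ?_⟩
  have hmem : single v z ∈ (principal (K := K)).range ⊔ localLevel v H T := by
    rw [← hL, MonoidHom.mem_ker, artinIdele_single]
    exact hz
  obtain ⟨_, ⟨a, rfl⟩, u, hu, hau⟩ := Subgroup.mem_sup.1 hmem
  have hcomp : ∀ w, localEmb w a * finComp w u = finComp w (single v z) := fun w => by
    rw [← hau, map_mul, finComp_principal]
  have haw : ∀ w, w ≠ v → localEmb w a = (finComp w u)⁻¹ := fun w hw => by
    have h := hcomp w
    rw [finComp_single_of_ne hw] at h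
    exact eq_inv_of_mul_eq_one_left h
  have haE : a ∈ awayUnits v := fun w hw => by
    refine (ord_eq_iff w).2 ?_
    rw [neg_zero, exp_zero, ← valued_algebraMap w (a : K), ← localEmb_val, haw w hw,
      Units.val_inv_eq_inv_val, map_inv₀, (hu.2 w hw).1, inv_one]
  obtain ⟨c, hc⟩ := hT a haE fun w hw => (localEmb_mem_nearLocal w).1 (by
    rw [haw w fun e => hTv w hw (Set.mem_singleton_iff.2 e)]
    exact inv_mem ((hu.2 w fun e => hTv w hw (Set.mem_singleton_iff.2 e)).2 hw))
  have h := hcomp v
  rw [finComp_single_self] at h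
  rw [← h, ← hc, map_pow]
  exact mul_mem (Subgroup.pow_index_mem H _) hu.1

/-- **The local existence theorem.** -/
theorem exists_ker_localArtin_eq (v : HeightOneSpectrum (𝓞 K))
    {H : Subgroup (v.adicCompletion K)ˣ} (hH : IsOpen (H : Set (v.adicCompletion K)ˣ))
    (hidx : H.index ≠ 0) :
    ∃ (L : Type u) (_ : Field L) (_ : NumberField L) (_ : Algebra K L) (_ : IsGalois K L)
      (_ : IsMulCommutative (L ≃ₐ[K] L)), (localArtin L v).ker = H := by
  obtain ⟨L, i1, i2, i3, i4, i5, hL⟩ := exists_ker_localArtin_le v hH hidx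
  set D := H.map (localArtin L v)
  haveI := isGalois_fixedField D
  set M := IntermediateField.fixedField D
  haveI := isMulCommutative_intermediate M
  refine ⟨M, inferInstance, inferInstance, inferInstance, inferInstance, inferInstance, ?_⟩
  have hres : ∀ z, localArtin M v z = AlgEquiv.restrictNormalHom M (localArtin L v z) := fun z => by
    rw [← artinIdele_single, ← artinIdele_single, restrict_artinIdele]
  ext z
  rw [MonoidHom.mem_ker, hres, ← MonoidHom.mem_ker, ker_restrict_fixedField D]
  refine ⟨?_, fun h => ⟨z, h, rfl⟩⟩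
  rintro ⟨y, hy, hyz⟩
  have h : y⁻¹ * z ∈ (localArtin L v).ker := by
    rw [MonoidHom.mem_ker, map_mul, map_inv, hyz, inv_mul_cancel]
  rw [← mul_inv_cancel_left y z]
  exact mul_mem hy (hL h)

end FA.LocalCFT

end
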