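import Fermat.Agent.LocalCFT.Completion
import Mathlib.Analysis.Normed.Field.Approximation
import Mathlib.Analysis.Normed.Field.Krasner

/-!
# Local extensions from global ones

By Krasner's lemma a finite Galois extension of a completion is the splitting field of a polynomial
with coefficients in the global field, so it is the completion of that global splitting field.
-/

set_option autoImplicit false
set_option linter.unusedSectionVars false
set_option linter.style.haveILetI false

noncomputable section

open NumberField IsDedekindDomain Polynomial IntermediateField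
open FA.ArtinRec
open FA.QuadFormsNF (charZero_completion)
open scoped Pointwise Valued Classical

namespace FA.LocalCFT

universe u

variable {K : Type u} [Field K] [NumberField K]

/-- **A Galois extension of a completion is the splitting field of a global polynomial.** -/
theorem exists_splitting_poly (v : HeightOneSpectrum (𝓞 K)) (E : Type*) [Field E]
    [Algebra (v.adicCompletion K) E] [FiniteDimensional (v.adicCompletion K) E]
    [IsGalois (v.adicCompletion K) E] :
    ∃ g : K[X], g.Monic ∧ IsSplittingField (v.adicCompletion K) E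
      (g.map (algebraMap K (v.adicCompletion K))) := by
  haveI := charZero_completion v
  let C := AlgebraicClosure (v.adicCompletion K)
  letI : NormedField C := spectralNorm.normedField (v.adicCompletion K) C
  letI : NormedAlgebra (v.adicCompletion K) C := spectralNorm.normedAlgebra (v.adicCompletion K) C
  obtain ⟨α, hα⟩ := Field.exists_primitive_element (v.adicCompletion K) E
  let ι : E →ₐ[v.adicCompletion K] C := IsAlgClosed.lift
  set a := ι α
  set f := minpoly (v.adicCompletion K) α with hf
  have hint : IsIntegral (v.adicCompletion K) α := Algebra.IsIntegral.isIntegral α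
  have haint : IsIntegral (v.adicCompletion K) a := hint.map ι
  have hfmin : minpoly (v.adicCompletion K) a = f := minpoly.algHom_eq ι ι.injective α
  have hfa : f.aeval a = 0 := by rw [← hfmin, minpoly.aeval]
  have hfm : f.Monic := minpoly.monic hint
  have hn : f.natDegree ≠ 0 := (minpoly.natDegree_pos hint).ne'
  set S : Finset ℝ := insert 1 (((f.rootSet C).toFinset.erase a).image fun x => ‖a - x‖)
  set δ := S.min' (Finset.insert_nonempty _ _)
  have hδ : 0 < δ := (Finset.lt_min'_iff _ _).2 fun y hy => by
    rcases Finset.mem_insert.1 hy with rfl | hy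
    · exact one_pos
    · obtain ⟨x, hx, rfl⟩ := Finset.mem_image.1 hy
      exact norm_pos_iff.2 (sub_ne_zero.2 (Finset.ne_of_mem_erase hx).symm)
  set ε := (δ / max ‖a‖ 1) ^ f.natDegree / (f.natDegree + 1)
  have hε : 0 < ε := by positivity
  obtain ⟨g, gmon, gdeg, gcoeff⟩ := exists_monic_and_natDegree_eq_and_norm_map_algebraMap_coeff_sub_lt
    (HeightOneSpectrum.denseRange_algebraMap K v) hfm hε
  set gv := g.map (algebraMap K (v.adicCompletion K))
  have gvdeg : gv.natDegree = f.natDegree := by rw [g.natDegree_map, gdeg]
  obtain ⟨b, hb, hab⟩ := exists_aroots_norm_sub_lt_of_norm_coeff_sub_lt hε hfa hfm (gmon.map _)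
    gvdeg gcoeff (IsAlgClosed.splits _)
  have hab' : ‖a - b‖ < δ := by
    rw [show ((f.natDegree : ℝ) + 1) * ε = (δ / max ‖a‖ 1) ^ f.natDegree from
      mul_div_cancel₀ _ (by positivity), Real.pow_rpow_inv_natCast (by positivity) hn,
      div_mul_cancel₀ _ (by positivity)] at hab
    exact hab
  have hb0 : gv.aeval b = 0 := (mem_aroots.1 hb).2
  have hbint : IsIntegral (v.adicCompletion K) b := ⟨gv, gmon.map _, hb0⟩
  have hab'' : a ∈ (v.adicCompletion K)⟮b⟯ := by
    refine IsKrasner.krasner (minpoly.irreducible haint).separable (IsAlgClosed.splits _) hbint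
      fun x hx hne => hab'.trans_le (Finset.min'_le S _ (Finset.mem_insert_of_mem
        (Finset.mem_image_of_mem _ (Finset.mem_erase.2 ⟨hne.symm, ?_⟩))))
    rw [Set.mem_toFinset, ← hfmin]
    exact (isConjRoot_iff_mem_minpoly_rootSet haint).1 hx
  have hdvd : minpoly (v.adicCompletion K) b ∣ gv := minpoly.dvd _ _ hb0
  have hdeg : (minpoly (v.adicCompletion K) b).natDegree ≤ f.natDegree :=
    (natDegree_le_of_dvd hdvd (gmon.map _).ne_zero).trans_eq gvdeg
  haveI := adjoin.finiteDimensional hbint
  have heq : (v.adicCompletion K)⟮a⟯ = (v.adicCompletion K)⟮b⟯ :=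
    IntermediateField.eq_of_le_of_finrank_le (adjoin_simple_le_iff.2 hab'') (by
      rw [adjoin.finrank hbint, adjoin.finrank haint, hfmin]
      exact hdeg)
  have hrange : b ∈ ι.fieldRange := by
    rw [AlgHom.fieldRange_eq_map, ← hα, adjoin_map, Set.image_singleton, heq]
    exact mem_adjoin_simple_self _ b
  obtain ⟨β, hβ⟩ := AlgHom.mem_fieldRange.1 hrange
  have hinj : Function.Injective ι := ι.injective
  have hβ0 : gv.aeval β = 0 := hinj (by rw [← aeval_algHom_apply, hβ, hb0, map_zero])
  have hβdeg : (minpoly (v.adicCompletion K) β).natDegree = f.natDegree := by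
    rw [← minpoly.algHom_eq ι ι.injective β, hβ, ← adjoin.finrank hbint, ← heq,
      adjoin.finrank haint, hfmin]
  have hmin : gv = minpoly (v.adicCompletion K) β :=
    (eq_of_monic_of_dvd_of_natDegree_le (minpoly.monic (Algebra.IsIntegral.isIntegral β))
      (gmon.map _) (minpoly.dvd _ _ hβ0) (gvdeg.trans hβdeg.symm).le)
  have htop : (v.adicCompletion K)⟮β⟯ = ⊤ := by
    refine IntermediateField.eq_of_le_of_finrank_le le_top ?_
    rw [adjoin.finrank (Algebra.IsIntegral.isIntegral β), hβdeg, hf,
      ← adjoin.finrank hint, hα]
  refine ⟨g, gmon, isSplittingField_iff_intermediateField.2 ⟨?_, ?_⟩⟩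
  · show (gv.map _).Splits
    rw [hmin]
    exact Normal.splits inferInstance β
  · refine top_le_iff.1 (htop ▸ adjoin_simple_le_iff.2 (subset_adjoin _ _ ?_))
    exact mem_rootSet.2 ⟨(gmon.map _).ne_zero, hβ0⟩

/-- **The completion of a splitting field is a splitting field.** -/
theorem isSplittingField_completion {M : Type*} [Field M] [NumberField M] [Algebra K M]
    [IsGalois K M] (Q : HeightOneSpectrum (𝓞 M)) {g : K[X]} (hg : g ≠ 0)
    [IsSplittingField K M g] :
    IsSplittingField ((belowP K Q).adicCompletion K) (Q.adicCompletion M)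
      (g.map (algebraMap K ((belowP K Q).adicCompletion K))) := by
  have hcomp : (algebraMap ((belowP K Q).adicCompletion K) (Q.adicCompletion M)).comp
      (algebraMap K ((belowP K Q).adicCompletion K)) =
        (algebraMap M (Q.adicCompletion M)).comp (algebraMap K M) :=
    RingHom.ext (belowHom_algebraMap Q)
  refine isSplittingField_iff_intermediateField.2 ⟨?_, ?_⟩
  · rw [Polynomial.map_map, hcomp, ← Polynomial.map_map]
    exact (IsSplittingField.splits M g).map _
  · set S := IntermediateField.adjoin ((belowP K Q).adicCompletion K)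
      ((g.map (algebraMap K ((belowP K Q).adicCompletion K))).rootSet (Q.adicCompletion M))
    rw [← IsGalois.fixedField_fixingSubgroup S,
      show S.fixingSubgroup = ⊥ from (Subgroup.eq_bot_iff_forall _).2 fun σ hσ => ?_,
      IntermediateField.fixedField_bot]
    obtain ⟨d, rfl⟩ := (IsGaloisGroup.mulEquivAlgEquiv (MulAction.stabilizer (M ≃ₐ[K] M) Q.asIdeal)
      ((belowP K Q).adicCompletion K) (Q.adicCompletion M)).surjective σ
    rw [EmbeddingLike.map_eq_one_iff]
    refine Subtype.ext (AlgEquiv.coe_toAlgHom_injective (AlgHom.ext_of_adjoin_eq_top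
      (IsSplittingField.adjoin_rootSet M g) fun x hx => ?_))
    refine (algebraMap M (Q.adicCompletion M)).injective ?_
    show algebraMap M (Q.adicCompletion M) ((d : M ≃ₐ[K] M) x) = algebraMap M (Q.adicCompletion M) x
    rw [← decHom_algebraMap]
    refine (IntermediateField.mem_fixingSubgroup_iff _ _).1 hσ _ (subset_adjoin _ _ ?_)
    refine mem_rootSet.2 ⟨(Polynomial.map_ne_zero_iff (algebraMap K _).injective).2 hg, ?_⟩
    rw [aeval_def, eval₂_map, hcomp, ← hom_eval₂, ← aeval_def, (mem_rootSet.1 hx).2, map_zero]

end FA.LocalCFT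

end
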