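import Fermat.Agent.LocalCFT.NormGroups
import Fermat.Agent.LocalCFT.Globalize
import Fermat.Agent.LocalCFT.Existence
import Mathlib.FieldTheory.SeparableClosure

/-!
# Abelian extensions of a completion

Every finite abelian extension of a completion is a completion of a global one with abelian
decomposition group, so it is determined by its norm group; by the existence theorem it is then a
completion of a finite abelian extension of the field.
-/

set_option autoImplicit false
set_option linter.unusedSectionVars false
set_option linter.style.haveILetI false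

noncomputable section

open NumberField IsDedekindDomain Polynomial IntermediateField IsMulCommutative
open FA.ArtinRec FA.Ideles FA.NormResidue
open FA.QuadFormsNF (charZero_completion)
open scoped Pointwise Classical

namespace FA.LocalCFT

universe u

variable {K : Type u} [Field K] [NumberField K]

theorem isMulCommutative_of_algEquiv {k E E' : Type*} [Field k] [Field E] [Field E'] [Algebra k E]
    [Algebra k E'] [IsMulCommutative (E ≃ₐ[k] E)] (e : E ≃ₐ[k] E') :
    IsMulCommutative (E' ≃ₐ[k] E') :=
  ⟨⟨fun a b => e.autCongr.symm.injective (by rw [map_mul, map_mul, mul_comm])⟩⟩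

/-- **The facts for an abelian extension.** -/
theorem abelian_facts (v : HeightOneSpectrum (𝓞 K)) (E : Type*) [Field E]
    [Algebra (v.adicCompletion K) E] [FiniteDimensional (v.adicCompletion K) E]
    [IsGalois (v.adicCompletion K) E] [IsMulCommutative (E ≃ₐ[v.adicCompletion K] E)] :
    (normGroup (v.adicCompletion K) E).index ≠ 0 ∧
    Nonempty ((v.adicCompletion K)ˣ ⧸ normGroup (v.adicCompletion K) E ≃*
      (E ≃ₐ[v.adicCompletion K] E)) ∧
    Function.Injective fun A : IntermediateField (v.adicCompletion K) E =>
      normGroup (v.adicCompletion K) A := by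
  obtain ⟨g, hg, hE⟩ := exists_splitting_poly v E
  haveI : NumberField g.SplittingField := NumberField.of_module_finite K g.SplittingField
  haveI : Normal K g.SplittingField := Normal.of_isSplittingField g
  haveI : IsGalois K g.SplittingField := ⟨⟩
  obtain ⟨Q, hQ⟩ := exists_belowP K g.SplittingField v
  subst hQ
  haveI := isSplittingField_completion Q hg.ne_zero
  set gv := g.map (algebraMap K ((belowP K Q).adicCompletion K))
  let e : E ≃ₐ[(belowP K Q).adicCompletion K] Q.adicCompletion g.SplittingField :=
    (IsSplittingField.algEquiv E gv).trans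
      (IsSplittingField.algEquiv (Q.adicCompletion g.SplittingField) gv).symm
  have hD : ∀ a ∈ MulAction.stabilizer (g.SplittingField ≃ₐ[K] g.SplittingField) Q.asIdeal,
      ∀ b ∈ MulAction.stabilizer (g.SplittingField ≃ₐ[K] g.SplittingField) Q.asIdeal,
        a * b = b * a := fun a ha b hb => by
    haveI := isMulCommutative_of_algEquiv e
    exact congrArg Subtype.val ((IsGaloisGroup.mulEquivAlgEquiv
      (MulAction.stabilizer (g.SplittingField ≃ₐ[K] g.SplittingField) Q.asIdeal)
      ((belowP K Q).adicCompletion K) (Q.adicCompletion g.SplittingField)).injective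
        (a₁ := ⟨a, ha⟩ * ⟨b, hb⟩) (a₂ := ⟨b, hb⟩ * ⟨a, ha⟩) (by rw [map_mul, map_mul, mul_comm]))
  obtain ⟨h1, ⟨h2⟩, h3⟩ := normGroup_facts Q hD
  refine ⟨?_, ⟨?_⟩, fun A B h => ?_⟩
  · rwa [normGroup_congr e]
  · exact ((QuotientGroup.quotientMulEquivOfEq (normGroup_congr e)).trans h2).trans e.autCongr.symm
  · refine IntermediateField.map_injective e.toAlgHom (h3 ?_)
    show normGroup _ (A.map e.toAlgHom) = normGroup _ (B.map e.toAlgHom)
    rw [← normGroup_congr (IntermediateField.intermediateFieldMap e A),
      ← normGroup_congr (IntermediateField.intermediateFieldMap e B)]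
    exact h

/-- **An abelian extension is determined by its norm group.** -/
theorem algEquiv_of_normGroup_eq (v : HeightOneSpectrum (𝓞 K)) {E E' : Type*} [Field E] [Field E']
    [Algebra (v.adicCompletion K) E] [FiniteDimensional (v.adicCompletion K) E]
    [IsGalois (v.adicCompletion K) E] [IsMulCommutative (E ≃ₐ[v.adicCompletion K] E)]
    [Algebra (v.adicCompletion K) E'] [FiniteDimensional (v.adicCompletion K) E']
    [IsGalois (v.adicCompletion K) E'] [IsMulCommutative (E' ≃ₐ[v.adicCompletion K] E')]
    (h : normGroup (v.adicCompletion K) E = normGroup (v.adicCompletion K) E') :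
    Nonempty (E ≃ₐ[v.adicCompletion K] E') := by
  haveI := charZero_completion v
  let C := AlgebraicClosure (v.adicCompletion K)
  let f : E →ₐ[v.adicCompletion K] C := IsAlgClosed.lift
  let f' : E' →ₐ[v.adicCompletion K] C := IsAlgClosed.lift
  let eA := AlgEquiv.ofInjectiveField f
  let eB := AlgEquiv.ofInjectiveField f'
  haveI : FiniteDimensional (v.adicCompletion K) f.fieldRange := eA.toLinearEquiv.finiteDimensional
  haveI : FiniteDimensional (v.adicCompletion K) f'.fieldRange := eB.toLinearEquiv.finiteDimensional
  haveI : Normal (v.adicCompletion K) f.fieldRange := Normal.of_algEquiv eA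
  haveI : Normal (v.adicCompletion K) f'.fieldRange := Normal.of_algEquiv eB
  set S : IntermediateField (v.adicCompletion K) C := f.fieldRange ⊔ f'.fieldRange with hS
  haveI : IsGalois (v.adicCompletion K) S := ⟨⟩
  have hA : f.fieldRange ≤ S := le_sup_left
  have hB : f'.fieldRange ≤ S := le_sup_right
  set A := IntermediateField.restrict hA
  set B := IntermediateField.restrict hB
  let e : E ≃ₐ[v.adicCompletion K] A := eA.trans (IntermediateField.restrictAlgEquiv hA)
  let e' : E' ≃ₐ[v.adicCompletion K] B := eB.trans (IntermediateField.restrictAlgEquiv hB)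
  haveI : Normal (v.adicCompletion K) A := Normal.of_algEquiv e
  haveI : Normal (v.adicCompletion K) B := Normal.of_algEquiv e'
  haveI := isMulCommutative_of_algEquiv e
  haveI := isMulCommutative_of_algEquiv e'
  have htop : A ⊔ B = ⊤ := by
    refine IntermediateField.lift_injective S ?_
    rw [IntermediateField.lift_sup, IntermediateField.lift_restrict,
      IntermediateField.lift_restrict, IntermediateField.lift_top]
  haveI : IsMulCommutative (S ≃ₐ[v.adicCompletion K] S) := ⟨⟨fun σ τ => by
    have hmem : σ * τ * (τ * σ)⁻¹ ∈ (A ⊔ B).fixingSubgroup := by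
      rw [IntermediateField.fixingSubgroup_sup, ← IntermediateField.restrictNormalHom_ker,
        ← IntermediateField.restrictNormalHom_ker, Subgroup.mem_inf, MonoidHom.mem_ker,
        MonoidHom.mem_ker]
      simp only [map_mul, map_inv]
      refine ⟨?_, ?_⟩ <;> exact mul_inv_eq_one.2 (mul_comm _ _)
    rw [htop, IntermediateField.fixingSubgroup_top, Subgroup.mem_bot, mul_inv_eq_one] at hmem
    exact hmem⟩⟩
  have hAB : A = B := (abelian_facts v S).2.2 (by
    show normGroup _ A = normGroup _ B
    rw [← normGroup_congr e, ← normGroup_congr e', h])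
  exact ⟨(e.trans (IntermediateField.equivOfEq hAB)).trans e'.symm⟩

/-- The group of the completion of an abelian extension is commutative. -/
theorem isMulCommutative_completion {L : Type*} [Field L] [NumberField L] [Algebra K L]
    [IsGalois K L] [IsMulCommutative (L ≃ₐ[K] L)] (Q : HeightOneSpectrum (𝓞 L)) :
    IsMulCommutative (Q.adicCompletion L ≃ₐ[(belowP K Q).adicCompletion K] Q.adicCompletion L) :=
  ⟨⟨fun a b => by
    obtain ⟨x, rfl⟩ := galArtin_surjective Q a
    obtain ⟨y, rfl⟩ := galArtin_surjective Q b
    rw [← map_mul, ← map_mul, mul_comm]⟩⟩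

/-- **Every abelian extension of a completion is the completion of an abelian extension.** -/
theorem exists_abelian_completion (v : HeightOneSpectrum (𝓞 K)) (E : Type*) [Field E]
    [Algebra (v.adicCompletion K) E] [FiniteDimensional (v.adicCompletion K) E]
    [IsGalois (v.adicCompletion K) E] [IsMulCommutative (E ≃ₐ[v.adicCompletion K] E)] :
    ∃ (L : Type u) (_ : Field L) (_ : NumberField L) (_ : Algebra K L) (_ : IsGalois K L)
      (_ : IsMulCommutative (L ≃ₐ[K] L)) (Q : HeightOneSpectrum (𝓞 L)) (hQ : belowP K Q = v)
      (e : Q.adicCompletion L ≃+* E), ∀ t : (belowP K Q).adicCompletion K,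
        e (algebraMap ((belowP K Q).adicCompletion K) (Q.adicCompletion L) t) =
          algebraMap (v.adicCompletion K) E (hQ ▸ t) := by
  obtain ⟨L, i1, i2, i3, i4, i5, hL⟩ := exists_ker_localArtin_eq v (isOpen_normGroup v E)
    (abelian_facts v E).1
  obtain ⟨Q, hQ⟩ := exists_belowP K L v
  subst hQ
  haveI := isMulCommutative_completion (K := K) Q
  obtain ⟨e⟩ := algEquiv_of_normGroup_eq (belowP K Q) (E := Q.adicCompletion L) (E' := E)
    ((range_normC Q).trans hL)
  exact ⟨L, i1, i2, i3, i4, i5, Q, rfl, e.toRingEquiv, e.commutes⟩

end FA.LocalCFT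

end
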