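import Fermat.Agent.LocalCFT.Completion
import Fermat.Agent.LocalCFT.Existence

/-!
# The norm group of the completion

The kernel of the local map is the norm group of the completion above: norms are limits of global
norms by approximation at the primes above, and the elements near `1` are powers with exponent the
degree.
-/

set_option autoImplicit false
set_option linter.unusedSectionVars false
set_option linter.style.haveILetI false

noncomputable section

open NumberField IsDedekindDomain Finset WithZero Filter Topology IsMulCommutative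
open FA.ArtinRec FA.Ideles FA.NormResidue
open FA.QuadFormsNF (valued_algebraMap charZero_completion exists_exp_subset)
open FA.HasseCyclic (nearOne mem_nearOne)
open scoped Pointwise Classical

namespace FA.LocalCFT

universe u

section Powers

variable {F : Type*} [Field F] [NumberField F] (P : HeightOneSpectrum (𝓞 F))

open scoped Valued in
/-- **Near one everything is a power.** -/
theorem exists_nearLocal_pow {d : ℕ} (hd : d ≠ 0) :
    ∃ k, ∀ z ∈ nearLocal P k, ∃ s : (P.adicCompletion F)ˣ, s ^ d = z := by
  haveI := charZero_completion P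
  have hder : HasStrictDerivAt (fun s : P.adicCompletion F => s ^ d)
      ((d : P.adicCompletion F) * (1 : P.adicCompletion F) ^ (d - 1)) 1 := hasStrictDerivAt_pow d 1
  have hmap := hder.map_nhds_eq (by simp [hd])
  rw [one_pow] at hmap
  obtain ⟨k, hk⟩ := exists_exp_subset P (U := (fun s => s ^ d) '' {s | s ≠ (0 : P.adicCompletion F)})
    (z := 1) (by
      rw [← hmap]
      exact image_mem_map (isOpen_ne.mem_nhds one_ne_zero))
  refine ⟨k, fun z hz => ?_⟩
  obtain ⟨s, hs, hsz⟩ := hk _ (((mem_nearLocal P).1 hz).trans (exp_le_exp.2 (by omega)))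
  exact ⟨Units.mk0 s hs, Units.ext (by rw [Units.val_pow_eq_pow_val, Units.val_mk0]; exact hsz)⟩

end Powers

/-- Left cosets times the subgroup. -/
def cosetEquiv {G : Type*} [Group G] (D : Subgroup G) : (G ⧸ D) × D ≃ G where
  toFun p := p.1.out * (p.2 : G)
  invFun x := ((x : G ⧸ D), ⟨(x : G ⧸ D).out⁻¹ * x, QuotientGroup.eq.1 (QuotientGroup.out_eq' _)⟩)
  left_inv p := by
    have h : ((p.1.out * (p.2 : G) : G) : G ⧸ D) = p.1 := by
      rw [QuotientGroup.mk_mul_of_mem _ p.2.2, QuotientGroup.out_eq']
    refine Prod.ext h (Subtype.ext ?_)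
    simp only [h, inv_mul_cancel_left]
  right_inv x := mul_inv_cancel_left _ _

variable {K : Type u} [Field K] [NumberField K] {L : Type*} [Field L] [NumberField L] [Algebra K L]
  [IsGalois K L] (Q : HeightOneSpectrum (𝓞 L))

/-- The norm on the units of the completion above. -/
def normC : (Q.adicCompletion L)ˣ →* ((belowP K Q).adicCompletion K)ˣ :=
  Units.map (Algebra.norm ((belowP K Q).adicCompletion K))

theorem normC_val (z : (Q.adicCompletion L)ˣ) :
    ((normC (K := K) Q z : ((belowP K Q).adicCompletion K)ˣ) : (belowP K Q).adicCompletion K) =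
      Algebra.norm ((belowP K Q).adicCompletion K) (z : Q.adicCompletion L) := rfl

/-- The decomposition group on units. -/
def decU (g : MulAction.stabilizer (L ≃ₐ[K] L) Q.asIdeal) :
    (Q.adicCompletion L)ˣ →* (Q.adicCompletion L)ˣ :=
  Units.map (decHom Q g : Q.adicCompletion L →* Q.adicCompletion L)

theorem decU_localEmb (g : MulAction.stabilizer (L ≃ₐ[K] L) Q.asIdeal) (y : Lˣ) :
    decU Q g (localEmb Q y) = localEmb Q (galU (g : L ≃ₐ[K] L) y) :=
  Units.ext (decHom_algebraMap Q g y)

theorem decU_mem_nearLocal (g : MulAction.stabilizer (L ≃ₐ[K] L) Q.asIdeal) {k : ℕ}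
    {z : (Q.adicCompletion L)ˣ} (hz : z ∈ nearLocal Q k) : decU Q g z ∈ nearLocal Q k := by
  rw [mem_nearLocal, decU, Units.coe_map, MonoidHom.coe_coe, ← map_one (decHom Q g), ← map_sub,
    valued_decHom]
  exact hz

/-- The map of the completion below on units. -/
def belowU : ((belowP K Q).adicCompletion K)ˣ →* (Q.adicCompletion L)ˣ :=
  Units.map (belowHom (K := K) Q : (belowP K Q).adicCompletion K →* Q.adicCompletion L)

theorem belowU_injective : Function.Injective (belowU (K := K) Q) :=
  Units.map_injective (belowHom (K := K) Q).injective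

theorem belowU_normC (z : (Q.adicCompletion L)ˣ) :
    belowU (K := K) Q (normC (K := K) Q z) =
      ∏ g : MulAction.stabilizer (L ≃ₐ[K] L) Q.asIdeal, decU Q g z :=
  Units.ext (by rw [Units.coe_prod]; exact belowHom_norm Q z)

theorem baseU_normU'_eq_prod (y : Lˣ) : baseU (normU' (K := K) y) = ∏ g : L ≃ₐ[K] L, galU g y :=
  Units.ext (by
    rw [baseU_val, Units.coe_prod]
    exact Algebra.norm_eq_prod_automorphisms K (y : L))

theorem belowU_localEmb_normU' (y : Lˣ) :
    belowU Q (localEmb (belowP K Q) (normU' y)) = ∏ g : L ≃ₐ[K] L, localEmb Q (galU g y) := by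
  rw [← map_prod, ← baseU_normU'_eq_prod]
  exact Units.ext (belowHom_algebraMap (K := K) Q _)

/-- A global norm is a local norm. -/
theorem localEmb_normU'_mem_range (y : Lˣ) :
    localEmb (belowP K Q) (normU' y) ∈ (normC (K := K) Q).range := by
  set D := MulAction.stabilizer (L ≃ₐ[K] L) Q.asIdeal
  refine ⟨localEmb Q (∏ q : (L ≃ₐ[K] L) ⧸ D, galU q.out⁻¹ y), belowU_injective Q ?_⟩
  rw [belowU_normC, belowU_localEmb_normU']
  simp only [decU_localEmb, map_prod]
  rw [← Equiv.prod_comp (Equiv.inv (L ≃ₐ[K] L)), ← (cosetEquiv D).prod_comp, Fintype.prod_prod_type, Finset.prod_comm]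
  refine Finset.prod_congr rfl fun q _ => ?_
  rw [← Equiv.prod_comp (Equiv.inv D)]
  refine Finset.prod_congr rfl fun g _ => congrArg (localEmb Q) (Units.ext ?_)
  simp [cosetEquiv, mul_inv_rev, AlgEquiv.mul_apply]

variable [IsMulCommutative (L ≃ₐ[K] L)]

/-- **Norms are in the kernel.** -/
theorem normC_mem_ker (z : (Q.adicCompletion L)ˣ) :
    normC Q z ∈ (localArtin L (belowP K Q)).ker := by
  set D := MulAction.stabilizer (L ≃ₐ[K] L) Q.asIdeal
  rw [MonoidHom.mem_ker, mem_ker_localArtin_iff]
  intro k
  set m := eIdx K Q * (k + 1) with hm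
  have hz : Valued.v (z : Q.adicCompletion L) ≠ 0 := (Valuation.ne_zero_iff _).2 z.ne_zero
  set i := log (Valued.v (z : Q.adicCompletion L))
  obtain ⟨y, hy, hy'⟩ := exists_near_above (K := K) Q (z : Q.adicCompletion L) 1
    (m + 1 + (-i).toNat)
  have hlt : Valued.v (algebraMap L (Q.adicCompletion L) y - z) <
      Valued.v (z : Q.adicCompletion L) :=
    hy.trans_lt (lt_of_lt_of_eq (exp_lt_exp.2 (show _ < i by omega)) (exp_log hz))
  have hy0 : y ≠ 0 := fun h => by
    rw [h, map_zero, zero_sub, Valuation.map_neg] at hlt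
    exact hlt.false
  set Y := Units.mk0 y hy0
  have hQm : localEmb Q Y / z ∈ nearLocal Q m := by
    rw [mem_nearLocal, Units.val_div_eq_div_val, localEmb_val, Units.val_mk0,
      div_sub_one z.ne_zero, map_div₀]
    refine (div_le_iff₀ (zero_lt_iff.2 hz)).2 (hy.trans ?_)
    refine le_of_le_of_eq ?_ (congrArg (exp (-((m + 1 : ℕ) : ℤ)) * ·) (exp_log hz))
    rw [← exp_add, exp_le_exp]
    push_cast
    omega
  have hD : ∀ g : D, decU Q g z / localEmb Q (galU (g : L ≃ₐ[K] L) Y) ∈ nearLocal Q m := fun g => by
    rw [← decU_localEmb, ← map_div]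
    exact decU_mem_nearLocal Q g (by rw [← inv_div]; exact inv_mem hQm)
  have hO : ∀ g, g ∉ D → localEmb Q (galU g Y) ∈ nearLocal Q m := fun g hg => by
    refine (mem_nearLocal Q).2 ?_
    rw [localEmb_val, galU_val, Units.val_mk0, ← map_one (algebraMap L (Q.adicCompletion L)),
      ← map_sub, valued_algebraMap, ← map_one (g : L →+* L), RingHom.coe_coe, ← map_sub,
      valuation_gal_apply]
    exact (hy' _ (galPrime_inv_ne Q hg) (belowP_galPrime g⁻¹ Q)).trans (exp_le_exp.2 (by omega))
  have key : belowU Q (normC Q z / localEmb (belowP K Q) (normU' Y)) ∈ nearLocal Q m := by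
    rw [map_div, belowU_normC, belowU_localEmb_normU', ← Finset.prod_filter_mul_prod_filter_not
      (Finset.univ (α := L ≃ₐ[K] L)) (· ∈ D), ← div_div, Finset.prod_subtype (F := inferInstance)
      (p := fun g => g ∈ D) _ (fun g => by simp) fun g => localEmb Q (galU g Y),
      ← Finset.prod_div_distrib]
    exact div_mem (prod_mem fun g _ => hD g)
      (prod_mem fun g hg => hO g (Finset.mem_filter.1 hg).2)
  refine ⟨Y, (mem_nearLocal _).2 ((pow_le_pow_iff_left₀ zero_le zero_le (eIdx_pos (K := K) Q).ne').1 ?_)⟩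
  rw [mem_nearLocal, belowU, Units.coe_map, MonoidHom.coe_coe, ← map_one (belowHom (K := K) Q),
    ← map_sub, valued_belowHom] at key
  refine key.trans ?_
  rw [← exp_nsmul, exp_le_exp, hm, nsmul_eq_mul]
  push_cast
  nlinarith

/-- **The kernel of the local map is the norm group of the completion.** -/
theorem range_normC : (normC Q).range = (localArtin L (belowP K Q)).ker := by
  refine le_antisymm ?_ fun z hz => ?_
  · rintro _ ⟨z, rfl⟩
    exact normC_mem_ker Q z
  set D := MulAction.stabilizer (L ≃ₐ[K] L) Q.asIdeal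
  obtain ⟨k, hk⟩ := exists_nearLocal_pow (belowP K Q) (d := Nat.card D) Nat.card_pos.ne'
  obtain ⟨y, hy⟩ := (mem_ker_localArtin_iff z).1 hz k
  obtain ⟨s, hs⟩ := hk _ hy
  rw [← div_mul_cancel z (localEmb (belowP K Q) (normU' y))]
  refine mul_mem ⟨belowU Q s, Units.ext ?_⟩ (localEmb_normU'_mem_range Q y)
  rw [← hs, normC_val, belowU, Units.coe_map, MonoidHom.coe_coe, ← belowHom_def,
    Algebra.norm_algebraMap, finrank_above, Units.val_pow_eq_pow_val]

theorem localArtin_mem_stab (z : ((belowP K Q).adicCompletion K)ˣ) :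
    localArtin L (belowP K Q) z ∈ MulAction.stabilizer (L ≃ₐ[K] L) Q.asIdeal := by
  rw [← range_localArtin (K := K) (L := L) (Q := Q) rfl]
  exact ⟨z, rfl⟩

/-- The local map into the decomposition group. -/
def decArtin :
    ((belowP K Q).adicCompletion K)ˣ →* MulAction.stabilizer (L ≃ₐ[K] L) Q.asIdeal :=
  (localArtin L (belowP K Q)).codRestrict _ (localArtin_mem_stab Q)

theorem decArtin_surjective : Function.Surjective (decArtin (K := K) Q) := fun g => by
  have h : (g : L ≃ₐ[K] L) ∈ (localArtin L (belowP K Q)).range := by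
    rw [range_localArtin (K := K) (L := L) (Q := Q) rfl]
    exact g.2
  obtain ⟨z, hz⟩ := h
  exact ⟨z, Subtype.ext hz⟩

/-- The local map as a map onto the Galois group of the completion. -/
def galArtin :
    ((belowP K Q).adicCompletion K)ˣ →*
      (Q.adicCompletion L ≃ₐ[(belowP K Q).adicCompletion K] Q.adicCompletion L) :=
  (IsGaloisGroup.mulEquivAlgEquiv (MulAction.stabilizer (L ≃ₐ[K] L) Q.asIdeal)
      ((belowP K Q).adicCompletion K) (Q.adicCompletion L)).toMonoidHom.comp (decArtin Q)

theorem galArtin_algebraMap (z : ((belowP K Q).adicCompletion K)ˣ) (y : L) :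
    galArtin Q z (algebraMap L (Q.adicCompletion L) y) =
      algebraMap L (Q.adicCompletion L) (localArtin L (belowP K Q) z y) :=
  decHom_algebraMap Q _ y

theorem galArtin_surjective : Function.Surjective (galArtin (K := K) Q) := by
  rw [galArtin, MonoidHom.coe_comp]
  exact (IsGaloisGroup.mulEquivAlgEquiv (MulAction.stabilizer (L ≃ₐ[K] L) Q.asIdeal)
    ((belowP K Q).adicCompletion K) (Q.adicCompletion L)).surjective.comp (decArtin_surjective Q)

theorem ker_galArtin : (galArtin (K := K) Q).ker = (normC Q).range := by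
  rw [range_normC]
  ext z
  simp [galArtin, decArtin, MonoidHom.mem_ker]

end FA.LocalCFT

end
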