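import Fermat.Agent.LocalCFT.NormLimitation

/-!
# The index of a norm group and the norm on completions

The index of the norm group of a finite extension of a completion is the degree of its largest
abelian subextension.  For a Galois extension of number fields the local maps commute with
restriction and the norm.
-/

set_option autoImplicit false
set_option linter.unusedSectionVars false
set_option linter.style.haveILetI false

noncomputable section

open NumberField IsDedekindDomain IntermediateField WithZero IsMulCommutative
open FA.ArtinRec FA.Ideles FA.NormResidue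
open FA.QuadFormsNF (valued_algebraMap charZero_completion)
open FA.HasseCyclic (nearOne mem_nearOne nearOne_anti)
open scoped Pointwise Classical

namespace FA.LocalCFT

universe u

/-- Norms from the bigger field are norms from the smaller. -/
theorem normGroup_le_of_algHom {k B E : Type*} [Field k] [Field B] [Field E] [Algebra k B]
    [Algebra k E] [FiniteDimensional k E] (φ : B →ₐ[k] E) : normGroup k E ≤ normGroup k B := by
  letI : Algebra B E := φ.toRingHom.toAlgebra
  haveI : IsScalarTower k B E := IsScalarTower.of_algebraMap_eq fun x => (φ.commutes x).symm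
  haveI : FiniteDimensional k B := Module.Finite.of_injective φ.toLinearMap φ.injective
  haveI : FiniteDimensional B E := Module.Finite.of_restrictScalars_finite k B E
  rintro _ ⟨y, rfl⟩
  exact ⟨Units.map (Algebra.norm B : E →* B) y, Units.ext Algebra.norm_norm⟩

variable {K : Type u} [Field K] [NumberField K]

/-- The index of the norm group of an abelian extension is the degree. -/
theorem index_normGroup_abelian (v : HeightOneSpectrum (𝓞 K)) (A : Type*) [Field A]
    [Algebra (v.adicCompletion K) A] [FiniteDimensional (v.adicCompletion K) A]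
    [IsAbelianGalois (v.adicCompletion K) A] :
    (normGroup (v.adicCompletion K) A).index = Module.finrank (v.adicCompletion K) A := by
  obtain ⟨-, ⟨i⟩, -⟩ := abelian_facts v A
  rw [Subgroup.index_eq_card, Nat.card_congr i.toEquiv, IsGalois.card_aut_eq_finrank]

/-- **The largest abelian subextension.** -/
theorem exists_maximal_abelian (v : HeightOneSpectrum (𝓞 K)) (E : Type*) [Field E]
    [Algebra (v.adicCompletion K) E] [FiniteDimensional (v.adicCompletion K) E] :
    ∃ A : IntermediateField (v.adicCompletion K) E, IsAbelianGalois (v.adicCompletion K) A ∧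
      normGroup (v.adicCompletion K) A = normGroup (v.adicCompletion K) E ∧
      (∀ B : IntermediateField (v.adicCompletion K) E,
        IsAbelianGalois (v.adicCompletion K) B → B ≤ A) ∧
      (normGroup (v.adicCompletion K) E).index = Module.finrank (v.adicCompletion K) A := by
  obtain ⟨A, hA, hAE⟩ := exists_abelian_normGroup v E
  refine ⟨A, hA, hAE, fun B hB => ?_, by rw [← hAE, index_normGroup_abelian v A]⟩
  obtain ⟨φ⟩ := nonempty_algHom_of_normGroup_le v A B (hAE ▸ normGroup_le_of_algHom B.val)
  have h : (A.val.comp φ).fieldRange = B := AlgHom.fieldRange_of_normal _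
  intro x hx
  rw [← h] at hx
  obtain ⟨y, rfl⟩ := AlgHom.mem_fieldRange.1 hx
  exact (φ y).2

/-- **The index divides the degree, with equality only for abelian extensions.** -/
theorem index_normGroup_facts (v : HeightOneSpectrum (𝓞 K)) (E : Type*) [Field E]
    [Algebra (v.adicCompletion K) E] [FiniteDimensional (v.adicCompletion K) E] :
    (normGroup (v.adicCompletion K) E).index ∣ Module.finrank (v.adicCompletion K) E ∧
      ((normGroup (v.adicCompletion K) E).index = Module.finrank (v.adicCompletion K) E ↔
        IsAbelianGalois (v.adicCompletion K) E) := by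
  obtain ⟨A, hA, hAE, -, hidx⟩ := exists_maximal_abelian v E
  refine ⟨hidx ▸ Dvd.intro _ (Module.finrank_mul_finrank (v.adicCompletion K) A E),
    fun h => ?_, fun h => index_normGroup_abelian v E⟩
  have htop : A = ⊤ := IntermediateField.eq_of_le_of_finrank_le le_top (by
    rw [IntermediateField.finrank_top', ← h, hidx])
  subst htop
  exact IsAbelianGalois.of_algHom (IntermediateField.topEquiv (F := v.adicCompletion K) (E := E)).symm.toAlgHom

variable {M : Type*} [Field M] [NumberField M] [Algebra K M] [IsGalois K M]

/-- A global element near a given one has its norm near the local norm. -/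
theorem exists_near_norm (w : HeightOneSpectrum (𝓞 M)) (z : (w.adicCompletion M)ˣ) (j k : ℕ) :
    ∃ c : Mˣ, localEmb w c / z ∈ nearLocal w j ∧
      (∀ P, belowP K P = belowP K w → P ≠ w → c ∈ nearOne P j) ∧
      normC (K := K) w z / localEmb (belowP K w) (normU' c) ∈ nearLocal (belowP K w) k := by
  set D := MulAction.stabilizer (M ≃ₐ[K] M) w.asIdeal
  set m := max j (eIdx K w * (k + 1)) with hm
  have hz : Valued.v (z : w.adicCompletion M) ≠ 0 := (Valuation.ne_zero_iff _).2 z.ne_zero
  set i := log (Valued.v (z : w.adicCompletion M))
  obtain ⟨y, hy, hy'⟩ := exists_near_above (K := K) w (z : w.adicCompletion M) 1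
    (m + 1 + (-i).toNat)
  have hlt : Valued.v (algebraMap M (w.adicCompletion M) y - z) <
      Valued.v (z : w.adicCompletion M) :=
    hy.trans_lt (lt_of_lt_of_eq (exp_lt_exp.2 (show _ < i by omega)) (exp_log hz))
  have hy0 : y ≠ 0 := fun h => by
    rw [h, map_zero, zero_sub, Valuation.map_neg] at hlt
    exact hlt.false
  set Y := Units.mk0 y hy0
  have hQm : localEmb w Y / z ∈ nearLocal w m := by
    rw [mem_nearLocal, Units.val_div_eq_div_val, localEmb_val, Units.val_mk0,
      div_sub_one z.ne_zero, map_div₀]
    refine (div_le_iff₀ (zero_lt_iff.2 hz)).2 (hy.trans ?_)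
    refine le_of_le_of_eq ?_ (congrArg (exp (-((m + 1 : ℕ) : ℤ)) * ·) (exp_log hz))
    rw [← exp_add, exp_le_exp]
    push_cast
    omega
  have hY : ∀ P, belowP K P = belowP K w → P ≠ w → Y ∈ nearOne P m := fun P hP hne =>
    mem_nearOne.2 ((hy' P hne hP).trans (exp_le_exp.2 (by omega)))
  refine ⟨Y, nearLocal_anti w (le_max_left _ _) hQm,
    fun P hP hne => nearOne_anti P (le_max_left _ _) (hY P hP hne), ?_⟩
  have hD : ∀ g : D, decU w g z / localEmb w (galU (g : M ≃ₐ[K] M) Y) ∈ nearLocal w m := fun g => by
    rw [← decU_localEmb, ← map_div]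
    exact decU_mem_nearLocal w g (by rw [← inv_div]; exact inv_mem hQm)
  have hO : ∀ g, g ∉ D → localEmb w (galU g Y) ∈ nearLocal w m := fun g hg => by
    refine (mem_nearLocal w).2 ?_
    rw [localEmb_val, galU_val, ← map_one (algebraMap M (w.adicCompletion M)), ← map_sub,
      valued_algebraMap, ← map_one (g : M →+* M), RingHom.coe_coe, ← map_sub, valuation_gal_apply]
    exact mem_nearOne.1 (hY _ (belowP_galPrime g⁻¹ w) (galPrime_inv_ne w hg))
  have key : belowU w (normC (K := K) w z / localEmb (belowP K w) (normU' Y)) ∈ nearLocal w m := by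
    rw [map_div, belowU_normC, belowU_localEmb_normU', ← Finset.prod_filter_mul_prod_filter_not
      (Finset.univ (α := M ≃ₐ[K] M)) (· ∈ D), ← div_div, Finset.prod_subtype (F := inferInstance)
      (p := fun g => g ∈ D) _ (fun g => by simp) fun g => localEmb w (galU g Y),
      ← Finset.prod_div_distrib]
    exact div_mem (prod_mem fun g _ => hD g)
      (prod_mem fun g hg => hO g (Finset.mem_filter.1 hg).2)
  replace key := nearLocal_anti w (le_max_right j (eIdx K w * (k + 1))) key
  refine (mem_nearLocal _).2 ((pow_le_pow_iff_left₀ zero_le zero_le (eIdx_pos (K := K) w).ne').1 ?_)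
  rw [mem_nearLocal, belowU, Units.coe_map, MonoidHom.coe_coe, ← map_one (belowHom (K := K) w),
    ← map_sub, valued_belowHom] at key
  refine key.trans ?_
  rw [← exp_nsmul, exp_le_exp, nsmul_eq_mul]
  push_cast
  nlinarith [eIdx_pos (K := K) w]

variable {L : Type*} [Field L] [NumberField L] [Algebra K L] [IsGalois K L]
  [IsMulCommutative (L ≃ₐ[K] L)] {N : Type*} [Field N] [NumberField N] [Algebra M N]
  [IsGalois M N] [IsMulCommutative (N ≃ₐ[M] N)] [Algebra K N] [IsScalarTower K M N] [Algebra L N]
  [IsScalarTower K L N]

/-- **The local maps commute with restriction and the norm.** -/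
theorem restrictBelow_localArtin (w : HeightOneSpectrum (𝓞 M)) (z : (w.adicCompletion M)ˣ) :
    restrictBelow K M L N (localArtin N w z) = localArtin L (belowP K w) (normC (K := K) w z) := by
  obtain ⟨j, hj⟩ := exists_norm_symbol_level (K := K) (L := L) (N := N) w
  obtain ⟨c, hc, hc', hn⟩ :=
    exists_near_norm (K := K) w z (max j (nrLevel M N)) (nrLevel K L)
  rw [localArtin_eq (a := c) (nearLocal_anti w (le_max_right _ _) hc),
    hj c c (by rw [div_self']; exact one_mem _) fun P hP hne =>
      nearOne_anti P (le_max_left _ _) (hc' P hP hne),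
    localArtin_eq (a := normU' c) (by rw [← inv_div]; exact inv_mem hn)]

end FA.LocalCFT

end
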