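import Fermat.Agent.LocalCFT.Abelian
import Fermat.Agent.Root.SummaryKroneckerWeber
import Mathlib.NumberTheory.Padics.HeightOneSpectrum

/-!
# The local theorem of Kronecker and Weber

A finite abelian extension of `ℚ_p` is the completion of an abelian extension of `ℚ`, and this is
generated by roots of unity.
-/

set_option autoImplicit false
set_option linter.unusedSectionVars false
set_option linter.style.haveILetI false

noncomputable section

open NumberField IsDedekindDomain IsMulCommutative
open FA.ArtinRec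
open FA.QuadFormsNF (charZero_completion)
open scoped Pointwise Classical

namespace FA.LocalCFT

universe u

/-- **The global field generates the completion over the completion below.** -/
theorem adjoin_range_eq_top {K : Type u} [Field K] [NumberField K] {L : Type*} [Field L]
    [NumberField L] [Algebra K L] [IsGalois K L] (Q : HeightOneSpectrum (𝓞 L)) :
    IntermediateField.adjoin ((belowP K Q).adicCompletion K)
      (Set.range (algebraMap L (Q.adicCompletion L))) = ⊤ := by
  set M := IntermediateField.adjoin ((belowP K Q).adicCompletion K)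
    (Set.range (algebraMap L (Q.adicCompletion L)))
  have h : M.fixingSubgroup = ⊥ := by
    rw [eq_bot_iff]
    intro σ hσ
    obtain ⟨g, rfl⟩ := (IsGaloisGroup.mulEquivAlgEquiv (MulAction.stabilizer (L ≃ₐ[K] L) Q.asIdeal)
      ((belowP K Q).adicCompletion K) (Q.adicCompletion L)).surjective σ
    have hg : g = 1 := Subtype.ext (AlgEquiv.ext fun x => by
      have h' : g • algebraMap L (Q.adicCompletion L) x = algebraMap L (Q.adicCompletion L) x :=
        (IntermediateField.mem_fixingSubgroup_iff M _).1 hσ _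
          (IntermediateField.subset_adjoin _ _ ⟨x, rfl⟩)
      rw [dec_smul_def, decHom_algebraMap] at h'
      exact (algebraMap L (Q.adicCompletion L)).injective h')
    rw [hg, map_one]
    exact Subgroup.one_mem _
  rw [← IsGalois.fixedField_fixingSubgroup M, h, IntermediateField.fixedField_bot]

/-- A field generated by an abelian extension of `ℚ` lies in a cyclotomic field. -/
theorem exists_algHom_cyclotomic {k E : Type*} [Field k] [CharZero k] [Field E] [Algebra k E]
    [Algebra.IsAlgebraic k E] {L : Type*} [Field L] [Algebra ℚ L] [FiniteDimensional ℚ L]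
    [IsAbelianGalois ℚ L] (h : L →+* E) (hgen : IntermediateField.adjoin k (Set.range h) = ⊤) :
    ∃ N : ℕ, 0 < N ∧ Nonempty (E →ₐ[k] CyclotomicField N k) := by
  obtain ⟨N, hN, ⟨j⟩⟩ := FA.Summary.kroneckerWeber_cyclotomicField L
  haveI : NeZero N := ⟨hN.ne'⟩
  let ι : E →ₐ[k] AlgebraicClosure k := IsAlgClosed.lift
  letI := j.toRingHom.toAlgebra
  letI := (ι.toRingHom.comp h).toAlgebra
  haveI : Algebra.IsAlgebraic L (CyclotomicField N ℚ) := by
    haveI : IsScalarTower ℚ L (CyclotomicField N ℚ) :=
      IsScalarTower.of_algebraMap_eq' (Subsingleton.elim _ _)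
    exact Algebra.IsAlgebraic.tower_top (K := ℚ) L
  let G : CyclotomicField N ℚ →ₐ[L] AlgebraicClosure k := IsAlgClosed.lift
  obtain ⟨ζ, hζ⟩ := (CyclotomicField.isCyclotomicExtension N ℚ).exists_isPrimitiveRoot
    (Set.mem_singleton N) hN.ne'
  set η := G ζ
  have hη : IsPrimitiveRoot η N := hζ.map_of_injective G.injective
  set C := IntermediateField.adjoin k {η}
  have hG : ∀ y, G y ∈ C := fun y => by
    letI : Algebra ℚ (CyclotomicField N ℚ) := CyclotomicField.algebra N ℚ
    have hy : y ∈ Algebra.adjoin ℚ {ζ} := by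
      haveI := CyclotomicField.isCyclotomicExtension N ℚ
      rw [IsCyclotomicExtension.adjoin_primitive_root_eq_top hζ]
      exact Algebra.mem_top
    induction hy using Algebra.adjoin_induction with
    | mem z hz =>
      rw [Set.mem_singleton_iff.1 hz]
      exact IntermediateField.mem_adjoin_simple_self k η
    | algebraMap q =>
      rw [eq_ratCast, map_ratCast]
      exact SubfieldClass.ratCast_mem C q
    | add a b _ _ ha hb => rw [map_add]; exact add_mem ha hb
    | mul a b _ _ ha hb => rw [map_mul]; exact mul_mem ha hb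
  have hle : ι.fieldRange ≤ C := by
    rw [AlgHom.fieldRange_eq_map, ← hgen, IntermediateField.adjoin_map,
      IntermediateField.adjoin_le_iff]
    rintro _ ⟨_, ⟨x, rfl⟩, rfl⟩
    have hx := G.commutes x
    exact hx ▸ hG _
  haveI : IsCyclotomicExtension {N} k C := hη.intermediateField_adjoin_isCyclotomicExtension k
  exact ⟨N, hN, ⟨((IsCyclotomicExtension.algEquiv {N} k C (CyclotomicField N k)).toAlgHom.comp
    (IntermediateField.inclusion hle)).comp (AlgEquiv.ofInjectiveField ι).toAlgHom⟩⟩

section

/- The completions keep their own structure of algebras over `ℚ`. -/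
attribute [-instance] DivisionRing.toRatAlgebra

/-- The abelian extension of `ℚ` inside, generating. -/
theorem exists_abelian_generating (v : HeightOneSpectrum (𝓞 ℚ)) (E : Type*) [Field E]
    [Algebra (v.adicCompletion ℚ) E] [FiniteDimensional (v.adicCompletion ℚ) E]
    [IsGalois (v.adicCompletion ℚ) E] [IsMulCommutative (E ≃ₐ[v.adicCompletion ℚ] E)] :
    ∃ (L : Type) (_ : Field L) (_ : Algebra ℚ L) (_ : FiniteDimensional ℚ L)
      (_ : IsAbelianGalois ℚ L) (h : L →+* E),
      IntermediateField.adjoin (v.adicCompletion ℚ) (Set.range h) = ⊤ := by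
  obtain ⟨L, i1, i2, i3, i4, i5, Q, hQ, e, he⟩ := exists_abelian_completion v E
  subst hQ
  let e' : Q.adicCompletion L ≃ₐ[(belowP ℚ Q).adicCompletion ℚ] E :=
    AlgEquiv.ofRingEquiv (f := e) he
  refine ⟨L, i1, i3, inferInstance, ⟨⟩, e.toRingHom.comp (algebraMap L (Q.adicCompletion L)), ?_⟩
  have h : IntermediateField.map e'.toAlgHom
      (IntermediateField.adjoin ((belowP ℚ Q).adicCompletion ℚ)
        (Set.range (algebraMap L (Q.adicCompletion L)))) = ⊤ := by
    rw [adjoin_range_eq_top Q]
    exact eq_top_iff.2 fun z _ => ⟨e.symm z, IntermediateField.mem_top, e.apply_symm_apply z⟩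
  rw [IntermediateField.adjoin_map, ← Set.range_comp] at h
  exact h

/-- **The local theorem of Kronecker and Weber.** -/
theorem exists_algHom_cyclotomic_completion (v : HeightOneSpectrum (𝓞 ℚ)) (E : Type*) [Field E]
    [Algebra (v.adicCompletion ℚ) E] [FiniteDimensional (v.adicCompletion ℚ) E]
    [IsGalois (v.adicCompletion ℚ) E] [IsMulCommutative (E ≃ₐ[v.adicCompletion ℚ] E)] :
    ∃ N : ℕ, 0 < N ∧
      Nonempty (E →ₐ[v.adicCompletion ℚ] CyclotomicField N (v.adicCompletion ℚ)) := by
  obtain ⟨L, i1, i2, i3, i4, h, hh⟩ := exists_abelian_generating v E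
  haveI := charZero_completion v
  exact exists_algHom_cyclotomic h hh

end

/-- **Kronecker and Weber over `ℚ_p`.** -/
theorem exists_algHom_cyclotomic_padic (p : ℕ) [hp : Fact p.Prime] (E : Type*) [Field E]
    [Algebra ℚ_[p] E] [FiniteDimensional ℚ_[p] E] [IsGalois ℚ_[p] E]
    [IsMulCommutative (E ≃ₐ[ℚ_[p]] E)] :
    ∃ N : ℕ, 0 < N ∧ Nonempty (E →ₐ[ℚ_[p]] CyclotomicField N ℚ_[p]) := by
  set φ := (Padic.adicCompletionEquiv (𝓞 ℚ) ⟨p, hp.out⟩).toRingEquiv
  set v : HeightOneSpectrum (𝓞 ℚ) :=
    (Rat.HeightOneSpectrum.primesEquiv (R := 𝓞 ℚ)).symm ⟨p, hp.out⟩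
  letI : Algebra (v.adicCompletion ℚ) E :=
    ((algebraMap ℚ_[p] E).comp φ.symm.toRingHom).toAlgebra
  have hφ : ∀ t : ℚ_[p], algebraMap (v.adicCompletion ℚ) E (φ t) = algebraMap ℚ_[p] E t :=
    fun t => congrArg (algebraMap ℚ_[p] E) (φ.symm_apply_apply t)
  haveI : FiniteDimensional (v.adicCompletion ℚ) E := by
    refine Module.Finite.of_equiv_equiv φ (RingEquiv.refl E) (RingHom.ext fun t => ?_)
    exact hφ t
  haveI : IsGalois (v.adicCompletion ℚ) E :=
    IsGalois.of_equiv_equiv (f := φ) (g := RingEquiv.refl E) (RingHom.ext hφ)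
  let τ : (E ≃ₐ[v.adicCompletion ℚ] E) →* (E ≃ₐ[ℚ_[p]] E) := MonoidHom.mk'
    (fun σ => AlgEquiv.ofRingEquiv (f := σ.toRingEquiv) fun t => by
      rw [← hφ]; exact σ.commutes _) (fun σ σ' => rfl)
  haveI : IsMulCommutative (E ≃ₐ[v.adicCompletion ℚ] E) := ⟨⟨fun σ σ' => by
    have h : Function.Injective τ := fun a b hab => AlgEquiv.ext fun x =>
      DFunLike.congr_fun hab x
    exact h (by rw [map_mul, map_mul, mul_comm'])⟩⟩
  obtain ⟨L, i1, i2, i3, i4, h, hh⟩ := exists_abelian_generating v E
  refine exists_algHom_cyclotomic h (IntermediateField.ext fun z =>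
    ⟨fun _ => IntermediateField.mem_top, fun h0 => ?_⟩)
  clear h0
  have hz : z ∈ IntermediateField.adjoin (v.adicCompletion ℚ) (Set.range h) := by
    rw [hh]; exact IntermediateField.mem_top
  induction hz using IntermediateField.adjoin_induction with
  | mem x hx => exact IntermediateField.subset_adjoin _ _ hx
  | algebraMap t =>
    rw [← φ.apply_symm_apply t, hφ]
    exact IntermediateField.algebraMap_mem _ _
  | add a b _ _ ha hb => exact add_mem ha hb
  | inv a _ ha => exact inv_mem ha
  | mul a b _ _ ha hb => exact mul_mem ha hb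

end FA.LocalCFT

end
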