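import Fermat.Agent.Ideles.Abelian
import Fermat.Agent.LocalCFT.NormIndex
import Fermat.Agent.LocalCFT.KroneckerWeber
import Mathlib.FieldTheory.Galois.Profinite

/-!
# The maximal abelian extension of a completion

The maximal abelian extension of `K_v` is generated by that of `K`, so the Artin map of `K` gives a
continuous injective homomorphism with dense image from `K_v^*` to its Galois group, whose finite
layers have the norm groups as kernels.
-/

set_option autoImplicit false
set_option linter.unusedSectionVars false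
set_option linter.style.haveILetI false

noncomputable section

open NumberField IsDedekindDomain IntermediateField WithZero IsMulCommutative Topology
open FA.ArtinRec FA.Ideles FA.NormResidue
open FA.QuadFormsNF (charZero_completion)
open scoped Pointwise Classical

namespace FA.LocalCFT

universe u

/-! ### The compositum of the abelian extensions -/

section Generic

variable (k : Type*) [Field k]

/-- The compositum of the finite abelian extensions of a field in its algebraic closure. -/
def abClosure : IntermediateField k (AlgebraicClosure k) :=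
  ⨆ E : {E : IntermediateField k (AlgebraicClosure k) //
    FiniteDimensional k E ∧ IsAbelianGalois k E}, E.1

variable {k}

theorem le_abClosure {E : IntermediateField k (AlgebraicClosure k)} (h1 : FiniteDimensional k E)
    (h2 : IsAbelianGalois k E) : E ≤ abClosure k :=
  le_iSup (fun E : {E : IntermediateField k (AlgebraicClosure k) //
    FiniteDimensional k E ∧ IsAbelianGalois k E} => E.1) ⟨E, h1, h2⟩

variable [CharZero k]

instance normal_abClosure : Normal k (abClosure k) :=
  haveI : ∀ E : {E : IntermediateField k (AlgebraicClosure k) //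
      FiniteDimensional k E ∧ IsAbelianGalois k E}, Normal k E.1 := fun E =>
    haveI := E.2.2
    inferInstance
  inferInstanceAs (Normal k (⨆ E : {E : IntermediateField k (AlgebraicClosure k) //
    FiniteDimensional k E ∧ IsAbelianGalois k E}, E.1 : IntermediateField k (AlgebraicClosure k)))

instance isGalois_abClosure : IsGalois k (abClosure k) := ⟨⟩

instance isAbelianGalois_abClosure : IsAbelianGalois k (abClosure k) where
  is_comm.comm s t := by
    obtain ⟨s, rfl⟩ := AlgEquiv.restrictNormalHom_surjective (AlgebraicClosure k) s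
    obtain ⟨t, rfl⟩ := AlgEquiv.restrictNormalHom_surjective (AlgebraicClosure k) t
    rw [← map_mul, ← map_mul]
    set a := s * t
    set b := t * s
    have hle : abClosure k ≤ IntermediateField.fixedField (Subgroup.zpowers (b⁻¹ * a)) := by
      refine iSup_le fun E => fun y hy => ?_
      haveI := E.2.2
      have h : AlgEquiv.restrictNormalHom E.1 (b⁻¹ * a) = 1 := by
        rw [map_mul, map_inv, map_mul, map_mul, mul_comm' (AlgEquiv.restrictNormalHom E.1 t),
          inv_mul_cancel]
      have h1 : (b⁻¹ * a) y = y := by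
        have h2 := AlgEquiv.restrictNormal_commutes (b⁻¹ * a) E.1 ⟨y, hy⟩
        rw [show (b⁻¹ * a).restrictNormal E.1 = AlgEquiv.restrictNormalHom E.1 (b⁻¹ * a) from rfl,
          h] at h2
        exact h2.symm
      rintro ⟨g, hg⟩
      exact (Subgroup.zpowers_le.2 (show b⁻¹ * a ∈ MulAction.stabilizer
        (AlgebraicClosure k ≃ₐ[k] AlgebraicClosure k) y from h1) hg :)
    refine AlgEquiv.ext fun y => Subtype.ext ?_
    refine (AlgEquiv.restrictNormal_commutes a _ y).trans
      (Eq.trans ?_ (AlgEquiv.restrictNormal_commutes b _ y).symm)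
    have h3 : (b⁻¹ * a) (y : AlgebraicClosure k) = y := hle y.2 ⟨_, Subgroup.mem_zpowers _⟩
    have h4 := congrArg b h3
    rwa [← AlgEquiv.mul_apply, mul_inv_cancel_left] at h4

end Generic

/-- Two maps of a normal extension differ by an automorphism. -/
theorem exists_aut_comp {K L Ω : Type*} [Field K] [Field L] [Field Ω] [Algebra K L] [Algebra K Ω]
    [Normal K L] (a b : L →ₐ[K] Ω) : ∃ γ : L ≃ₐ[K] L, ∀ x, a (γ x) = b x := by
  letI : Algebra L Ω := a.toRingHom.toAlgebra
  haveI : IsScalarTower K L Ω := IsScalarTower.of_algebraMap_eq fun x => (a.commutes x).symm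
  exact ⟨AlgEquiv.ofBijective (b.restrictNormal L) (Algebra.IsAlgebraic.algHom_bijective _),
    fun x => b.restrictNormal_commutes L x⟩

attribute [local instance] charZero_completion

variable {K : Type u} [Field K] [NumberField K] (v : HeightOneSpectrum (𝓞 K))

/-- **One layer.** -/
theorem exists_local_layer (L : Type*) [Field L] [NumberField L] [Algebra K L] [IsGalois K L]
    [IsMulCommutative (L ≃ₐ[K] L)] (h : L →ₐ[K] AlgebraicClosure (v.adicCompletion K)) :
    ∃ E : IntermediateField (v.adicCompletion K) (AlgebraicClosure (v.adicCompletion K)),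
      FiniteDimensional (v.adicCompletion K) E ∧ IsAbelianGalois (v.adicCompletion K) E ∧
      IntermediateField.adjoin (v.adicCompletion K) (Set.range h) = E ∧
      normGroup (v.adicCompletion K) E = (localArtin L v).ker ∧
      ∀ z : (v.adicCompletion K)ˣ, ∃ τ : E ≃ₐ[v.adicCompletion K] E, ∀ (x : L) (hx : h x ∈ E),
        ((τ ⟨h x, hx⟩ : E) : AlgebraicClosure (v.adicCompletion K)) = h (localArtin L v z x) := by
  obtain ⟨P, hP⟩ := exists_belowP K L v
  subst hP
  let ε : P.adicCompletion L →ₐ[(belowP K P).adicCompletion K]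
      AlgebraicClosure ((belowP K P).adicCompletion K) := IsAlgClosed.lift
  let a : L →ₐ[K] AlgebraicClosure ((belowP K P).adicCompletion K) :=
    { ε.toRingHom.comp (algebraMap L (P.adicCompletion L)) with
      commutes' := fun x => by
        show ε (algebraMap L (P.adicCompletion L) (algebraMap K L x)) = _
        rw [← belowHom_algebraMap (K := K) P, ← belowHom_def, ε.commutes,
          ← IsScalarTower.algebraMap_apply] }
  obtain ⟨γ, hγ⟩ := exists_aut_comp a h
  let eE : P.adicCompletion L ≃ₐ[(belowP K P).adicCompletion K] ε.fieldRange :=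
    AlgEquiv.ofInjectiveField ε
  haveI := isMulCommutative_completion (K := K) P
  haveI : IsGalois ((belowP K P).adicCompletion K) ε.fieldRange := IsGalois.of_algEquiv eE
  haveI := isMulCommutative_of_algEquiv eE
  refine ⟨ε.fieldRange, eE.toLinearEquiv.finiteDimensional, ⟨⟩, ?_,
    (normGroup_congr eE).symm.trans (range_normC P), fun z => ?_⟩
  · rw [show Set.range h = Set.range a from Set.ext fun y =>
      ⟨fun ⟨x, hx⟩ => ⟨γ x, (hγ x).trans hx⟩,
        fun ⟨x, hx⟩ => ⟨γ.symm x, by rw [← hγ, γ.apply_symm_apply, hx]⟩⟩,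
      show Set.range a = ε '' Set.range (algebraMap L (P.adicCompletion L)) from
        Set.range_comp ε (algebraMap L (P.adicCompletion L)),
      ← IntermediateField.adjoin_map, adjoin_range_eq_top, ← AlgHom.fieldRange_eq_map]
  · refine ⟨eE.autCongr (galArtin P z), fun x hx => ?_⟩
    have hxe : (⟨h x, hx⟩ : ε.fieldRange) = eE (algebraMap L (P.adicCompletion L) (γ x)) :=
      Subtype.ext (hγ x).symm
    rw [hxe, AlgEquiv.autCongr_apply, AlgEquiv.trans_apply, AlgEquiv.trans_apply,
      AlgEquiv.symm_apply_apply, galArtin_algebraMap]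
    show a (localArtin L (belowP K P) z (γ x)) = _
    rw [← hγ, ← AlgEquiv.mul_apply, ← AlgEquiv.mul_apply, mul_comm]

/-! ### The maximal abelian extension of `K` inside -/

/-- An embedding of the maximal abelian extension of `K`. -/
def globalEmb : maxAbelian K →ₐ[K] AlgebraicClosure (v.adicCompletion K) := IsAlgClosed.lift

/-- A finite abelian extension as a subfield of the maximal one. -/
theorem exists_algHom_maxAbelian (L : Type*) [Field L] [NumberField L] [Algebra K L]
    [IsGalois K L] [IsMulCommutative (L ≃ₐ[K] L)] : Nonempty (L →ₐ[K] maxAbelian K) := by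
  let f : L →ₐ[K] AlgebraicClosure K := IsAlgClosed.lift
  haveI : IsAbelianGalois K L := ⟨⟩
  haveI hfin : FiniteDimensional K f.fieldRange :=
    (AlgEquiv.ofInjectiveField f).toLinearEquiv.finiteDimensional
  have hab : IsAbelianGalois K f.fieldRange :=
    IsAbelianGalois.of_algHom (AlgEquiv.ofInjectiveField f).symm.toAlgHom
  exact ⟨(IntermediateField.inclusion (le_maxAbelian hfin hab)).comp
    (AlgEquiv.ofInjectiveField f).toAlgHom⟩

theorem globalEmb_mem (x : maxAbelian K) : globalEmb v x ∈ abClosure (v.adicCompletion K) := by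
  set L := IntermediateField.adjoin K ({x} : Set (maxAbelian K))
  haveI : FiniteDimensional K L := finite_adjoin _ (Set.finite_singleton x)
  haveI : NumberField L := NumberField.of_module_finite K L
  obtain ⟨E, hf, hab, hgen, -, -⟩ := exists_local_layer v L ((globalEmb v).comp L.val)
  exact le_abClosure hf hab (hgen ▸ IntermediateField.subset_adjoin _ _
    ⟨⟨x, IntermediateField.subset_adjoin K _ rfl⟩, rfl⟩)

/-- A finite subextension of the maximal one comes from `K`. -/
theorem exists_global_layer
    (E : IntermediateField (v.adicCompletion K) (abClosure (v.adicCompletion K)))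
    [FiniteDimensional (v.adicCompletion K) E] :
    ∃ (L : IntermediateField K (maxAbelian K)) (_ : FiniteDimensional K L),
      IntermediateField.lift E =
        IntermediateField.adjoin (v.adicCompletion K) (globalEmb v '' L) := by
  haveI := charZero_completion v
  obtain ⟨M, i1, i2, i3, i4, i5, P, hP, e, he⟩ := exists_abelian_completion v E
  obtain ⟨g⟩ := exists_algHom_maxAbelian (K := K) M
  refine ⟨g.fieldRange, (AlgEquiv.ofInjectiveField g).toLinearEquiv.finiteDimensional, ?_⟩
  subst hP
  let Φ : P.adicCompletion M →ₐ[(belowP K P).adicCompletion K]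
      AlgebraicClosure ((belowP K P).adicCompletion K) :=
    (((abClosure ((belowP K P).adicCompletion K)).val.comp E.val)).comp
      (AlgEquiv.ofRingEquiv (f := e) he).toAlgHom
  have hrange : Φ.fieldRange = IntermediateField.lift E := by
    refine SetLike.ext fun y => ⟨?_, ?_⟩
    · rintro ⟨t, rfl⟩
      exact (IntermediateField.mem_lift (e t : E).1).2 (e t).2
    · intro hyL
      have hy : y ∈ abClosure ((belowP K P).adicCompletion K) := IntermediateField.lift_le E hyL
      have hyE : (⟨y, hy⟩ : abClosure ((belowP K P).adicCompletion K)) ∈ E :=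
        (IntermediateField.mem_lift (⟨y, hy⟩ : abClosure ((belowP K P).adicCompletion K))).1 hyL
      refine ⟨e.symm ⟨⟨y, hy⟩, hyE⟩, ?_⟩
      exact congrArg (fun t : E => ((t : abClosure ((belowP K P).adicCompletion K)) :
        AlgebraicClosure ((belowP K P).adicCompletion K))) (e.apply_symm_apply ⟨⟨y, hy⟩, hyE⟩)
  let a : M →ₐ[K] AlgebraicClosure ((belowP K P).adicCompletion K) :=
    { Φ.toRingHom.comp (algebraMap M (P.adicCompletion M)) with
      commutes' := fun x => by
        show Φ (algebraMap M (P.adicCompletion M) (algebraMap K M x)) = _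
        rw [← belowHom_algebraMap (K := K) P, ← belowHom_def, Φ.commutes,
          ← IsScalarTower.algebraMap_apply] }
  obtain ⟨γ, hγ⟩ := exists_aut_comp a ((globalEmb (belowP K P)).comp g)
  rw [← hrange, AlgHom.fieldRange_eq_map, ← adjoin_range_eq_top (K := K) P,
    IntermediateField.adjoin_map]
  congr 1
  ext y
  constructor
  · rintro ⟨_, ⟨x, rfl⟩, rfl⟩
    exact ⟨g (γ.symm x), ⟨_, rfl⟩, by
      rw [show globalEmb (belowP K P) (g (γ.symm x)) = a (γ (γ.symm x)) from (hγ _).symm,
        γ.apply_symm_apply]; rfl⟩
  · rintro ⟨_, ⟨x, rfl⟩, rfl⟩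
    exact ⟨_, ⟨γ x, rfl⟩, hγ x⟩

/-- **The maximal abelian extension is generated by that of `K`.** -/
theorem abClosure_eq_adjoin :
    abClosure (v.adicCompletion K) =
      IntermediateField.adjoin (v.adicCompletion K) (Set.range (globalEmb v)) := by
  haveI := charZero_completion v
  refine le_antisymm (fun y hy => ?_) (IntermediateField.adjoin_le_iff.2 ?_)
  · set E := IntermediateField.adjoin (v.adicCompletion K)
      ({⟨y, hy⟩} : Set (abClosure (v.adicCompletion K)))
    haveI : FiniteDimensional (v.adicCompletion K) E :=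
      IntermediateField.adjoin.finiteDimensional (Algebra.IsIntegral.isIntegral _)
    obtain ⟨L, _, hL⟩ := exists_global_layer v E
    have h : y ∈ IntermediateField.lift E :=
      (IntermediateField.mem_lift (⟨y, hy⟩ : abClosure (v.adicCompletion K))).2
        (IntermediateField.subset_adjoin _ _ rfl)
    rw [hL] at h
    exact IntermediateField.adjoin.mono _ _ _ (Set.image_subset_range _ _) h
  · rintro _ ⟨x, rfl⟩
    exact globalEmb_mem v x

variable {v}

/-- An automorphism is known on the image. -/
theorem autEq_of_globalEmb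
    {τ τ' : abClosure (v.adicCompletion K) ≃ₐ[v.adicCompletion K] abClosure (v.adicCompletion K)}
    (h : ∀ x, τ ⟨globalEmb v x, globalEmb_mem v x⟩ = τ' ⟨globalEmb v x, globalEmb_mem v x⟩) :
    τ = τ' := by
  refine AlgEquiv.ext fun y => ?_
  obtain ⟨y, hy⟩ := y
  have hy' : y ∈ IntermediateField.adjoin (v.adicCompletion K) (Set.range (globalEmb v)) :=
    abClosure_eq_adjoin v ▸ hy
  induction hy' using IntermediateField.adjoin_induction with
  | mem z hz =>
    obtain ⟨x, rfl⟩ := hz
    exact h x
  | algebraMap t =>
    exact ((τ.commutes t).trans (τ'.commutes t).symm :)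
  | add a b ha hb iha ihb =>
    rw [← abClosure_eq_adjoin v] at ha hb
    rw [show (⟨a + b, hy⟩ : abClosure (v.adicCompletion K)) = ⟨a, ha⟩ + ⟨b, hb⟩ from rfl, map_add,
      map_add, iha ha, ihb hb]
  | inv a ha iha =>
    rw [← abClosure_eq_adjoin v] at ha
    rw [show (⟨a⁻¹, hy⟩ : abClosure (v.adicCompletion K)) = (⟨a, ha⟩)⁻¹ from rfl, map_inv₀,
      map_inv₀, iha ha]
  | mul a b ha hb iha ihb =>
    rw [← abClosure_eq_adjoin v] at ha hb
    rw [show (⟨a * b, hy⟩ : abClosure (v.adicCompletion K)) = ⟨a, ha⟩ * ⟨b, hb⟩ from rfl, map_mul,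
      map_mul, iha ha, ihb hb]

variable (v)

/-- The automorphisms compatible with the Artin map on a set. -/
def compatSet (z : (v.adicCompletion K)ˣ) (L : IntermediateField K (maxAbelian K)) :
    Set (abClosure (v.adicCompletion K) ≃ₐ[v.adicCompletion K] abClosure (v.adicCompletion K)) :=
  {τ | ∀ x ∈ L, τ ⟨globalEmb v x, globalEmb_mem v x⟩ =
    ⟨globalEmb v (artinAbel (maxAbelian K) (single v z) x), globalEmb_mem v _⟩}

theorem compatSet_nonempty (z : (v.adicCompletion K)ˣ) (L : IntermediateField K (maxAbelian K))
    [FiniteDimensional K L] : (compatSet v z L).Nonempty := by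
  haveI := charZero_completion v
  haveI : NumberField L := NumberField.of_module_finite K L
  obtain ⟨E, hf, hab, hgen, -, hτ⟩ := exists_local_layer v L ((globalEmb v).comp L.val)
  obtain ⟨τ₀, hτ₀⟩ := hτ z
  have hle := le_abClosure hf hab
  let r := IntermediateField.restrictAlgEquiv hle
  haveI : IsGalois (v.adicCompletion K) (IntermediateField.restrict hle) := IsGalois.of_algEquiv r
  obtain ⟨τ, hτr⟩ := AlgEquiv.restrictNormalHom_surjective
    (abClosure (v.adicCompletion K)) (r.autCongr τ₀)
  refine ⟨τ, fun x hx => ?_⟩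
  have hxE : globalEmb v x ∈ E := hgen ▸ IntermediateField.subset_adjoin _ _ ⟨⟨x, hx⟩, rfl⟩
  have h1 : τ ⟨globalEmb v x, globalEmb_mem v x⟩ =
      ((r.autCongr τ₀) (r ⟨globalEmb v x, hxE⟩) : abClosure (v.adicCompletion K)) := by
    rw [← hτr]
    exact (AlgEquiv.restrictNormal_commutes τ (IntermediateField.restrict hle)
      (r ⟨globalEmb v x, hxE⟩)).symm
  rw [h1, AlgEquiv.autCongr_apply, AlgEquiv.trans_apply, AlgEquiv.trans_apply,
    AlgEquiv.symm_apply_apply]
  refine Subtype.ext ?_
  show ((τ₀ ⟨globalEmb v x, hxE⟩ : E) : AlgebraicClosure (v.adicCompletion K)) = _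
  refine (hτ₀ ⟨x, hx⟩ hxE).trans (congrArg (globalEmb v) ?_)
  show ((localArtin L v z ⟨x, hx⟩ : L) : maxAbelian K) = _
  rw [← artinIdele_single, ← artinAbel_restrict L]
  exact AlgEquiv.restrictNormal_commutes _ L ⟨x, hx⟩

theorem isClosed_compatSet (z : (v.adicCompletion K)ˣ)
    (L : IntermediateField K (maxAbelian K)) : IsClosed (compatSet v z L) := by
  haveI := charZero_completion v
  rw [show compatSet v z L = ⋂ x : L, {τ | τ ⟨globalEmb v x, globalEmb_mem v x⟩ =
      ⟨globalEmb v (artinAbel (maxAbelian K) (single v z) x), globalEmb_mem v _⟩} by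
    ext τ
    simp [compatSet]]
  refine isClosed_iInter fun x => ?_
  rcases Set.eq_empty_or_nonempty {τ : abClosure (v.adicCompletion K) ≃ₐ[v.adicCompletion K]
    abClosure (v.adicCompletion K) | τ ⟨globalEmb v x, globalEmb_mem v x⟩ =
      ⟨globalEmb v (artinAbel (maxAbelian K) (single v z) x), globalEmb_mem v _⟩} with he | ⟨τ₀, hτ₀⟩
  · rw [he]
    exact isClosed_empty
  set y : abClosure (v.adicCompletion K) := ⟨globalEmb v x, globalEmb_mem v x⟩
  convert! (Subgroup.isClosed_of_isOpen _ (stabilizer_isOpen_of_isIntegral y)).preimage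
    (continuous_const_mul τ₀⁻¹) using 1
  ext τ
  show τ y = _ ↔ τ₀.symm (τ y) = y
  rw [AlgEquiv.symm_apply_eq, show τ₀ y = _ from hτ₀]

theorem exists_autCompat (z : (v.adicCompletion K)ˣ) :
    ∃ τ : abClosure (v.adicCompletion K) ≃ₐ[v.adicCompletion K] abClosure (v.adicCompletion K),
      ∀ x, τ ⟨globalEmb v x, globalEmb_mem v x⟩ =
        ⟨globalEmb v (artinAbel (maxAbelian K) (single v z) x), globalEmb_mem v _⟩ := by
  haveI := charZero_completion v
  let ι := {L : IntermediateField K (maxAbelian K) // FiniteDimensional K L}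
  haveI : Nonempty ι := ⟨⟨⊥, inferInstance⟩⟩
  obtain ⟨τ, hτ⟩ := IsCompact.nonempty_iInter_of_directed_nonempty_isCompact_isClosed
    (fun L : ι => compatSet v z L.1)
    (fun A B => ⟨⟨A.1 ⊔ B.1, by haveI := A.2; haveI := B.2; infer_instance⟩,
      fun τ hτ x hx => hτ x ((le_sup_left : A.1 ≤ A.1 ⊔ B.1) hx),
      fun τ hτ x hx => hτ x ((le_sup_right : B.1 ≤ A.1 ⊔ B.1) hx)⟩)
    (fun L => by haveI := L.2; exact compatSet_nonempty v z L.1)
    (fun L => (isClosed_compatSet v z L.1).isCompact) (fun L => isClosed_compatSet v z L.1)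
  exact ⟨τ, fun x => Set.mem_iInter.1 hτ
    ⟨_, finite_adjoin ({x} : Set (maxAbelian K)) (Set.finite_singleton x)⟩ x
    (IntermediateField.subset_adjoin K _ rfl)⟩

/-- **The local reciprocity map into the maximal abelian Galois group.** -/
def localAbArtin : (v.adicCompletion K)ˣ →*
    (abClosure (v.adicCompletion K) ≃ₐ[v.adicCompletion K] abClosure (v.adicCompletion K)) :=
  MonoidHom.mk' (fun z => (exists_autCompat v z).choose) fun z z' => by
    refine autEq_of_globalEmb fun x => ?_
    rw [(exists_autCompat v (z * z')).choose_spec x, AlgEquiv.mul_apply,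
      (exists_autCompat v z').choose_spec x, (exists_autCompat v z).choose_spec]
    refine Subtype.ext (congrArg (globalEmb v) ?_)
    rw [map_mul, map_mul]
    rfl

theorem localAbArtin_apply (z : (v.adicCompletion K)ˣ) (x : maxAbelian K) :
    localAbArtin v z ⟨globalEmb v x, globalEmb_mem v x⟩ =
      ⟨globalEmb v (artinAbel (maxAbelian K) (single v z) x), globalEmb_mem v _⟩ :=
  (exists_autCompat v z).choose_spec x

/-- **The finite layers have the norm groups as kernels.** -/
theorem localAbArtin_mem_fixing_iff
    (E : IntermediateField (v.adicCompletion K) (abClosure (v.adicCompletion K)))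
    [FiniteDimensional (v.adicCompletion K) E] (z : (v.adicCompletion K)ˣ) :
    localAbArtin v z ∈ E.fixingSubgroup ↔ z ∈ normGroup (v.adicCompletion K) E := by
  obtain ⟨L, hfin, hL⟩ := exists_global_layer v E
  haveI : NumberField L := NumberField.of_module_finite K L
  obtain ⟨E₁, hf, hab, hgen, hN, -⟩ := exists_local_layer v L ((globalEmb v).comp L.val)
  have hrange : Set.range ((globalEmb v).comp L.val) = globalEmb v '' L := by
    rw [AlgHom.coe_comp, Set.range_comp, IntermediateField.coe_val, Subtype.range_coe_subtype]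
    rfl
  rw [hrange, ← hL] at hgen
  subst hgen
  rw [normGroup_congr (IntermediateField.liftAlgEquiv E), hN, MonoidHom.mem_ker,
    IntermediateField.mem_fixingSubgroup_iff]
  constructor
  · intro h
    refine AlgEquiv.ext fun x => Subtype.ext ((globalEmb v).injective ?_)
    have hx : (⟨globalEmb v x, globalEmb_mem v x⟩ : abClosure (v.adicCompletion K)) ∈ E := by
      rw [← IntermediateField.mem_lift, hL]
      exact IntermediateField.subset_adjoin _ _ ⟨x, x.2, rfl⟩
    have h' := h _ hx
    rw [localAbArtin_apply] at h'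
    refine Eq.trans ?_ (congrArg Subtype.val h')
    show globalEmb v ((localArtin L v z x : L) : maxAbelian K) = globalEmb v _
    rw [← artinIdele_single, ← artinAbel_restrict L]
    exact congrArg (globalEmb v) (AlgEquiv.restrictNormal_commutes _ L x)
  · intro h y hy
    obtain ⟨y, hy'⟩ := y
    have hy₁ : y ∈ IntermediateField.adjoin (v.adicCompletion K) (globalEmb v '' L) := by
      rw [← hL]
      exact (IntermediateField.mem_lift (⟨y, hy'⟩ : abClosure (v.adicCompletion K))).2 hy
    suffices hsuff : ∀ w ∈ IntermediateField.adjoin (v.adicCompletion K) (globalEmb v '' L),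
        ∀ hw : w ∈ abClosure (v.adicCompletion K), localAbArtin v z ⟨w, hw⟩ = ⟨w, hw⟩ from
      hsuff y hy₁ hy'
    intro w hw
    have hsub : IntermediateField.adjoin (v.adicCompletion K) (globalEmb v '' L) ≤
        IntermediateField.lift (IntermediateField.fixedField
          (Subgroup.zpowers (localAbArtin v z))) := by
      refine IntermediateField.adjoin_le_iff.2 ?_
      rintro _ ⟨x, hx, rfl⟩
      refine (IntermediateField.mem_lift
        (⟨globalEmb v x, globalEmb_mem v x⟩ : abClosure (v.adicCompletion K))).2 ?_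
      rw [IntermediateField.mem_fixedField_iff]
      intro g hg
      obtain ⟨n, rfl⟩ := Subgroup.mem_zpowers_iff.1 hg
      have hst : localAbArtin v z ∈ MulAction.stabilizer
          (abClosure (v.adicCompletion K) ≃ₐ[v.adicCompletion K] abClosure (v.adicCompletion K))
          (⟨globalEmb v x, globalEmb_mem v x⟩ : abClosure (v.adicCompletion K)) :=
        MulAction.mem_stabilizer_iff.2 ?_
      exact MulAction.mem_stabilizer_iff.1 (zpow_mem hst n)
      show localAbArtin v z _ = _
      rw [localAbArtin_apply]
      refine Subtype.ext (congrArg (globalEmb v) ?_)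
      have h1 := AlgEquiv.restrictNormal_commutes (artinAbel (maxAbelian K) (single v z)) L ⟨x, hx⟩
      refine h1.symm.trans ?_
      show ((AlgEquiv.restrictNormalHom L (artinAbel (maxAbelian K) (single v z)) ⟨x, hx⟩ : L) :
        maxAbelian K) = x
      rw [artinAbel_restrict L, artinIdele_single, h]
      rfl
    intro hw'
    exact (IntermediateField.mem_fixedField_iff _ _).1
      ((IntermediateField.mem_lift (⟨w, hw'⟩ : abClosure (v.adicCompletion K))).1 (hsub hw)) _
      (Subgroup.mem_zpowers _)

/-- **Onto every finite layer.** -/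
theorem restrict_localAbArtin_surjective
    (E : IntermediateField (v.adicCompletion K) (abClosure (v.adicCompletion K)))
    [FiniteDimensional (v.adicCompletion K) E] :
    Function.Surjective ((AlgEquiv.restrictNormalHom E).comp (localAbArtin v)) := by
  set r := (AlgEquiv.restrictNormalHom E).comp (localAbArtin v)
  have hker : r.ker = normGroup (v.adicCompletion K) E := by
    ext z
    rw [← localAbArtin_mem_fixing_iff v E z, ← IntermediateField.restrictNormalHom_ker]
    rfl
  rw [← MonoidHom.range_eq_top]
  refine Subgroup.eq_top_of_card_eq _ ?_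
  rw [← Subgroup.index_ker, hker, index_normGroup_abelian v E, IsGalois.card_aut_eq_finrank]

/-- **Continuous.** -/
theorem continuous_localAbArtin : Continuous (localAbArtin v) := by
  refine continuous_of_continuousAt_one _ ?_
  rw [ContinuousAt, map_one, Filter.tendsto_def]
  intro s hs
  obtain ⟨E, hE, hsub⟩ := (krullTopology_mem_nhds_one_iff _ _ s).1 hs
  exact Filter.mem_of_superset ((isOpen_normGroup v E).mem_nhds (one_mem _))
    fun z hz => hsub ((localAbArtin_mem_fixing_iff v E z).2 hz)

/-- **The image is dense.** -/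
theorem denseRange_localAbArtin : DenseRange (localAbArtin v) := by
  intro σ
  rw [mem_closure_iff_nhds]
  intro s hs
  have h1 : (fun τ => σ * τ) ⁻¹' s ∈
      𝓝 (1 : abClosure (v.adicCompletion K) ≃ₐ[v.adicCompletion K] abClosure (v.adicCompletion K)) :=
    (continuous_const_mul σ).continuousAt.preimage_mem_nhds (by rw [mul_one]; exact hs)
  obtain ⟨E, hE, hsub⟩ := (krullTopology_mem_nhds_one_iff _ _ _).1 h1
  haveI : IsAbelianGalois (v.adicCompletion K) E :=
    IsAbelianGalois.tower_bot (v.adicCompletion K) E (abClosure (v.adicCompletion K))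
  haveI : IsGalois (v.adicCompletion K) E := IsAbelianGalois.toIsGalois
  haveI : Normal (v.adicCompletion K) E := IsGalois.to_normal
  obtain ⟨z, hz⟩ := restrict_localAbArtin_surjective v E (AlgEquiv.restrictNormalHom E σ)
  refine ⟨localAbArtin v z, ?_, z, rfl⟩
  have h2 : σ⁻¹ * localAbArtin v z ∈ E.fixingSubgroup := by
    rw [← IntermediateField.restrictNormalHom_ker, MonoidHom.mem_ker, map_mul, map_inv]
    rw [inv_mul_eq_one]
    exact hz.symm
  have h3 := hsub h2
  simpa using h3

/-- **The open subgroups of finite index are the kernels of the finite layers.** -/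
theorem exists_unique_layer {H : Subgroup (v.adicCompletion K)ˣ}
    (hH : IsOpen (H : Set (v.adicCompletion K)ˣ)) (hidx : H.index ≠ 0) :
    ∃! E : IntermediateField (v.adicCompletion K) (abClosure (v.adicCompletion K)),
      FiniteDimensional (v.adicCompletion K) E ∧ normGroup (v.adicCompletion K) E = H := by
  haveI := charZero_completion v
  obtain ⟨M, i1, i2, i3, i4, i5, hM⟩ := exists_ker_localArtin_eq v hH hidx
  obtain ⟨g⟩ := exists_algHom_maxAbelian (K := K) M
  obtain ⟨E₁, hf, hab, -, hN, -⟩ := exists_local_layer v M ((globalEmb v).comp g)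
  have hle := le_abClosure hf hab
  let r := IntermediateField.restrictAlgEquiv hle
  refine ⟨IntermediateField.restrict hle, ⟨r.toLinearEquiv.finiteDimensional,
    by rw [← normGroup_congr r, hN, hM]⟩, ?_⟩
  rintro A ⟨hA, hAH⟩
  set B := IntermediateField.restrict hle with hBdef
  haveI : FiniteDimensional (v.adicCompletion K) B := r.toLinearEquiv.finiteDimensional
  have hBH : normGroup (v.adicCompletion K) B = H := by rw [← normGroup_congr r, hN, hM]
  set S := A ⊔ B
  have hAS : A ≤ S := le_sup_left
  have hBS : B ≤ S := le_sup_right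
  haveI : FiniteDimensional (v.adicCompletion K) S := IntermediateField.finiteDimensional_sup A B
  have h := (abelian_facts v S).2.2 (show normGroup (v.adicCompletion K)
    (IntermediateField.restrict hAS) = normGroup (v.adicCompletion K)
      (IntermediateField.restrict hBS) by
    rw [← normGroup_congr (IntermediateField.restrictAlgEquiv hAS),
      ← normGroup_congr (IntermediateField.restrictAlgEquiv hBS), hAH, hBH])
  rw [← IntermediateField.lift_restrict hAS, ← IntermediateField.lift_restrict hBS, h]

/-- **Injective.** -/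
theorem injective_localAbArtin : Function.Injective (localAbArtin v) := by
  rw [injective_iff_map_eq_one]
  intro z hz
  by_contra hne
  obtain ⟨H, hHopen, hidx, hzH⟩ : ∃ H : Subgroup (v.adicCompletion K)ˣ,
      IsOpen (H : Set (v.adicCompletion K)ˣ) ∧ H.index ≠ 0 ∧ z ∉ H := by
    set π := localEmb v (unif v)
    set i₀ := log (Valued.v (z : v.adicCompletion K))
    obtain ⟨k, hk⟩ : ∃ k, z ∉ nearLocal v k := by
      by_contra! hall
      refine hne (Units.ext ?_)
      rw [Units.val_one]
      exact eq_of_forall_near v fun k => (((mem_nearLocal v).1 (hall k))).trans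
        (exp_le_exp.2 (by omega))
    refine ⟨nearLocal v k ⊔ Subgroup.zpowers (π ^ (i₀.natAbs + 1)),
      Subgroup.isOpen_mono (H₁ := nearLocal v k) le_sup_left
        (show IsOpen (Units.val ⁻¹' {z : v.adicCompletion K |
          Valued.v (z - 1) ≤ exp (-((k + 1 : ℕ) : ℤ))}) from
          (isOpen_near v _).preimage Units.continuous_val),
      index_ne_zero_of_unif_pow_mem (n := i₀.natAbs + 1) (Subgroup.isOpen_mono
        (H₁ := nearLocal v k) le_sup_left
        (show IsOpen (Units.val ⁻¹' {z : v.adicCompletion K |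
          Valued.v (z - 1) ≤ exp (-((k + 1 : ℕ) : ℤ))}) from
          (isOpen_near v _).preimage Units.continuous_val)) (Nat.succ_pos _)
        (Subgroup.mem_sup_right (Subgroup.mem_zpowers _)), fun hmem => hk ?_⟩
    obtain ⟨u, hu, w, hw, huw⟩ := Subgroup.mem_sup.1 hmem
    obtain ⟨n, rfl⟩ := Subgroup.mem_zpowers_iff.1 hw
    have hv : Valued.v (z : v.adicCompletion K) = exp (-(((i₀.natAbs + 1 : ℕ) : ℤ) * n)) := by
      rw [← huw, Units.val_mul, map_mul, valued_eq_one_of_nearLocal v hu, one_mul,
        Units.val_zpow_eq_zpow_val, map_zpow₀, Units.val_pow_eq_pow_val, map_pow,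
        valued_localEmb_unif, ← exp_nsmul, ← exp_zsmul]
      congr 1
      simp only [nsmul_eq_mul, smul_eq_mul]
      ring
    have hn : n = 0 := by
      have hi : i₀ = -(((i₀.natAbs + 1 : ℕ) : ℤ) * n) := by
        show log _ = _
        rw [hv, log_exp]
      by_contra hn0
      have h1 := congrArg Int.natAbs hi
      rw [Int.natAbs_neg, Int.natAbs_mul, Int.natAbs_natCast] at h1
      have h2 : i₀.natAbs + 1 ≤ (i₀.natAbs + 1) * n.natAbs :=
        Nat.le_mul_of_pos_right _ (Int.natAbs_pos.2 hn0)
      omega
    rw [← huw, hn, zpow_zero, mul_one]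
    exact hu
  obtain ⟨E, ⟨hE, hEH⟩, -⟩ := exists_unique_layer v hHopen hidx
  refine hzH (hEH ▸ (localAbArtin_mem_fixing_iff v E z).1 ?_)
  rw [hz]
  exact one_mem _

section

/- The completions keep their own structure of algebras over `ℚ`. -/
attribute [-instance] DivisionRing.toRatAlgebra

/-- **Over `ℚ` the roots of unity generate it.** -/
theorem abClosure_rat (v : HeightOneSpectrum (𝓞 ℚ)) :
    abClosure (v.adicCompletion ℚ) = IntermediateField.adjoin (v.adicCompletion ℚ)
      {x : AlgebraicClosure (v.adicCompletion ℚ) | ∃ n : ℕ, 0 < n ∧ x ^ n = 1} := by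
  haveI := charZero_completion v
  refine le_antisymm (iSup_le fun E => ?_) (IntermediateField.adjoin_le_iff.2 ?_)
  · haveI := E.2.1
    haveI := E.2.2
    obtain ⟨N, hN, ⟨φ⟩⟩ := exists_algHom_cyclotomic_completion v E.1
    haveI : NeZero N := ⟨hN.ne'⟩
    haveI := CyclotomicField.isCyclotomicExtension N (v.adicCompletion ℚ)
    haveI : FiniteDimensional (v.adicCompletion ℚ) (CyclotomicField N (v.adicCompletion ℚ)) :=
      IsCyclotomicExtension.finiteDimensional {N} _ _
    let G : CyclotomicField N (v.adicCompletion ℚ) →ₐ[v.adicCompletion ℚ]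
      AlgebraicClosure (v.adicCompletion ℚ) := IsAlgClosed.lift
    intro y hy
    rw [← AlgHom.fieldRange_of_normal (G.comp φ)] at hy
    obtain ⟨t, rfl⟩ := AlgHom.mem_fieldRange.1 hy
    obtain ⟨ζ, hζ⟩ := (CyclotomicField.isCyclotomicExtension N
      (v.adicCompletion ℚ)).exists_isPrimitiveRoot (Set.mem_singleton N) hN.ne'
    have ht : φ t ∈ Algebra.adjoin (v.adicCompletion ℚ) {ζ} := by
      rw [IsCyclotomicExtension.adjoin_primitive_root_eq_top hζ]
      exact Algebra.mem_top
    have h := Algebra.adjoin_le (S := ((IntermediateField.adjoin (v.adicCompletion ℚ)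
      {x : AlgebraicClosure (v.adicCompletion ℚ) | ∃ n : ℕ, 0 < n ∧ x ^ n = 1}).toSubalgebra.comap
        G)) (Set.singleton_subset_iff.2 (IntermediateField.subset_adjoin _ _
          ⟨N, hN, by rw [← map_pow, hζ.pow_eq_one, map_one]⟩)) ht
    exact h
  · rintro x ⟨n, hn, hx⟩
    haveI : NeZero n := ⟨hn.ne'⟩
    obtain ⟨ζ, hζ⟩ :=
      HasEnoughRootsOfUnity.exists_primitiveRoot (AlgebraicClosure (v.adicCompletion ℚ)) n
    obtain ⟨i, -, rfl⟩ := hζ.eq_pow_of_pow_eq_one hx
    haveI := hζ.intermediateField_adjoin_isCyclotomicExtension (v.adicCompletion ℚ)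
    have hab : IsAbelianGalois (v.adicCompletion ℚ)
        (IntermediateField.adjoin (v.adicCompletion ℚ) {ζ}) :=
      IsCyclotomicExtension.isAbelianGalois {n} _ _
    exact pow_mem (le_abClosure (IntermediateField.adjoin.finiteDimensional
      (Algebra.IsIntegral.isIntegral ζ)) hab (IntermediateField.mem_adjoin_simple_self _ ζ)) i

end

end FA.LocalCFT

end
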