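import Fermat.Agent.LocalCFT.NormGroup

/-!
# Norm groups of the fields inside a completion

For an abelian decomposition group the norm group of an intermediate field is the inverse image of
its Galois group under the local map, so intermediate fields with the same norm group are equal.
-/

set_option autoImplicit false
set_option linter.unusedSectionVars false
set_option linter.style.haveILetI false

noncomputable section

open NumberField IsDedekindDomain IntermediateField WithZero IsMulCommutative
open FA.ArtinRec FA.Ideles FA.NormResidue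
open scoped Pointwise Classical

namespace FA.LocalCFT

universe u

section General

variable (k E : Type*) [Field k] [Field E] [Algebra k E]

/-- The norms of the nonzero elements. -/
def normGroup : Subgroup kˣ := (Units.map (Algebra.norm k (S := E))).range

variable {k E}

theorem normGroup_congr {E' : Type*} [Field E'] [Algebra k E'] (e : E ≃ₐ[k] E') :
    normGroup k E = normGroup k E' := by
  ext z
  simp only [normGroup, MonoidHom.mem_range]
  constructor
  · rintro ⟨y, rfl⟩
    exact ⟨Units.map (e : E →* E') y, Units.ext (Algebra.norm_eq_of_algEquiv e _)⟩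
  · rintro ⟨y, rfl⟩
    exact ⟨Units.map (e.symm : E' →* E) y, Units.ext (Algebra.norm_eq_of_algEquiv e.symm _)⟩

/-- Norm groups follow an isomorphism of extensions. -/
theorem normGroup_map {k' E' : Type*} [Field k'] [Field E'] [Algebra k' E'] (σ : k ≃+* k')
    (τ : E ≃+* E') (h : ∀ t, algebraMap k' E' (σ t) = τ (algebraMap k E t)) :
    (normGroup k E).map (Units.mapEquiv σ.toMulEquiv).toMonoidHom = normGroup k' E' := by
  have hn : ∀ x, σ (Algebra.norm k x) = Algebra.norm k' (τ x) := fun x => by
    rw [Algebra.norm_eq_of_equiv_equiv σ τ (RingHom.ext h) x, RingEquiv.apply_symm_apply]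
  ext z
  simp only [normGroup, Subgroup.mem_map, MonoidHom.mem_range]
  constructor
  · rintro ⟨_, ⟨y, rfl⟩, rfl⟩
    exact ⟨Units.map (τ : E →* E') y, Units.ext (hn _).symm⟩
  · rintro ⟨y, rfl⟩
    refine ⟨_, ⟨Units.map (τ.symm : E' →* E) y, rfl⟩, Units.ext ?_⟩
    show σ (Algebra.norm k (τ.symm (y : E'))) = Algebra.norm k' (y : E')
    rw [hn, RingEquiv.apply_symm_apply]

end General

/-- **Norm groups are open.** -/
theorem isOpen_normGroup {K : Type u} [Field K] [NumberField K] (v : HeightOneSpectrum (𝓞 K))
    (E : Type*) [Field E] [Algebra (v.adicCompletion K) E]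
    [FiniteDimensional (v.adicCompletion K) E] :
    IsOpen (normGroup (v.adicCompletion K) E : Set (v.adicCompletion K)ˣ) := by
  obtain ⟨k, hk⟩ := exists_nearLocal_pow v (Module.finrank_pos (R := v.adicCompletion K) (M := E)).ne'
  refine Subgroup.isOpen_mono (H₁ := nearLocal v k) (fun z hz => ?_)
    (show IsOpen (Units.val ⁻¹' {z : v.adicCompletion K |
      Valued.v (z - 1) ≤ exp (-((k + 1 : ℕ) : ℤ))}) from
      (isOpen_near v _).preimage Units.continuous_val)
  obtain ⟨s, rfl⟩ := hk z hz
  exact ⟨Units.map (algebraMap (v.adicCompletion K) E : v.adicCompletion K →* E) s,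
    Units.ext ((Algebra.norm_algebraMap _).trans (Units.val_pow_eq_pow_val _ _).symm)⟩

variable {K : Type u} [Field K] [NumberField K] {M : Type*} [Field M] [NumberField M] [Algebra K M]
  [IsGalois K M] (Q : HeightOneSpectrum (𝓞 M))

theorem decAlg_apply (d : MulAction.stabilizer (M ≃ₐ[K] M) Q.asIdeal) (z : Q.adicCompletion M) :
    IsGaloisGroup.mulEquivAlgEquiv (MulAction.stabilizer (M ≃ₐ[K] M) Q.asIdeal)
      ((belowP K Q).adicCompletion K) (Q.adicCompletion M) d z = decHom Q d z := rfl

/-- An automorphism fixing a subfield fixes its completion. -/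
theorem decHom_belowHom_of_fixed (M1 : IntermediateField K M) [IsGalois M1 M]
    (d : MulAction.stabilizer (M ≃ₐ[K] M) Q.asIdeal) (hd : ∀ x : M1, (d : M ≃ₐ[K] M) x = x)
    (t : (belowP M1 Q).adicCompletion M1) :
    decHom Q d (belowHom Q t) = belowHom (K := M1) Q t :=
  RingHom.congr_fun (ext_of_algebraMap (belowP M1 Q) Q (g := (decHom Q d).comp (belowHom Q))
    (h := belowHom Q) ((continuous_decHom Q d).comp (continuous_belowHom Q))
    (continuous_belowHom Q) fun x => by
      rw [RingHom.comp_apply, belowHom_algebraMap, decHom_algebraMap]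
      exact congrArg _ (hd x)) t

/-- The completions in a tower. -/
theorem belowHom_tower (M1 : IntermediateField K M) [IsGalois K M1] [IsGalois M1 M]
    (t : (belowP K (belowP M1 Q)).adicCompletion K) :
    belowHom (K := M1) Q (belowHom (K := K) (belowP M1 Q) t) = belowHom (K := K) Q t :=
  RingHom.congr_fun (ext_of_algebraMap (belowP K (belowP M1 Q)) Q
    (g := (belowHom (K := M1) Q).comp (belowHom (K := K) (belowP M1 Q))) (h := belowHom (K := K) Q)
    ((continuous_belowHom (K := M1) Q).comp (continuous_belowHom (K := K) (belowP M1 Q)))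
    (continuous_belowHom (K := K) Q) fun x => by
      rw [RingHom.comp_apply, belowHom_algebraMap, belowHom_algebraMap]
      exact (belowHom_algebraMap (K := K) Q x).symm) t

/-- Fixed by the automorphisms of a subfield that fix the prime. -/
theorem mem_range_subfield (M1 : IntermediateField K M) [IsGalois M1 M] {z : Q.adicCompletion M}
    (hz : ∀ d : MulAction.stabilizer (M ≃ₐ[K] M) Q.asIdeal,
      (∀ x : M1, (d : M ≃ₐ[K] M) x = x) → decHom Q d z = z) :
    z ∈ Set.range (belowHom (K := M1) Q) :=
  mem_range_of_fixed Q fun τ => hz ⟨(τ : M ≃ₐ[M1] M).restrictScalars K, τ.2⟩ fun x =>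
    (τ : M ≃ₐ[M1] M).commutes x

section Abelian

variable [IsMulCommutative (M ≃ₐ[K] M)]

/-- **The norm group of an intermediate field.** -/
theorem normGroup_intermediate
    (A : IntermediateField ((belowP K Q).adicCompletion K) (Q.adicCompletion M)) :
    normGroup ((belowP K Q).adicCompletion K) A = A.fixingSubgroup.comap (galArtin Q) := by
  set e := IsGaloisGroup.mulEquivAlgEquiv (MulAction.stabilizer (M ≃ₐ[K] M) Q.asIdeal)
    ((belowP K Q).adicCompletion K) (Q.adicCompletion M) with he
  set H := (A.fixingSubgroup.comap e.toMonoidHom).map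
    (MulAction.stabilizer (M ≃ₐ[K] M) Q.asIdeal).subtype with hH
  haveI := isGalois_fixedField H
  set M1 := IntermediateField.fixedField H with hM1
  haveI := isMulCommutative_intermediate M1
  set Q1 := belowP M1 Q
  letI : Algebra ((belowP K Q).adicCompletion K) (Q1.adicCompletion M1) := belowAlgebra (K := K) Q1
  let ψ : Q1.adicCompletion M1 →ₐ[(belowP K Q).adicCompletion K] Q.adicCompletion M :=
    { belowHom (K := M1) Q with commutes' := belowHom_tower Q M1 }
  have hrange : ψ.fieldRange = A := by
    refine SetLike.ext fun z => ⟨?_, fun hz => ?_⟩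
    · rintro ⟨t, rfl⟩
      rw [← IsGalois.fixedField_fixingSubgroup A, IntermediateField.mem_fixedField_iff]
      intro σ hσ
      obtain ⟨d, rfl⟩ := e.surjective σ
      refine decHom_belowHom_of_fixed Q M1 d (fun x => ?_) t
      exact (IntermediateField.mem_fixedField_iff _ _).1 x.2 _ ⟨d, hσ, rfl⟩
    · refine AlgHom.mem_fieldRange.2 (mem_range_subfield Q M1 fun d hd => ?_)
      have h : (d : M ≃ₐ[K] M) ∈ H := by
        rw [← IntermediateField.fixingSubgroup_fixedField H,
          IntermediateField.mem_fixingSubgroup_iff]
        exact fun x hx => hd ⟨x, hx⟩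
      obtain ⟨d', hd', hdd⟩ := h
      rw [← Subtype.ext hdd]
      exact (IntermediateField.mem_fixingSubgroup_iff _ _).1 hd' z hz
  rw [← normGroup_congr ((AlgEquiv.ofInjectiveField ψ).trans (IntermediateField.equivOfEq hrange))]
  ext z
  rw [show normGroup ((belowP K Q).adicCompletion K) (Q1.adicCompletion M1) =
    (normC (K := K) Q1).range from rfl, range_normC]
  show localArtin M1 (belowP K Q) z = 1 ↔ _
  have hres : localArtin M1 (belowP K Q) z =
      AlgEquiv.restrictNormalHom M1 (localArtin M (belowP K Q) z) := by
    rw [← artinIdele_single, ← artinIdele_single, restrict_artinIdele]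
  rw [hres, ← MonoidHom.mem_ker, ker_restrict_fixedField H, Subgroup.mem_comap]
  constructor
  · rintro ⟨d, hd, hdz⟩
    rw [show d = decArtin Q z from Subtype.ext hdz] at hd
    exact hd
  · exact fun h => ⟨decArtin Q z, h, rfl⟩

/-- **Intermediate fields with the same norm group are equal.** -/
theorem normGroup_injective_of_abelian :
    Function.Injective fun A : IntermediateField ((belowP K Q).adicCompletion K)
      (Q.adicCompletion M) => normGroup ((belowP K Q).adicCompletion K) A := fun A B h => by
  simp only [normGroup_intermediate] at h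
  rw [← IsGalois.fixedField_fixingSubgroup A, ← IsGalois.fixedField_fixingSubgroup B,
    Subgroup.comap_injective (galArtin_surjective Q) h]

end Abelian

section AbelianLocal

variable (hD : ∀ a ∈ MulAction.stabilizer (M ≃ₐ[K] M) Q.asIdeal,
  ∀ b ∈ MulAction.stabilizer (M ≃ₐ[K] M) Q.asIdeal, a * b = b * a)

include hD

/-- For an abelian decomposition group the completions below are those over its fixed field. -/
theorem exists_decompField :
    ∃ (F : IntermediateField K M) (_ : IsGalois F M) (_ : IsMulCommutative (M ≃ₐ[F] M))
      (σ : (belowP K Q).adicCompletion K ≃+* (belowP F Q).adicCompletion F),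
      ∀ t, belowHom (K := F) Q (σ t) = belowHom (K := K) Q t := by
  set F := IntermediateField.fixedField (MulAction.stabilizer (M ≃ₐ[K] M) Q.asIdeal) with hF
  have hmem : ∀ τ : M ≃ₐ[F] M,
      τ.restrictScalars K ∈ MulAction.stabilizer (M ≃ₐ[K] M) Q.asIdeal := fun τ => by
    rw [← IntermediateField.fixingSubgroup_fixedField (MulAction.stabilizer (M ≃ₐ[K] M) Q.asIdeal),
      IntermediateField.mem_fixingSubgroup_iff]
    exact fun x hx => τ.commutes ⟨x, hx⟩
  haveI : IsMulCommutative (M ≃ₐ[F] M) :=
    ⟨⟨fun a b => AlgEquiv.restrictScalars_injective K (hD _ (hmem a) _ (hmem b))⟩⟩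
  have hfix : ∀ (z : (belowP F Q).adicCompletion F)
      (d : MulAction.stabilizer (M ≃ₐ[K] M) Q.asIdeal),
      decHom Q d (belowHom Q z) = belowHom (K := F) Q z := fun z d =>
    decHom_belowHom_of_fixed Q F d
      (fun x => (IntermediateField.mem_fixedField_iff _ _).1 x.2 _ d.2) z
  let σ0 : (belowP K Q).adicCompletion K →+* (belowP F Q).adicCompletion F :=
    extHom (belowP K (belowP F Q)) (belowP F Q) (algebraMap K F)
      (e := (belowP K (belowP F Q)).asIdeal.ramificationIdx' (belowP F Q).asIdeal)
      (eIdx_pos (K := K) (belowP F Q)) fun x => by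
        haveI : (belowP F Q).asIdeal.LiesOver (belowP K (belowP F Q)).asIdeal := ⟨rfl⟩
        exact (HeightOneSpectrum.valuation_liesOver F (belowP K (belowP F Q)) (belowP F Q) x).symm
  have hσ0 : ∀ t, belowHom (K := F) Q (σ0 t) = belowHom (K := K) Q t := fun t =>
    RingHom.congr_fun (ext_of_algebraMap (belowP K (belowP F Q)) Q
      (g := (belowHom (K := F) Q).comp σ0) (h := belowHom (K := K) Q)
      ((continuous_belowHom (K := F) Q).comp (continuous_extHom _ _ _ _ _))
      (continuous_belowHom (K := K) Q) fun x => by
        rw [RingHom.comp_apply, extHom_algebraMap, belowHom_algebraMap]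
        exact (belowHom_algebraMap (K := K) Q x).symm) t
  refine ⟨F, inferInstance, inferInstance, RingEquiv.ofBijective σ0 ⟨σ0.injective, fun z => ?_⟩, hσ0⟩
  obtain ⟨t, ht⟩ := mem_range_of_fixed (K := K) Q fun d => hfix z d
  exact ⟨t, (belowHom (K := F) Q).injective ((hσ0 t).trans ht)⟩

/-- **The norm groups, for an abelian decomposition group.** -/
theorem normGroup_facts :
    (normGroup ((belowP K Q).adicCompletion K) (Q.adicCompletion M)).index ≠ 0 ∧
    Nonempty (((belowP K Q).adicCompletion K)ˣ ⧸
        normGroup ((belowP K Q).adicCompletion K) (Q.adicCompletion M) ≃*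
      (Q.adicCompletion M ≃ₐ[(belowP K Q).adicCompletion K] Q.adicCompletion M)) ∧
    Function.Injective fun A : IntermediateField ((belowP K Q).adicCompletion K)
      (Q.adicCompletion M) => normGroup ((belowP K Q).adicCompletion K) A := by
  obtain ⟨F, i1, i2, σ, hσ⟩ := exists_decompField Q hD
  set s := Units.mapEquiv σ.toMulEquiv with hs
  have h1 := normGroup_map σ (RingEquiv.refl (Q.adicCompletion M))
    (fun t => show belowHom (K := F) Q (σ t) = belowHom (K := K) Q t from hσ t)
  have h2 : normGroup ((belowP F Q).adicCompletion F) (Q.adicCompletion M) =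
      (galArtin (K := F) Q).ker := (ker_galArtin Q).symm
  refine ⟨?_, ⟨?_⟩, ?_⟩
  · rw [← Subgroup.index_map_equiv _ s]
    show (Subgroup.map s.toMonoidHom _).index ≠ 0
    rw [h1, h2, Subgroup.index_ker]
    exact Nat.card_pos.ne'
  · have h3 : Subgroup.map (s : ((belowP K Q).adicCompletion K)ˣ →* _)
        (normGroup ((belowP K Q).adicCompletion K) (Q.adicCompletion M)) =
          (galArtin (K := F) Q).ker := h1.trans h2
    let g : (Q.adicCompletion M ≃ₐ[(belowP F Q).adicCompletion F] Q.adicCompletion M) ≃*
        (Q.adicCompletion M ≃ₐ[(belowP K Q).adicCompletion K] Q.adicCompletion M) :=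
      { toFun := fun φ => AlgEquiv.ofRingEquiv (f := φ.toRingEquiv) fun t => by
          show φ (belowHom (K := K) Q t) = belowHom (K := K) Q t
          rw [← hσ t]
          exact φ.commutes _
        invFun := fun φ => AlgEquiv.ofRingEquiv (f := φ.toRingEquiv) fun t => by
          obtain ⟨t, rfl⟩ := σ.surjective t
          show φ (belowHom (K := F) Q (σ t)) = belowHom (K := F) Q (σ t)
          rw [hσ t]
          exact φ.commutes _
        left_inv := fun φ => AlgEquiv.ext fun _ => rfl
        right_inv := fun φ => AlgEquiv.ext fun _ => rfl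
        map_mul' := fun φ ψ => AlgEquiv.ext fun _ => rfl }
    exact (QuotientGroup.congr _ _ s h3).trans
      ((QuotientGroup.quotientKerEquivOfSurjective _ (galArtin_surjective Q)).trans g)
  · intro A B hAB
    let up : IntermediateField ((belowP K Q).adicCompletion K) (Q.adicCompletion M) →
        IntermediateField ((belowP F Q).adicCompletion F) (Q.adicCompletion M) := fun A =>
      { A.toSubfield with
        algebraMap_mem' := fun t => by
          obtain ⟨t, rfl⟩ := σ.surjective t
          show belowHom (K := F) Q (σ t) ∈ A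
          rw [hσ t]
          exact A.algebraMap_mem t }
    have hup : ∀ A, (normGroup ((belowP K Q).adicCompletion K) A).map s.toMonoidHom =
        normGroup ((belowP F Q).adicCompletion F) (up A) := fun A =>
      normGroup_map σ (RingEquiv.refl A : A ≃+* (up A)) fun t => Subtype.ext (hσ t)
    have h := normGroup_injective_of_abelian (K := F) Q
      ((hup A).symm.trans ((congrArg _ hAB).trans (hup B)))
    exact SetLike.ext fun z => SetLike.ext_iff.1 h z

end AbelianLocal

end FA.LocalCFT

end
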