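import Fermat.Agent.LocalCFT.Existence

/-!
# Open subgroups containing the powers

An open subgroup of the multiplicative group of a completion that contains all `n`-th powers, or
just the `n`-th power of a uniformiser, has finite index.
-/

set_option autoImplicit false
set_option linter.unusedSectionVars false
set_option linter.style.haveILetI false

noncomputable section

open NumberField IsDedekindDomain WithZero
open FA.ArtinRec FA.Ideles
open FA.HasseCyclic (exists_integer_near mem_nearOne)
open scoped Classical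

namespace FA.LocalCFT

universe u

/-- **An open subgroup containing a power of a uniformiser has finite index.** -/
theorem index_ne_zero_of_unif_pow_mem {K : Type u} [Field K] [NumberField K]
    {v : HeightOneSpectrum (𝓞 K)} {H : Subgroup (v.adicCompletion K)ˣ}
    (hH : IsOpen (H : Set (v.adicCompletion K)ˣ)) {n : ℕ} (hn : 0 < n)
    (hπ : localEmb v (unif v) ^ n ∈ H) : H.index ≠ 0 := by
  obtain ⟨k₀, hk₀⟩ := exists_nearLocal_le hH
  haveI : Finite (𝓞 K ⧸ v.asIdeal ^ (k₀ + 1)) :=
    Ideal.finiteQuotientOfFreeOfNeBot _ (pow_ne_zero _ v.ne_bot)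
  have : Finite ((v.adicCompletion K)ˣ ⧸ H) := Finite.of_surjective
    (fun p : Fin n × (𝓞 K ⧸ v.asIdeal ^ (k₀ + 1)) =>
      (QuotientGroup.mk (localEmb v (unif v ^ (p.1 : ℕ) *
        if h : Quotient.out p.2 = 0 then 1 else intU (Quotient.out p.2) h)) :
          (v.adicCompletion K)ˣ ⧸ H))
    fun c => by
      obtain ⟨z, rfl⟩ := QuotientGroup.mk_surjective c
      obtain ⟨a, ha⟩ := exists_near v z k₀
      obtain ⟨q, i, hi, hq⟩ : ∃ (q : ℤ) (i : ℕ), i < n ∧ ord v a = (n : ℤ) * q + i := by
        refine ⟨ord v a / n, (ord v a % n).toNat, ?_, ?_⟩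
        · have := Int.emod_lt_of_pos (ord v a) (show (0 : ℤ) < n by omega)
          omega
        · rw [Int.toNat_of_nonneg (Int.emod_nonneg _ (by omega)), Int.mul_ediv_add_emod]
      set P : Kˣ := (unif v ^ q) ^ n with hP
      have h0 : ord v (a / (unif v ^ i * P)) = 0 := by
        rw [ord_div, ord_mul, ord_pow, hP, ord_pow, ord_zpow, ord_unif, hq]
        ring
      obtain ⟨r, hr⟩ := exists_integer_near v h0 k₀
      obtain ⟨h, hmem⟩ := hr (Quotient.out (Ideal.Quotient.mk (v.asIdeal ^ (k₀ + 1)) r))
        (Ideal.Quotient.eq.1 (Ideal.Quotient.mk_out _))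
      refine ⟨(⟨i, hi⟩, Ideal.Quotient.mk _ r), QuotientGroup.eq.2 ?_⟩
      simp only [dif_neg h]
      set x := intU _ h
      rw [show (localEmb v (unif v ^ i * x))⁻¹ * z =
          (localEmb v (x / (a / (unif v ^ i * P))))⁻¹ * (localEmb v a / z)⁻¹ * localEmb v P by
        refine Units.ext ?_
        simp only [map_mul, map_div, Units.val_mul, Units.val_inv_eq_inv_val,
          Units.val_div_eq_div_val]
        field_simp]
      refine mul_mem (mul_mem (inv_mem (hk₀ ((localEmb_mem_nearLocal v).2 hmem)))
        (inv_mem (hk₀ ha))) ?_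
      rw [hP, map_pow, map_zpow, ← zpow_natCast, ← zpow_mul, mul_comm, zpow_mul, zpow_natCast]
      exact zpow_mem hπ q
  exact Subgroup.index_ne_zero_of_finite

/-- **An open subgroup containing the powers has finite index.** -/
theorem index_ne_zero_of_pow_mem {K : Type u} [Field K] [NumberField K]
    {v : HeightOneSpectrum (𝓞 K)} {H : Subgroup (v.adicCompletion K)ˣ}
    (hH : IsOpen (H : Set (v.adicCompletion K)ˣ)) {n : ℕ} (hn : 0 < n)
    (hpow : ∀ z : (v.adicCompletion K)ˣ, z ^ n ∈ H) : H.index ≠ 0 :=
  index_ne_zero_of_unif_pow_mem hH hn (hpow _)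

end FA.LocalCFT

end
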