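import Fermat.Agent.LocalCFT.Abelian
import Fermat.Agent.LocalCFT.Functorial
import Fermat.Agent.LocalCFT.PowerIndex

/-!
# The local norm limitation

A finite abelian extension of a completion whose norm group contains the norms from an arbitrary
finite extension embeds into it.  So the norms from any finite extension are those of its largest
abelian subextension.
-/

set_option autoImplicit false
set_option linter.unusedSectionVars false
set_option linter.style.haveILetI false

noncomputable section

open NumberField IsDedekindDomain Polynomial IntermediateField WithZero IsMulCommutative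
open FA.ArtinRec FA.Ideles FA.NormResidue
open FA.QuadFormsNF (charZero_completion)
open scoped Pointwise Classical

namespace FA.LocalCFT

universe u

/-- The norm of a field generated by a subfield of the same degree. -/
theorem norm_map_of_span {K M k E : Type*} [Field K] [Field M] [Algebra K M] [FiniteDimensional K M]
    [Field k] [Field E] [Algebra k E] [FiniteDimensional k E] (φ : K →+* k) (f : M →+* E)
    (hf : ∀ x, f (algebraMap K M x) = algebraMap k E (φ x))
    (hspan : Submodule.span k (Set.range f) = ⊤) (hfin : Module.finrank k E = Module.finrank K M)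
    (m : M) : Algebra.norm k (f m) = φ (Algebra.norm K m) := by
  let b := Module.finBasis K M
  have hsmul : ∀ (c : K) (y : M), f (c • y) = φ c • f y := fun c y => by
    rw [Algebra.smul_def, map_mul, hf, ← Algebra.smul_def]
  have hspan' : ⊤ ≤ Submodule.span k (Set.range (f ∘ b)) := by
    rw [← hspan, Submodule.span_le]
    rintro _ ⟨x, rfl⟩
    rw [← b.sum_repr x, map_sum]
    exact Submodule.sum_mem _ fun i _ => by
      rw [hsmul]
      exact Submodule.smul_mem _ _ (Submodule.subset_span ⟨i, rfl⟩)
  let b' := basisOfTopLeSpanOfCardEqFinrank (f ∘ b) hspan' (by rw [Fintype.card_fin, hfin])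
  have hb' : ∀ i, b' i = f (b i) := fun i => by
    simp only [b', coe_basisOfTopLeSpanOfCardEqFinrank, Function.comp_apply]
  have hrepr : ∀ (y : M) i, b'.repr (f y) i = φ (b.repr y i) := fun y i => by
    conv_lhs => rw [← b.sum_repr y, map_sum]
    simp only [hsmul, ← hb']
    rw [b'.repr_sum_self]
  rw [Algebra.norm_eq_matrix_det b', Algebra.norm_eq_matrix_det b, RingHom.map_det]
  congr 1
  ext i j
  rw [Algebra.leftMulMatrix_eq_repr_mul, RingHom.mapMatrix_apply, Matrix.map_apply,
    Algebra.leftMulMatrix_eq_repr_mul, hb', ← map_mul, hrepr]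

/-- A prime split completely gives the field inside the completion below. -/
theorem exists_hom_of_stabilizer_bot {M N : Type*} [Field M] [NumberField M] [Field N]
    [NumberField N] [Algebra M N] [IsGalois M N] (QN : HeightOneSpectrum (𝓞 N))
    (h : MulAction.stabilizer (N ≃ₐ[M] N) QN.asIdeal = ⊥) (w : HeightOneSpectrum (𝓞 M))
    (hw : belowP M QN = w) :
    ∃ j : N →+* w.adicCompletion M,
      ∀ x, j (algebraMap M N x) = algebraMap M (w.adicCompletion M) x := by
  subst hw
  have h1 : Module.finrank ((belowP M QN).adicCompletion M) (QN.adicCompletion N) = 1 := by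
    rw [finrank_above, h, Subgroup.card_bot]
  have hsurj : Function.Surjective (belowHom (K := M) QN) := fun z => by
    have hz : z ∈ (⊥ : Subalgebra ((belowP M QN).adicCompletion M) (QN.adicCompletion N)) := by
      rw [Subalgebra.bot_eq_top_of_finrank_eq_one h1]
      exact Algebra.mem_top
    exact Algebra.mem_bot.1 hz
  set σ := RingEquiv.ofBijective (belowHom (K := M) QN) ⟨RingHom.injective _, hsurj⟩
  refine ⟨σ.symm.toRingHom.comp (algebraMap N (QN.adicCompletion N)), fun x => σ.injective ?_⟩
  show σ (σ.symm _) = belowHom (K := M) QN _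
  rw [RingEquiv.apply_symm_apply, belowHom_algebraMap]

variable {K : Type u} [Field K] [NumberField K]

/-- The kernel of the local map is the norm group of a completion. -/
theorem ker_localArtin_eq_normGroup {L : Type*} [Field L] [NumberField L] [Algebra K L]
    [IsGalois K L] [IsMulCommutative (L ≃ₐ[K] L)] {v : HeightOneSpectrum (𝓞 K)}
    (P : HeightOneSpectrum (𝓞 L)) (hP : belowP K P = v) {F : Type*} [Field F]
    [Algebra (v.adicCompletion K) F] (e : P.adicCompletion L ≃+* F)
    (he : ∀ t : (belowP K P).adicCompletion K,
      e (algebraMap ((belowP K P).adicCompletion K) (P.adicCompletion L) t) =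
        algebraMap (v.adicCompletion K) F (hP ▸ t)) :
    (localArtin L v).ker = normGroup (v.adicCompletion K) F := by
  subst hP
  rw [← range_normC (K := K) P]
  exact normGroup_congr (AlgEquiv.ofRingEquiv (f := e) he)

/-- The completion embeds where the global field does. -/
theorem nonempty_algHom_of_ringHom {L : Type*} [Field L] [NumberField L] [Algebra K L]
    [IsGalois K L] {v : HeightOneSpectrum (𝓞 K)} (P : HeightOneSpectrum (𝓞 L))
    (hP : belowP K P = v) {F : Type*} [Field F] [Algebra (v.adicCompletion K) F]
    (e : P.adicCompletion L ≃+* F)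
    (he : ∀ t : (belowP K P).adicCompletion K,
      e (algebraMap ((belowP K P).adicCompletion K) (P.adicCompletion L) t) =
        algebraMap (v.adicCompletion K) F (hP ▸ t))
    {E : Type*} [Field E] [Algebra (v.adicCompletion K) E] (h : L →+* E)
    (hcomm : ∀ x, h (algebraMap K L x) =
      algebraMap (v.adicCompletion K) E (algebraMap K (v.adicCompletion K) x)) :
    Nonempty (F →ₐ[v.adicCompletion K] E) := by
  subst hP
  obtain ⟨p, hp, hsp⟩ := IsGalois.is_separable_splitting_field (F := K) (E := L)
  haveI := hsp
  haveI := isSplittingField_completion (K := K) P hp.ne_zero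
  set pk := p.map (algebraMap K ((belowP K P).adicCompletion K))
  have hs : (pk.map (algebraMap ((belowP K P).adicCompletion K) E)).Splits := by
    rw [Polynomial.map_map,
      show (algebraMap ((belowP K P).adicCompletion K) E).comp
        (algebraMap K ((belowP K P).adicCompletion K)) = h.comp (algebraMap K L) from
        RingHom.ext fun x => (hcomm x).symm,
      ← Polynomial.map_map]
    exact (IsSplittingField.splits L p).map h
  exact ⟨(IsSplittingField.lift (P.adicCompletion L) pk hs).comp
    (AlgEquiv.ofRingEquiv (f := e) he).symm.toAlgHom⟩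

variable {S : Type*} [Field S] [NumberField S] [Algebra K S] [IsGalois K S]
  (Q : HeightOneSpectrum (𝓞 S))

/-- Over the decomposition field the decomposition group is everything. -/
theorem exists_decompField_full :
    ∃ (F₀ : IntermediateField K S) (_ : IsGalois F₀ S)
      (σ : (belowP K Q).adicCompletion K ≃+* (belowP F₀ Q).adicCompletion F₀),
      MulAction.stabilizer (S ≃ₐ[F₀] S) Q.asIdeal = ⊤ ∧
        ∀ t, belowHom (K := F₀) Q (σ t) = belowHom (K := K) Q t := by
  set F := IntermediateField.fixedField (MulAction.stabilizer (S ≃ₐ[K] S) Q.asIdeal) with hF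
  have hmem : ∀ τ : S ≃ₐ[F] S,
      τ.restrictScalars K ∈ MulAction.stabilizer (S ≃ₐ[K] S) Q.asIdeal := fun τ => by
    rw [← IntermediateField.fixingSubgroup_fixedField (MulAction.stabilizer (S ≃ₐ[K] S) Q.asIdeal),
      IntermediateField.mem_fixingSubgroup_iff]
    exact fun x hx => τ.commutes ⟨x, hx⟩
  let σ0 : (belowP K Q).adicCompletion K →+* (belowP F Q).adicCompletion F :=
    extHom (belowP K (belowP F Q)) (belowP F Q) (algebraMap K F)
      (e := (belowP K (belowP F Q)).asIdeal.ramificationIdx' (belowP F Q).asIdeal)
      (eIdx_pos (K := K) (belowP F Q)) fun x => by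
        haveI : (belowP F Q).asIdeal.LiesOver (belowP K (belowP F Q)).asIdeal := ⟨rfl⟩
        exact (HeightOneSpectrum.valuation_liesOver F (belowP K (belowP F Q)) (belowP F Q) x).symm
  have hσ0 : ∀ t, belowHom (K := F) Q (σ0 t) = belowHom (K := K) Q t := fun t =>
    RingHom.congr_fun (ext_of_algebraMap (belowP K (belowP F Q)) Q
      (g := (belowHom (K := F) Q).comp σ0) (h := belowHom (K := K) Q)
      ((continuous_belowHom (K := F) Q).comp (continuous_extHom _ _ _ _ _))
      (continuous_belowHom (K := K) Q) fun x => by
        rw [RingHom.comp_apply, extHom_algebraMap, belowHom_algebraMap]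
        exact (belowHom_algebraMap (K := K) Q x).symm) t
  refine ⟨F, inferInstance, RingEquiv.ofBijective σ0 ⟨σ0.injective, fun z => ?_⟩,
    (Subgroup.eq_top_iff' _).2 fun τ => hmem τ, hσ0⟩
  obtain ⟨t, ht⟩ := mem_range_of_fixed (K := K) Q fun d => decHom_belowHom_of_fixed Q F d
    (fun x => (IntermediateField.mem_fixedField_iff _ _).1 x.2 _ d.2) z
  exact ⟨t, (belowHom (K := F) Q).injective ((hσ0 t).trans ht)⟩

/-- With the whole group as decomposition group an intermediate field has one prime. -/
theorem eq_below_of_stabilizer_top (hQ : MulAction.stabilizer (S ≃ₐ[K] S) Q.asIdeal = ⊤)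
    (M : IntermediateField K S) [IsGalois M S] {P : HeightOneSpectrum (𝓞 M)}
    (hP : belowP K P = belowP K (belowP M Q)) : P = belowP M Q := by
  obtain ⟨Q', rfl⟩ := exists_belowP M S P
  have h : belowP K Q = belowP K Q' := (HeightOneSpectrum.ext (Ideal.under_under _).symm).trans
    (hP.symm.trans (HeightOneSpectrum.ext (Ideal.under_under _)))
  obtain ⟨g, rfl⟩ := exists_galPrime_eq h
  rw [galPrime_of_mem_stab Q ⟨g, by rw [hQ]; exact Subgroup.mem_top g⟩]

/-- **The limitation, with the whole group as decomposition group.** -/
theorem nonempty_algHom_of_stabilizer_top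
    (hQ : MulAction.stabilizer (S ≃ₐ[K] S) Q.asIdeal = ⊤)
    (E : IntermediateField ((belowP K Q).adicCompletion K) (Q.adicCompletion S)) (F : Type*)
    [Field F] [Algebra ((belowP K Q).adicCompletion K) F]
    [FiniteDimensional ((belowP K Q).adicCompletion K) F]
    [IsGalois ((belowP K Q).adicCompletion K) F]
    [IsMulCommutative (F ≃ₐ[(belowP K Q).adicCompletion K] F)]
    (hle : normGroup ((belowP K Q).adicCompletion K) E ≤
      normGroup ((belowP K Q).adicCompletion K) F) :
    Nonempty (F →ₐ[(belowP K Q).adicCompletion K] E) := by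
  obtain ⟨L, l1, l2, l3, l4, l5, P, hP, e, he⟩ := exists_abelian_completion (belowP K Q) F
  set eD := IsGaloisGroup.mulEquivAlgEquiv (MulAction.stabilizer (S ≃ₐ[K] S) Q.asIdeal)
    ((belowP K Q).adicCompletion K) (Q.adicCompletion S) with heD
  set H := (E.fixingSubgroup.comap eD.toMonoidHom).map
    (MulAction.stabilizer (S ≃ₐ[K] S) Q.asIdeal).subtype with hH
  set M := IntermediateField.fixedField H with hM
  -- the global subfield in the local one
  have hfixes : ∀ d : MulAction.stabilizer (S ≃ₐ[K] S) Q.asIdeal,
      eD d ∈ E.fixingSubgroup ↔ ∀ x : M, (d : S ≃ₐ[K] S) x = x := fun d => by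
    constructor
    · exact fun h x => (IntermediateField.mem_fixedField_iff _ _).1 x.2 _ ⟨d, h, rfl⟩
    · intro hd
      have h : (d : S ≃ₐ[K] S) ∈ H := by
        rw [← IntermediateField.fixingSubgroup_fixedField H,
          IntermediateField.mem_fixingSubgroup_iff]
        exact fun x hx => hd ⟨x, hx⟩
      obtain ⟨d', hd', hdd⟩ := h
      rw [← Subtype.ext hdd]
      exact hd'
  have hmemE : ∀ z, (∀ d, eD d ∈ E.fixingSubgroup → decHom Q d z = z) → z ∈ E := fun z hz => by
    rw [← IsGalois.fixedField_fixingSubgroup E, IntermediateField.mem_fixedField_iff]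
    intro σ hσ
    obtain ⟨d, rfl⟩ := eD.surjective σ
    exact hz d hσ
  let f : M →+* E :=
    ((algebraMap S (Q.adicCompletion S)).comp (algebraMap M S)).codRestrict E fun m => by
      refine hmemE _ fun d hd => ?_
      rw [RingHom.comp_apply, decHom_algebraMap]
      exact congrArg _ ((hfixes d).1 hd m)
  have hf : ∀ x, f (algebraMap K M x) = algebraMap ((belowP K Q).adicCompletion K) E
      (algebraMap K ((belowP K Q).adicCompletion K) x) := fun x => Subtype.ext
    (belowHom_algebraMap (K := K) Q x).symm
  -- degree
  have hfin : Module.finrank ((belowP K Q).adicCompletion K) E = Module.finrank K M := by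
    have hcard : Nat.card E.fixingSubgroup = Nat.card H := by
      rw [hH, Subgroup.card_map_of_injective (Subgroup.subtype_injective _)]
      exact Nat.card_congr ((eD.toEquiv.subtypeEquiv fun d => Iff.rfl).symm)
    have h1 := Module.finrank_mul_finrank ((belowP K Q).adicCompletion K) E (Q.adicCompletion S)
    rw [← IsGalois.card_fixingSubgroup_eq_finrank, finrank_above, hQ, Subgroup.card_top,
      IsGalois.card_aut_eq_finrank, ← Module.finrank_mul_finrank K M S, hcard,
      IntermediateField.finrank_fixedField_eq_card] at h1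
    exact Nat.eq_of_mul_eq_mul_right Nat.card_pos h1
  -- generation
  have hspan : Submodule.span ((belowP K Q).adicCompletion K) (Set.range f) = ⊤ := by
    have hadj : IntermediateField.adjoin ((belowP K Q).adicCompletion K) (Set.range f) = ⊤ := by
      refine IntermediateField.map_injective E.val ?_
      rw [IntermediateField.adjoin_map, ← AlgHom.fieldRange_eq_map, IntermediateField.fieldRange_val]
      refine le_antisymm (IntermediateField.adjoin_le_iff.2 ?_) fun z hz => ?_
      · rintro _ ⟨y, -, rfl⟩
        exact y.2
      set A := IntermediateField.adjoin ((belowP K Q).adicCompletion K) (E.val '' Set.range f)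
      rw [← IsGalois.fixedField_fixingSubgroup A, IntermediateField.mem_fixedField_iff]
      intro σ hσ
      obtain ⟨d, rfl⟩ := eD.surjective σ
      refine (IntermediateField.mem_fixingSubgroup_iff _ _).1 ((hfixes d).2 fun m => ?_) z hz
      refine (algebraMap S (Q.adicCompletion S)).injective ?_
      rw [← decHom_algebraMap]
      exact (IntermediateField.mem_fixingSubgroup_iff _ _).1 hσ _
        (IntermediateField.subset_adjoin _ _ ⟨f m, ⟨m, rfl⟩, rfl⟩)
    have h := congrArg IntermediateField.toSubalgebra hadj
    rw [IntermediateField.adjoin_toSubalgebra, IntermediateField.top_toSubalgebra] at h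
    have h' := congrArg Subalgebra.toSubmodule h
    rw [Algebra.adjoin_eq_span, Algebra.top_toSubmodule] at h'
    refine top_le_iff.1 (h'.ge.trans (Submodule.span_mono ?_))
    exact Submonoid.closure_le.2 (show Set.range f ⊆ MonoidHom.mrange f.toMonoidHom from
      fun _ hy => hy)
  -- the symbols of `L` at the norms
  have hsym : ∀ a : Mˣ, normSymbol L (belowP K Q) (normU' a) = 1 := fun a => by
    rw [← localArtin_localEmb, ← MonoidHom.mem_ker, ker_localArtin_eq_normGroup P hP e he]
    refine hle ⟨Units.map (f : M →* E) a, Units.ext ?_⟩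
    exact norm_map_of_span _ f hf hspan hfin _
  -- the compositum
  obtain ⟨p, hp, hsp⟩ := IsGalois.is_separable_splitting_field (F := K) (E := L)
  haveI := hsp
  set pM := p.map (algebraMap K M)
  set N := pM.SplittingField
  haveI : IsSplittingField M N pM := IsSplittingField.splittingField pM
  haveI : NumberField N := NumberField.of_module_finite M N
  haveI : IsGalois M N := IsGalois.of_separable_splitting_field (p := pM) (hp.map)
  have hsN : (p.map (algebraMap K N)).Splits := by
    rw [IsScalarTower.algebraMap_eq K M N, ← Polynomial.map_map]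
    exact IsSplittingField.splits N pM
  let i : L →ₐ[K] N := IsSplittingField.lift L p hsN
  letI : Algebra L N := i.toRingHom.toAlgebra
  haveI : IsScalarTower K L N := IsScalarTower.of_algebraMap_eq fun x => (i.commutes x).symm
  have hinj : Function.Injective (restrictBelow K M L N) := by
    refine (injective_iff_map_eq_one _).2 fun g hg => ?_
    refine AlgEquiv.coe_toAlgHom_injective
      (AlgHom.ext_of_adjoin_eq_top (IsSplittingField.adjoin_rootSet N pM) fun x hx => ?_)
    have hx' : x ∈ p.rootSet N := by
      rw [mem_rootSet] at hx ⊢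
      rw [aeval_map_algebraMap] at hx
      exact ⟨hp.ne_zero, hx.2⟩
    rw [← (IsSplittingField.splits L p).image_rootSet i] at hx'
    obtain ⟨y, -, rfl⟩ := hx'
    show g (algebraMap L N y) = algebraMap L N y
    rw [← restrictBelow_apply (K := K) (L := L) g y, hg, AlgEquiv.one_apply]
  haveI : IsMulCommutative (N ≃ₐ[M] N) :=
    ⟨⟨fun g g' => hinj (by rw [map_mul, map_mul, mul_comm])⟩⟩
  obtain ⟨QN, hQN⟩ := exists_belowP M N (belowP M Q)
  have hstab : MulAction.stabilizer (N ≃ₐ[M] N) QN.asIdeal = ⊥ := by
    rw [← range_normSymbol (K := M) hQN, eq_bot_iff]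
    rintro _ ⟨a, rfl⟩
    refine Subgroup.mem_bot.2 (hinj ?_)
    rw [map_one, restrictBelow_normSymbol _ (fun P hP => eq_below_of_stabilizer_top Q hQ M hP),
      show belowP K (belowP M Q) = belowP K Q from HeightOneSpectrum.ext (Ideal.under_under _)]
    exact hsym a
  obtain ⟨j, hj⟩ := exists_hom_of_stabilizer_bot QN hstab _ hQN
  let h : L →+* E := (((belowHom (K := M) Q).comp j).comp i.toRingHom).codRestrict E fun x =>
    hmemE _ fun d hd => decHom_belowHom_of_fixed Q M d ((hfixes d).1 hd) _
  refine nonempty_algHom_of_ringHom P hP e he h fun x => Subtype.ext ?_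
  show belowHom (K := M) Q (j (i (algebraMap K L x))) = _
  rw [i.commutes, IsScalarTower.algebraMap_apply K M N, hj, belowHom_algebraMap]
  exact (belowHom_algebraMap (K := K) Q x).symm

/-- **The limitation for every finite extension.** -/
theorem nonempty_algHom_of_normGroup_le (v : HeightOneSpectrum (𝓞 K)) (E : Type*) [Field E]
    [Algebra (v.adicCompletion K) E] [FiniteDimensional (v.adicCompletion K) E] (F : Type*)
    [Field F] [Algebra (v.adicCompletion K) F] [FiniteDimensional (v.adicCompletion K) F]
    [IsGalois (v.adicCompletion K) F] [IsMulCommutative (F ≃ₐ[v.adicCompletion K] F)]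
    (hle : normGroup (v.adicCompletion K) E ≤ normGroup (v.adicCompletion K) F) :
    Nonempty (F →ₐ[v.adicCompletion K] E) := by
  haveI := charZero_completion v
  set C := AlgebraicClosure (v.adicCompletion K)
  let ι : E →ₐ[v.adicCompletion K] C := IsAlgClosed.lift
  set S₀ := IntermediateField.normalClosure (v.adicCompletion K) E C
  haveI : IsGalois (v.adicCompletion K) S₀ := ⟨⟩
  have hι : ι.fieldRange ≤ S₀ := ι.fieldRange_le_normalClosure
  set E1 := IntermediateField.restrict hι
  let eE1 : E ≃ₐ[v.adicCompletion K] E1 :=
    (AlgEquiv.ofInjectiveField ι).trans (IntermediateField.restrictAlgEquiv hι)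
  obtain ⟨g, hg, hS⟩ := exists_splitting_poly v S₀
  haveI : NumberField g.SplittingField := NumberField.of_module_finite K g.SplittingField
  haveI : Normal K g.SplittingField := Normal.of_isSplittingField g
  haveI : IsGalois K g.SplittingField := ⟨⟩
  obtain ⟨Q, hQ⟩ := exists_belowP K g.SplittingField v
  subst hQ
  haveI := isSplittingField_completion (K := K) Q hg.ne_zero
  set gv := g.map (algebraMap K ((belowP K Q).adicCompletion K))
  let e : S₀ ≃ₐ[(belowP K Q).adicCompletion K] Q.adicCompletion g.SplittingField :=
    (IsSplittingField.algEquiv S₀ gv).trans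
      (IsSplittingField.algEquiv (Q.adicCompletion g.SplittingField) gv).symm
  set E2 := E1.map e.toAlgHom
  let eE2 : E ≃ₐ[(belowP K Q).adicCompletion K] E2 :=
    eE1.trans (IntermediateField.intermediateFieldMap e E1)
  obtain ⟨F₀, hF₀, σ, htop, hσ⟩ := exists_decompField_full (K := K) Q
  let E3 : IntermediateField ((belowP F₀ Q).adicCompletion F₀)
      (Q.adicCompletion g.SplittingField) :=
    { E2.toSubfield with
      algebraMap_mem' := fun t => by
        obtain ⟨t, rfl⟩ := σ.surjective t
        show belowHom (K := F₀) Q (σ t) ∈ E2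
        rw [hσ t]
        exact E2.algebraMap_mem t }
  letI : Algebra ((belowP F₀ Q).adicCompletion F₀) F :=
    ((algebraMap ((belowP K Q).adicCompletion K) F).comp σ.symm.toRingHom).toAlgebra
  have hF : ∀ t, algebraMap ((belowP F₀ Q).adicCompletion F₀) F (σ t) =
      algebraMap ((belowP K Q).adicCompletion K) F t :=
    fun t => congrArg (algebraMap ((belowP K Q).adicCompletion K) F) (σ.symm_apply_apply t)
  haveI : FiniteDimensional ((belowP F₀ Q).adicCompletion F₀) F :=
    Module.Finite.of_equiv_equiv σ (RingEquiv.refl F) (RingHom.ext hF)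
  haveI : IsGalois ((belowP F₀ Q).adicCompletion F₀) F :=
    IsGalois.of_equiv_equiv (f := σ) (g := RingEquiv.refl F) (RingHom.ext hF)
  let τ : (F ≃ₐ[(belowP F₀ Q).adicCompletion F₀] F) → (F ≃ₐ[(belowP K Q).adicCompletion K] F) :=
    fun φ => AlgEquiv.ofRingEquiv (f := φ.toRingEquiv) fun t => by
      rw [← hF]; exact φ.commutes _
  haveI : IsMulCommutative (F ≃ₐ[(belowP F₀ Q).adicCompletion F₀] F) := ⟨⟨fun φ ψ =>
    AlgEquiv.ext fun x => DFunLike.congr_fun (mul_comm (τ φ) (τ ψ)) x⟩⟩
  let τE : E2 ≃+* E3 := RingEquiv.refl E2
  have hle' : normGroup ((belowP F₀ Q).adicCompletion F₀) E3 ≤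
      normGroup ((belowP F₀ Q).adicCompletion F₀) F := by
    rw [← normGroup_map σ τE (fun t => Subtype.ext (hσ t)),
      ← normGroup_map σ (RingEquiv.refl F) hF, ← normGroup_congr eE2]
    exact Subgroup.map_mono hle
  obtain ⟨φ⟩ := nonempty_algHom_of_stabilizer_top (K := F₀) Q htop E3 F hle'
  let φ' : F →ₐ[(belowP K Q).adicCompletion K] E2 :=
    { τE.symm.toRingHom.comp φ.toRingHom with
      commutes' := fun t => Subtype.ext (by
        show ((φ (algebraMap ((belowP K Q).adicCompletion K) F t) : E3) :
          Q.adicCompletion g.SplittingField) = _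
        rw [← hF, φ.commutes]
        exact hσ t) }
  exact ⟨eE2.symm.toAlgHom.comp φ'⟩

/-- **The local norm limitation theorem.** -/
theorem exists_abelian_normGroup (v : HeightOneSpectrum (𝓞 K)) (E : Type*) [Field E]
    [Algebra (v.adicCompletion K) E] [FiniteDimensional (v.adicCompletion K) E] :
    ∃ A : IntermediateField (v.adicCompletion K) E, IsAbelianGalois (v.adicCompletion K) A ∧
      normGroup (v.adicCompletion K) A = normGroup (v.adicCompletion K) E := by
  have hpow : ∀ z : (v.adicCompletion K)ˣ,
      z ^ Module.finrank (v.adicCompletion K) E ∈ normGroup (v.adicCompletion K) E := fun z =>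
    ⟨Units.map (algebraMap (v.adicCompletion K) E : v.adicCompletion K →* E) z,
      Units.ext ((Algebra.norm_algebraMap _).trans (Units.val_pow_eq_pow_val _ _).symm)⟩
  obtain ⟨L, i1, i2, i3, i4, i5, hL⟩ := exists_ker_localArtin_eq v (isOpen_normGroup v E)
    (index_ne_zero_of_pow_mem (isOpen_normGroup v E) Module.finrank_pos hpow)
  obtain ⟨P, hP⟩ := exists_belowP K L v
  subst hP
  have hF : normGroup ((belowP K P).adicCompletion K) (P.adicCompletion L) =
      normGroup ((belowP K P).adicCompletion K) E := (range_normC P).trans hL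
  haveI := isMulCommutative_completion (K := K) P
  obtain ⟨φ⟩ := nonempty_algHom_of_normGroup_le (belowP K P) E (P.adicCompletion L) hF.ge
  let e : P.adicCompletion L ≃ₐ[(belowP K P).adicCompletion K] φ.fieldRange :=
    AlgEquiv.ofInjectiveField φ
  haveI : IsGalois ((belowP K P).adicCompletion K) φ.fieldRange := IsGalois.of_algEquiv e
  haveI := isMulCommutative_of_algEquiv e
  exact ⟨φ.fieldRange, ⟨⟩, (normGroup_congr e).symm.trans hF⟩

end FA.LocalCFT

end
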