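import Fermat.Agent.LocalCFT.Residues
import Mathlib.NumberTheory.Cyclotomic.Basic
import Mathlib.RingTheory.RootsOfUnity.Minpoly
import Mathlib.Data.Nat.Factorization.Induction

/-!
# Powers and congruences

For every `n` there is an `N` such that an `N`-th power residue at almost every prime is an `n`-th
power, without exception: the cyclotomic tower kills the roots of unity that could intervene.
Hence Chevalley's theorem: in a finitely generated subgroup, congruences at finitely many primes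
outside any finite set force an `n`-th power.
-/

set_option autoImplicit false
set_option linter.unusedSectionVars false
set_option linter.style.haveILetI false

noncomputable section

open NumberField IsDedekindDomain
open FA.ArtinRec
open FA.HasseCyclic (nearOne)
open scoped Classical IntermediateField

namespace FA.LocalCFT

universe u

variable (K : Type u) [Field K] [NumberField K] (ℓ : ℕ) [hℓ : Fact ℓ.Prime]

/-- A chosen root of unity of order `ℓ ^ k`. -/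
def towerRoot (k : ℕ) : AlgebraicClosure K :=
  haveI : NeZero (ℓ ^ k) := ⟨pow_ne_zero k hℓ.out.ne_zero⟩
  (HasEnoughRootsOfUnity.exists_primitiveRoot (AlgebraicClosure K) (ℓ ^ k)).choose

theorem towerRoot_spec (k : ℕ) : IsPrimitiveRoot (towerRoot K ℓ k) (ℓ ^ k) :=
  haveI : NeZero (ℓ ^ k) := ⟨pow_ne_zero k hℓ.out.ne_zero⟩
  (HasEnoughRootsOfUnity.exists_primitiveRoot (AlgebraicClosure K) (ℓ ^ k)).choose_spec

/-- The cyclotomic tower. -/
def tower (k : ℕ) : IntermediateField K (AlgebraicClosure K) := K⟮towerRoot K ℓ k⟯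

theorem mem_tower_of_pow_eq_one {k : ℕ} {z : AlgebraicClosure K} (hz : z ^ ℓ ^ k = 1) :
    z ∈ tower K ℓ k := by
  haveI : NeZero (ℓ ^ k) := ⟨pow_ne_zero k hℓ.out.ne_zero⟩
  obtain ⟨i, -, rfl⟩ := (towerRoot_spec K ℓ k).eq_pow_of_pow_eq_one hz
  exact pow_mem (IntermediateField.mem_adjoin_simple_self K _) i

theorem tower_le {j k : ℕ} (h : j ≤ k) : tower K ℓ j ≤ tower K ℓ k :=
  IntermediateField.adjoin_simple_le_iff.2 (mem_tower_of_pow_eq_one K ℓ (by
    obtain ⟨i, rfl⟩ := Nat.exists_eq_add_of_le h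
    rw [pow_add, pow_mul, (towerRoot_spec K ℓ j).pow_eq_one, one_pow]))

instance finite_tower (k : ℕ) : FiniteDimensional K (tower K ℓ k) :=
  IntermediateField.adjoin.finiteDimensional (Algebra.IsIntegral.isIntegral _)

instance numberField_tower (k : ℕ) : NumberField (tower K ℓ k) :=
  NumberField.of_module_finite K _

instance isGalois_tower (k : ℕ) : IsGalois K (tower K ℓ k) :=
  haveI : NeZero (ℓ ^ k) := ⟨pow_ne_zero k hℓ.out.ne_zero⟩
  haveI : IsCyclotomicExtension {ℓ ^ k} K (tower K ℓ k) :=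
    (towerRoot_spec K ℓ k).intermediateField_adjoin_isCyclotomicExtension K
  IsCyclotomicExtension.isGalois {ℓ ^ k} K (tower K ℓ k)

/-- The root inside its field. -/
def towerGen (k : ℕ) : tower K ℓ k := ⟨towerRoot K ℓ k, IntermediateField.mem_adjoin_simple_self K _⟩

theorem towerGen_spec (k : ℕ) : IsPrimitiveRoot (towerGen K ℓ k) (ℓ ^ k) :=
  IsPrimitiveRoot.of_map_of_injective (f := (tower K ℓ k).val) (towerRoot_spec K ℓ k)
    (tower K ℓ k).val.injective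

instance hasEnoughRootsOfUnity_tower (k : ℕ) : HasEnoughRootsOfUnity (tower K ℓ k) (ℓ ^ k) :=
  haveI : NeZero (ℓ ^ k) := ⟨pow_ne_zero k hℓ.out.ne_zero⟩
  ⟨⟨_, towerGen_spec K ℓ k⟩, inferInstance⟩

theorem totient_le_finrank {F : Type*} [Field F] [NumberField F] {m : ℕ} (hm : 0 < m) {z : F}
    (hz : IsPrimitiveRoot z m) : Nat.totient m ≤ Module.finrank ℚ F := by
  refine (IsPrimitiveRoot.totient_le_degree_minpoly hz).trans ?_
  have hint : IsIntegral ℤ z := hz.isIntegral hm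
  have h := minpoly.natDegree_le (A := ℚ) z
  rw [minpoly.isIntegrallyClosed_eq_field_fractions' ℚ hint,
    (minpoly.monic hint).natDegree_map] at h
  exact h

/-- **The tower grows beyond every level.** -/
theorem exists_tower_ne (k₀ : ℕ) : ∃ k, k₀ ≤ k ∧ tower K ℓ (k + 1) ≠ tower K ℓ k := by
  by_contra! hc
  have hconst : ∀ m, tower K ℓ (k₀ + m) = tower K ℓ k₀ := fun m => by
    induction m with
    | zero => rfl
    | succ m ih => rw [← add_assoc, hc _ (Nat.le_add_right _ _), ih]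
  set D := Module.finrank ℚ (tower K ℓ k₀)
  set z : tower K ℓ k₀ := ⟨towerRoot K ℓ (k₀ + (D + 1)), by
    rw [← hconst (D + 1)]
    exact IntermediateField.mem_adjoin_simple_self K _⟩
  have hz : IsPrimitiveRoot z (ℓ ^ (k₀ + (D + 1))) :=
    IsPrimitiveRoot.of_map_of_injective (f := (tower K ℓ k₀).val)
      (towerRoot_spec K ℓ (k₀ + (D + 1))) (tower K ℓ k₀).val.injective
  have h := totient_le_finrank (pow_pos hℓ.out.pos _) hz
  rw [Nat.totient_prime_pow hℓ.out (by omega)] at h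
  have h2 : D < ℓ ^ D := Nat.lt_pow_self hℓ.out.one_lt
  have h3 : ℓ ^ D ≤ ℓ ^ (k₀ + (D + 1) - 1) := Nat.pow_le_pow_right hℓ.out.pos (by omega)
  have h4 : ℓ ^ (k₀ + (D + 1) - 1) ≤ ℓ ^ (k₀ + (D + 1) - 1) * (ℓ - 1) :=
    Nat.le_mul_of_pos_right _ (by have := hℓ.out.two_le; omega)
  omega

variable {K}

/-- `K` has no root of unity of order `ℓ ^ ([K : ℚ] + 1)`. -/
theorem towerRoot_not_mem {z : K} (hz : IsPrimitiveRoot z (ℓ ^ (Module.finrank ℚ K + 1))) : False := by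
  have h := totient_le_finrank (pow_pos hℓ.out.pos _) hz
  rw [Nat.totient_prime_pow hℓ.out (by omega), Nat.add_sub_cancel] at h
  have h2 : Module.finrank ℚ K < ℓ ^ Module.finrank ℚ K := Nat.lt_pow_self hℓ.out.one_lt
  have h4 : ℓ ^ Module.finrank ℚ K ≤ ℓ ^ Module.finrank ℚ K * (ℓ - 1) :=
    Nat.le_mul_of_pos_right _ (by have := hℓ.out.two_le; omega)
  omega

/-- **Descent from the tower.** -/
theorem exists_pow_descent {k : ℕ} (hk : Module.finrank ℚ K < k) {x : Kˣ}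
    (hx : ∃ y : tower K ℓ k, y ^ ℓ ^ k = algebraMap K (tower K ℓ k) (x : K)) :
    ∃ e, e ≤ Module.finrank ℚ K ∧ ∃ w : Kˣ, x ^ ℓ ^ e = w ^ ℓ ^ k := by
  set c := Module.finrank ℚ K
  set N := ℓ ^ k with hN
  haveI : NeZero N := ⟨pow_ne_zero k hℓ.out.ne_zero⟩
  set M := tower K ℓ k
  have hζ := towerGen_spec K ℓ k
  set ζ := towerGen K ℓ k
  obtain ⟨y, hy⟩ := hx
  have hy0 : y ≠ 0 := fun h => by
    rw [h, zero_pow (NeZero.ne N), eq_comm, map_eq_zero] at hy
    exact x.ne_zero hy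
  -- an automorphism moving the root of order `ℓ ^ (c + 1)`
  set z := ζ ^ ℓ ^ (k - (c + 1))
  have hzp : IsPrimitiveRoot z (ℓ ^ (c + 1)) :=
    hζ.pow (pow_pos hℓ.out.pos _) (by rw [← pow_add, Nat.sub_add_cancel hk])
  obtain ⟨σ₀, hσ₀⟩ : ∃ σ : M ≃ₐ[K] M, σ z ≠ z := by
    by_contra! h
    obtain ⟨r, hr⟩ := (IsGalois.mem_range_algebraMap_iff_fixed (F := K) z).2 h
    exact towerRoot_not_mem ℓ (IsPrimitiveRoot.of_map_of_injective
      (f := algebraMap K M) (by rw [hr]; exact hzp) (algebraMap K M).injective)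
  set t : (M ≃ₐ[K] M) → ℕ := fun σ => ((hζ.autToPow K σ : (ZMod N)ˣ) : ZMod N).val
  haveI : IsCyclotomicExtension {ℓ ^ k} K M :=
    (towerRoot_spec K ℓ k).intermediateField_adjoin_isCyclotomicExtension K
  have htζ : ∀ σ : M ≃ₐ[K] M, σ ζ = ζ ^ t σ := fun σ => (hζ.autToPow_spec K σ).symm
  have htr : ∀ (σ : M ≃ₐ[K] M) (r : M), r ^ N = 1 → σ r = r ^ t σ := fun σ r hr => by
    obtain ⟨i, -, rfl⟩ := hζ.eq_pow_of_pow_eq_one hr
    rw [map_pow, htζ, ← pow_mul, ← pow_mul, mul_comm]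
  set ξ : (M ≃ₐ[K] M) → M := fun σ => σ y / y
  have hξN : ∀ σ, ξ σ ^ N = 1 := fun σ => by
    rw [div_pow, ← map_pow, hy, AlgEquiv.commutes, ← hy, div_self (pow_ne_zero _ hy0)]
  have hξy : ∀ σ : M ≃ₐ[K] M, σ y = ξ σ * y := fun σ => (div_mul_cancel₀ _ hy0).symm
  have hξ0 : ∀ σ, ξ σ ≠ 0 := fun σ h => by
    have := hξN σ
    rw [h, zero_pow (NeZero.ne N)] at this
    exact zero_ne_one this
  set s := t σ₀
  have hcomm : ∀ σ, ξ σ ^ s * ξ σ₀ = ξ σ₀ ^ t σ * ξ σ := fun σ => by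
    have h1 : σ (σ₀ y) = σ₀ (σ y) := by
      have : σ * σ₀ = σ₀ * σ := (hζ.autToPow_injective K) (by rw [map_mul, map_mul, mul_comm])
      exact DFunLike.congr_fun this y
    rw [hξy σ₀, hξy σ, map_mul, map_mul, htr σ _ (hξN σ₀), htr σ₀ _ (hξN σ), hξy σ, hξy σ₀,
      ← mul_assoc, ← mul_assoc] at h1
    exact (mul_right_cancel₀ hy0 h1).symm
  have hfix : ∀ σ : M ≃ₐ[K] M, σ (y ^ s / (y * ξ σ₀)) = y ^ s / (y * ξ σ₀) := fun σ => by
    rw [map_div₀, map_pow, map_mul, hξy, htr σ _ (hξN σ₀), mul_pow]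
    have h2 := hcomm σ
    have h5 := hξ0 σ₀
    have h6 := hξ0 σ
    field_simp
    linear_combination h2
  obtain ⟨r, hr⟩ := (IsGalois.mem_range_algebraMap_iff_fixed (F := K) _).2 hfix
  have hs1 : 1 ≤ s := by
    refine Nat.one_le_iff_ne_zero.2 fun h => hσ₀ ?_
    have hu : IsUnit ((hζ.autToPow K σ₀ : (ZMod N)ˣ) : ZMod N) := Units.isUnit _
    have h0 : ((hζ.autToPow K σ₀ : (ZMod N)ˣ) : ZMod N) = 0 := (ZMod.val_eq_zero _).1 h
    rw [h0, isUnit_zero_iff] at hu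
    haveI : Subsingleton (ZMod N) := subsingleton_of_zero_eq_one hu
    have h1 : N = 1 := ZMod.subsingleton_iff.1 ‹_›
    have : 1 < N := hN ▸ Nat.one_lt_pow (by omega) hℓ.out.one_lt
    omega
  have hdvd : ¬ ℓ ^ (c + 1) ∣ s - 1 := fun ⟨d, hd⟩ => hσ₀ (by
    rw [map_pow, htζ, ← pow_mul, mul_comm, pow_mul]
    change z ^ s = z
    rw [← Nat.sub_add_cancel hs1, hd, pow_succ, pow_mul, hzp.pow_eq_one, one_pow, one_mul])
  have hr0 : r ≠ 0 := fun h => by
    rw [h, map_zero, eq_comm, div_eq_zero_iff] at hr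
    rcases hr with h1 | h1
    · exact pow_ne_zero _ hy0 h1
    · exact mul_ne_zero hy0 (hξ0 σ₀) h1
  have hpow : Units.mk0 r hr0 ^ N = x ^ (s - 1) := Units.ext ((algebraMap K M).injective (by
    rw [Units.val_pow_eq_pow_val, Units.val_pow_eq_pow_val, map_pow, map_pow, Units.val_mk0, hr,
      div_pow, mul_pow, hξN, mul_one, ← pow_mul, mul_comm s, pow_mul, hy, eq_comm,
      eq_div_iff ((map_ne_zero _).2 x.ne_zero), ← pow_succ, Nat.sub_add_cancel hs1]))
  -- the gcd of `s - 1` and `N` is a small power of `ℓ`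
  obtain ⟨e, he, hg⟩ := (Nat.dvd_prime_pow hℓ.out).1 (hN ▸ Nat.gcd_dvd_right (s - 1) N)
  have hec : e ≤ c := by
    by_contra h
    exact hdvd ((pow_dvd_pow ℓ (by omega : c + 1 ≤ e)).trans (hg ▸ Nat.gcd_dvd_left _ _))
  refine ⟨e, hec, Units.mk0 r hr0 ^ Nat.gcdA (s - 1) N * x ^ Nat.gcdB (s - 1) N, ?_⟩
  have hb := Nat.gcd_eq_gcd_ab (s - 1) N
  rw [hg] at hb
  rw [← zpow_natCast x, hb, zpow_add, zpow_mul, zpow_natCast, ← hpow, mul_pow,
    ← zpow_natCast (Units.mk0 r hr0) N, ← zpow_natCast (_ ^ Nat.gcdA (s - 1) N),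
    ← zpow_natCast (_ ^ Nat.gcdB (s - 1) N), ← zpow_mul, ← zpow_mul, ← zpow_mul,
    mul_comm (Nat.gcdA _ _), mul_comm (Nat.gcdB _ _)]

/-- **A prime power.** -/
theorem exists_exponent_prime_pow (j : ℕ) :
    ∃ k, ∀ x : Kˣ, IsResidueAE (ℓ ^ k) x → ∃ w : Kˣ, w ^ ℓ ^ j = x := by
  set c := Module.finrank ℚ K
  obtain ⟨k', hk', hne⟩ := exists_tower_ne K ℓ (j + c + 1)
  refine ⟨k' + c, fun x hx => ?_⟩
  haveI : NeZero (ℓ ^ (k' + c)) := ⟨pow_ne_zero _ hℓ.out.ne_zero⟩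
  obtain ⟨e, he, w, hw⟩ := exists_pow_descent ℓ (k := k' + c) (by omega)
    (hx.exists_root (tower K ℓ (k' + c)))
  set ξ := x / w ^ ℓ ^ (k' + c - e)
  have hξe : ξ ^ ℓ ^ e = 1 := by
    rw [div_pow, hw, ← pow_mul, ← pow_add, Nat.sub_add_cancel (by omega), div_self']
  have hξr : IsResidueAE (ℓ ^ k') ξ := by
    rw [show ξ = x * (w ^ ℓ ^ (k' + c - e))⁻¹ from div_eq_mul_inv _ _]
    exact (hx.of_dvd (pow_dvd_pow ℓ (by omega))).mul
      (((isResidueAE_pow _ w).of_dvd (pow_dvd_pow ℓ (by omega))).inv)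
  have hξ1 : ξ = 1 := by
    by_contra hne1
    obtain ⟨i, -, hi⟩ := (Nat.dvd_prime_pow hℓ.out).1 (orderOf_dvd_of_pow_eq_one hξe)
    obtain ⟨i, rfl⟩ := Nat.exists_eq_succ_of_ne_zero (show i ≠ 0 by
      rintro rfl
      exact hne1 (orderOf_eq_one_iff.1 (by rw [hi, pow_zero])))
    haveI : NeZero (ℓ ^ k') := ⟨pow_ne_zero _ hℓ.out.ne_zero⟩
    obtain ⟨y, hy⟩ := hξr.exists_root (tower K ℓ k')
    have hord : orderOf (ξ : K) = ℓ ^ i.succ := by rw [orderOf_units, hi]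
    set y' : AlgebraicClosure K := ((y ^ ℓ ^ i : tower K ℓ k') : AlgebraicClosure K)
    have hy' : y' ^ ℓ ^ k' = algebraMap K (AlgebraicClosure K) ((ξ : K) ^ ℓ ^ i) := by
      simp only [y']
      rw [← IntermediateField.coe_pow, ← pow_mul, mul_comm, pow_mul, hy, ← map_pow]
      rfl
    have hprim : IsPrimitiveRoot y' (ℓ ^ (k' + 1)) := by
      rw [IsPrimitiveRoot.iff_orderOf]
      refine orderOf_eq_prime_pow ?_ ?_
      · rw [hy', ← map_one (algebraMap K (AlgebraicClosure K)),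
          (algebraMap K (AlgebraicClosure K)).injective.eq_iff]
        intro h
        have h1 := orderOf_dvd_of_pow_eq_one h
        rw [hord, Nat.pow_dvd_pow_iff_le_right hℓ.out.one_lt] at h1
        omega
      · rw [pow_succ, pow_mul, hy', ← map_pow, ← pow_mul, ← pow_succ, ← hord, pow_orderOf_eq_one,
          map_one]
    refine hne (le_antisymm ?_ (tower_le K ℓ (Nat.le_succ k')))
    haveI : NeZero (ℓ ^ (k' + 1)) := ⟨pow_ne_zero _ hℓ.out.ne_zero⟩
    obtain ⟨m, -, hm⟩ := hprim.eq_pow_of_pow_eq_one (towerRoot_spec K ℓ (k' + 1)).pow_eq_one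
    refine IntermediateField.adjoin_simple_le_iff.2 ?_
    rw [← hm]
    exact pow_mem (SetLike.coe_mem _) m
  refine ⟨w ^ ℓ ^ (k' + c - e - j), ?_⟩
  rw [← pow_mul, ← pow_add, Nat.sub_add_cancel (by omega)]
  exact (div_eq_one.1 hξ1).symm

omit hℓ in
/-- **For every `n` some exponent works.** -/
theorem exists_exponent {n : ℕ} (hn : 0 < n) :
    ∃ N, 0 < N ∧ ∀ x : Kˣ, IsResidueAE N x → ∃ w : Kˣ, w ^ n = x := by
  revert hn
  induction n using Nat.recOnPosPrimePosCoprime with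
  | prime_pow p j hp _ =>
    intro _
    haveI := Fact.mk hp
    obtain ⟨k, hk⟩ := exists_exponent_prime_pow (K := K) p j
    exact ⟨p ^ k, pow_pos hp.pos k, hk⟩
  | zero => intro h; exact absurd h (lt_irrefl 0)
  | one => exact fun _ => ⟨1, one_pos, fun x _ => ⟨x, pow_one x⟩⟩
  | coprime a b ha hb hco iha ihb =>
    intro _
    obtain ⟨A, hA0, hA⟩ := iha (by omega)
    obtain ⟨B, hB0, hB⟩ := ihb (by omega)
    refine ⟨A * B, Nat.mul_pos hA0 hB0, fun x hx => ?_⟩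
    obtain ⟨u, hu⟩ := hA x (hx.of_dvd (dvd_mul_right A B))
    obtain ⟨v, hv⟩ := hB x (hx.of_dvd (dvd_mul_left B A))
    have hg := Nat.gcd_eq_gcd_ab a b
    rw [hco.gcd_eq_one] at hg
    refine ⟨u ^ Nat.gcdB a b * v ^ Nat.gcdA a b, ?_⟩
    calc (u ^ Nat.gcdB a b * v ^ Nat.gcdA a b) ^ (a * b)
        = ((u ^ a) ^ ((b : ℤ) * Nat.gcdB a b)) * ((v ^ b) ^ ((a : ℤ) * Nat.gcdA a b)) := by
          simp only [← zpow_natCast, mul_zpow, ← zpow_mul, Nat.cast_mul]
          ring_nf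
      _ = x := by
          rw [hu, hv, ← zpow_add, add_comm, ← hg]
          simp

/-- **Chevalley's theorem.** -/
theorem exists_congruence_pow {B : Set (HeightOneSpectrum (𝓞 K))} (hB : B.Finite)
    {E : Subgroup Kˣ} (hE : E.FG) {n : ℕ} (hn : 0 < n) :
    ∃ T : Finset (HeightOneSpectrum (𝓞 K)), (∀ v ∈ T, v ∉ B) ∧
      ∀ x ∈ E, (∀ v ∈ T, x ∈ nearOne v 0) → ∃ w : Kˣ, w ^ n = x := by
  obtain ⟨N, hN0, hN⟩ := exists_exponent (K := K) hn
  haveI : Group.FG E := (Group.fg_iff_subgroup_fg E).2 hE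
  set P : Subgroup E := (powMonoidHom N : E →* E).range
  haveI : Group.FG (E ⧸ P) := QuotientGroup.fg P
  haveI : Finite (E ⧸ P) := CommGroup.finite_of_fg_isMulTorsion _ (by
    rintro ⟨x⟩
    refine isOfFinOrder_iff_pow_eq_one.2 ⟨N, hN0, ?_⟩
    exact (QuotientGroup.eq_one_iff _).2 ⟨x, rfl⟩)
  have hsep : ∀ q : E ⧸ P, ∃ v : HeightOneSpectrum (𝓞 K), v ∉ B ∧
      ((¬ ∃ w : Kˣ, w ^ n = (q.out : Kˣ)) → ∀ c : Kˣ, (q.out : Kˣ) / c ^ N ∉ nearOne v 0) := by
    intro q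
    by_contra! h
    obtain ⟨v₀, hv₀⟩ : ∃ v : HeightOneSpectrum (𝓞 K), v ∉ B :=
      ((FA.ArtinRec.infinite_artinAt (K := K) (1 : K ≃ₐ[K] K)).sdiff hB).nonempty.imp
        fun v hv => hv.2
    obtain ⟨hq, -⟩ := h v₀ hv₀
    exact absurd (hN (q.out : Kˣ) ⟨B, hB, fun v hv => (h v hv).2⟩) (fun ⟨w', hw''⟩ => hq w' hw'')
  choose v hvB hv using hsep
  haveI := Fintype.ofFinite (E ⧸ P)
  refine ⟨Finset.univ.image v, fun u hu => ?_, fun x hx hT => ?_⟩
  · obtain ⟨q, -, rfl⟩ := Finset.mem_image.1 hu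
    exact hvB q
  set q : E ⧸ P := QuotientGroup.mk ⟨x, hx⟩
  obtain ⟨d, hd⟩ : (⟨x, hx⟩ : E)⁻¹ * q.out ∈ P := QuotientGroup.eq.1 (QuotientGroup.out_eq' q).symm
  have he : (q.out : Kˣ) = x * (d : Kˣ) ^ N := by
    have h2 := congrArg (Subgroup.subtype E) hd
    simp only [powMonoidHom_apply, map_pow, map_mul, map_inv, Subgroup.coe_subtype] at h2
    rw [h2, mul_inv_cancel_left]
  by_cases hq : ∃ w : Kˣ, w ^ n = (q.out : Kˣ)
  · obtain ⟨w, hw⟩ := hq
    obtain ⟨w', hw'⟩ := hN ((d : Kˣ) ^ N) (isResidueAE_pow N _)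
    exact ⟨w / w', by rw [div_pow, hw, hw', he, mul_div_cancel_right]⟩
  · refine absurd ?_ (hv q hq (d : Kˣ))
    rw [he, mul_div_cancel_right]
    exact hT _ (Finset.mem_image_of_mem v (Finset.mem_univ q))

end FA.LocalCFT

end
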