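import Fermat.Agent.HilbertN.Residue
import Fermat.Agent.ExistenceTheorem.Uniqueness

/-!
# Local powers almost everywhere and the cyclotomic field

An element that is an `N`-th power residue at almost every prime is an `N`-th power in every field
with the `N`-th roots of unity: there the primes split completely in the field of its root.
-/

set_option autoImplicit false
set_option linter.unusedSectionVars false
set_option linter.style.haveILetI false

noncomputable section

open NumberField IsDedekindDomain WithZero IsMulCommutative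
open FA.ArtinRec FA.HilbertN
open FA.HasseCyclic (nearOne mem_nearOne exists_integer_near)
open scoped Classical

namespace FA.LocalCFT

universe u

variable {K : Type u} [Field K] [NumberField K]

/-- An `N`-th power residue at almost every prime. -/
def IsResidueAE (N : ℕ) (x : Kˣ) : Prop :=
  ∃ B : Set (HeightOneSpectrum (𝓞 K)), B.Finite ∧
    ∀ v ∉ B, ∃ c : Kˣ, x / c ^ N ∈ nearOne v 0

theorem IsResidueAE.mul {N : ℕ} {x y : Kˣ} (hx : IsResidueAE N x) (hy : IsResidueAE N y) :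
    IsResidueAE N (x * y) := by
  obtain ⟨B, hB, hxB⟩ := hx
  obtain ⟨C, hC, hyC⟩ := hy
  refine ⟨B ∪ C, hB.union hC, fun v hv => ?_⟩
  obtain ⟨c, hc⟩ := hxB v fun h => hv (Or.inl h)
  obtain ⟨d, hd⟩ := hyC v fun h => hv (Or.inr h)
  exact ⟨c * d, by rw [mul_pow, mul_div_mul_comm]; exact mul_mem hc hd⟩

theorem IsResidueAE.inv {N : ℕ} {x : Kˣ} (hx : IsResidueAE N x) : IsResidueAE N x⁻¹ := by
  obtain ⟨B, hB, h⟩ := hx
  refine ⟨B, hB, fun v hv => ?_⟩
  obtain ⟨c, hc⟩ := h v hv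
  exact ⟨c⁻¹, by rw [inv_pow, inv_div_inv, ← inv_div]; exact inv_mem hc⟩

theorem isResidueAE_pow (N : ℕ) (c : Kˣ) : IsResidueAE N (c ^ N) :=
  ⟨∅, Set.finite_empty, fun _ _ => ⟨c, by rw [div_self']; exact one_mem _⟩⟩

theorem IsResidueAE.of_dvd {N N' : ℕ} (h : N' ∣ N) {x : Kˣ} (hx : IsResidueAE N x) :
    IsResidueAE N' x := by
  obtain ⟨m, rfl⟩ := h
  obtain ⟨B, hB, h'⟩ := hx
  refine ⟨B, hB, fun v hv => ?_⟩
  obtain ⟨c, hc⟩ := h' v hv
  exact ⟨c ^ m, by rw [← pow_mul, mul_comm m]; exact hc⟩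

/-- An integer representative. -/
theorem IsResidueAE.exists_integer {N : ℕ} (hN : N ≠ 0) {x : Kˣ} (hx : IsResidueAE N x) :
    ∃ (X s : 𝓞 K) (hX : X ≠ 0) (hs : s ≠ 0), intU X hX = x * intU s hs ^ N ∧
      ∃ B : Set (HeightOneSpectrum (𝓞 K)), B.Finite ∧
        ∀ v ∉ B, X ∉ v.asIdeal ∧ ∃ c : 𝓞 K, X - c ^ N ∈ v.asIdeal := by
  obtain ⟨B, hB, hxB⟩ := hx
  obtain ⟨r, s, hr, hs, hxrs⟩ := exists_intU_div x
  obtain ⟨m, rfl⟩ := Nat.exists_eq_succ_of_ne_zero hN
  set X := r * s ^ m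
  have hX : X ≠ 0 := mul_ne_zero hr (pow_ne_zero m hs)
  have e : intU X hX = x * intU s hs ^ m.succ := Units.ext (by
    rw [hxrs, pow_succ', Units.val_mul, Units.val_mul, Units.val_pow_eq_pow_val,
      Units.val_div_eq_div_val, intU_val, intU_val, intU_val]
    have := RingOfIntegers.coe_ne_zero_iff.mpr hs
    field_simp
    simp [X])
  refine ⟨X, s, hX, hs, e, B ∪ {v | ord v (intU X hX) ≠ 0},
    hB.union (finite_ord_ne_zero _), fun v hv => ?_⟩
  simp only [Set.mem_union, Set.mem_ofPred_eq, not_or, not_not] at hv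
  refine ⟨(ord_intU_eq_zero_iff v hX).1 hv.2, ?_⟩
  obtain ⟨c, hc⟩ := hxB v hv.1
  set d := c * intU s hs
  have hd : intU X hX / d ^ m.succ ∈ nearOne v 0 := by
    rw [e, mul_pow, mul_div_mul_right_eq_div]
    exact hc
  have hord : ord v d = 0 := by
    have h := FA.HasseCyclic.ord_eq_zero_of_nearOne hd
    rw [ord_div, hv.2, ord_pow, zero_sub, neg_eq_zero, mul_eq_zero] at h
    exact h.resolve_left (Nat.cast_ne_zero.2 m.succ_ne_zero)
  obtain ⟨r', hr'⟩ := exists_integer_near v hord 0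
  obtain ⟨hne, hnear⟩ := hr' r' (by rw [sub_self]; exact Ideal.zero_mem _)
  refine ⟨r', ?_⟩
  have h2 : intU X hX / intU r' hne ^ m.succ ∈ nearOne v 0 := by
    rw [← div_mul_div_cancel (intU X hX) (d ^ m.succ) (intU r' hne ^ m.succ), ← div_pow d]
    exact mul_mem hd (pow_mem (by rw [← inv_div]; exact inv_mem hnear) _)
  have hr'v : v.valuation K ((r' : K) ^ m.succ) ≤ 1 := by
    rw [map_pow]
    exact pow_le_one₀ zero_le (v.valuation_le_one _)
  rw [mem_nearOne, Units.val_div_eq_div_val, Units.val_pow_eq_pow_val, intU_val, intU_val] at h2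
  have h3 : v.valuation K (((X - r' ^ m.succ : 𝓞 K) : K)) ≤ exp (-((1 : ℕ) : ℤ)) := by
    have hne' : ((r' : K) ^ m.succ) ≠ 0 := pow_ne_zero _ (RingOfIntegers.coe_ne_zero_iff.mpr hne)
    rw [show ((X - r' ^ m.succ : 𝓞 K) : K) =
      ((X : K) / (r' : K) ^ m.succ - 1) * (r' : K) ^ m.succ by field_simp; push_cast; ring, map_mul]
    exact (mul_le_of_le_one_right zero_le hr'v).trans h2
  rwa [v.valuation_of_algebraMap, v.intValuation_le_pow_iff_mem, pow_one] at h3

/-- A residue with trivial symbol is split. -/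
theorem artinAt_rootOne_eq_one {M : Type*} [Field M] [NumberField M] (n : ℕ) [NeZero n]
    [HasEnoughRootsOfUnity M n] {Q : HeightOneSpectrum (𝓞 M)} (hQ : (n : 𝓞 M) ∉ Q.asIdeal)
    {X : 𝓞 M} (hX : X ∉ Q.asIdeal) (hX0 : X ≠ 0) (h : ∃ y : 𝓞 M, X - y ^ n ∈ Q.asIdeal) :
    artinAt (RootOne n (intU X hX0)) Q = 1 := by
  refine kummerChar_root_injective n _ ?_
  rw [map_one, ← residueSymbol_eq n hQ hX (pow_sub_frob_mem n hQ hX hX0)]
  exact (residueSymbol_eq_one_iff n hQ hX).2 h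

/-- **A residue almost everywhere is a power in a field with the roots of unity.** -/
theorem IsResidueAE.exists_root {N : ℕ} [NeZero N] {x : Kˣ} (hx : IsResidueAE N x) (M : Type*)
    [Field M] [NumberField M] [Algebra K M] [HasEnoughRootsOfUnity M N] :
    ∃ y : M, y ^ N = algebraMap K M (x : K) := by
  obtain ⟨X, s, hX, hs, e, B, hB, hBX⟩ := hx.exists_integer (NeZero.ne N)
  set XM : 𝓞 M := algebraMap (𝓞 K) (𝓞 M) X
  have hXM : XM ≠ 0 := (map_ne_zero_iff _ (FaithfulSMul.algebraMap_injective (𝓞 K) (𝓞 M))).2 hX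
  haveI : IsMulCommutative (M ≃ₐ[M] M) := ⟨⟨fun a b => Subsingleton.elim _ _⟩⟩
  set B' : Set (HeightOneSpectrum (𝓞 M)) :=
    {Q | belowP K Q ∈ B} ∪ {Q | (N : 𝓞 M) ∈ Q.asIdeal}
  have hfin : B'.Finite := by
    refine Set.Finite.union ?_ ((Ideal.finite_factors (I := Ideal.span {(N : 𝓞 M)})
      (by simpa using NeZero.ne N)).subset fun Q hQ => Ideal.dvd_span_singleton.2 hQ)
    exact ((primesAbove M hB.toFinset).finite_toSet).subset fun Q hQ =>
      mem_primesAbove.2 (hB.mem_toFinset.2 hQ)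
  obtain ⟨f⟩ := exists_algHom_of_split (K := M) (L := M) (E := RootOne N (intU XM hXM)) hfin
    fun Q hQ _ => by
      simp only [B', Set.mem_union, Set.mem_ofPred_eq, not_or] at hQ
      obtain ⟨hXv, c, hc⟩ := hBX _ hQ.1
      exact artinAt_rootOne_eq_one N hQ.2 (fun h => hXv h) hXM
        ⟨algebraMap (𝓞 K) (𝓞 M) c, by
          rw [← map_pow, ← map_sub]
          exact hc⟩
  have h1 := congrArg f (root_pow N (intU XM hXM))
  rw [map_pow, f.commutes, Algebra.algebraMap_self, RingHom.id_apply, intU_val,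
    show ((XM : 𝓞 M) : M) = algebraMap K M (intU X hX : Kˣ) from rfl, e, Units.val_mul,
    Units.val_pow_eq_pow_val, map_mul, map_pow] at h1
  refine ⟨f (root N (intU XM hXM)) / algebraMap K M ((intU s hs : Kˣ) : K), ?_⟩
  rw [div_pow, h1, mul_div_cancel_right₀ _ (pow_ne_zero _ ((map_ne_zero _).2 (Units.ne_zero _)))]

end FA.LocalCFT

end
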